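import Fermat.Agent.MR.EC.Interface

/-!
# MR / EC : adapter.  The output `Stmt_FreyLocal` in the language of the torsion module
`S13.Tors P` (shapes announced by helper43 in report 1639, consumed by the MR skeleton).
-/

set_option autoImplicit false

namespace Fermat.Agent.MR.EC

open WeierstrassCurve WeierstrassCurve.Affine WeierstrassCurve.Affine.Point
open Fermat.Agent.ES.RepGalois (IsCyc)

/-- (E1) + (OMEGA): the line `⟨T₀⟩`. -/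
def Stmt_E1Om : Prop :=
  ∀ P : FreyPackage, (P.p : ℤ) ∣ P.a * P.b * P.c → ∀ A : ValuationSubring Qb,
    A.LiesOverPrime P.p → ∃ T₀ : S13.Tors P, T₀ ≠ 0 ∧
      (∀ σ ∈ A.inertiaSubgroupIn ℚ, ∀ x : S13.Tors P, ∃ k : ℕ, σ • x - x = k • T₀) ∧
      ∀ σ ∈ A.inertiaSubgroupIn ℚ, ∀ j : ℕ, IsCyc P.p σ j → σ • T₀ = j • T₀

/-- (E1) -/
def Stmt_E1 : Prop :=
  ∀ P : FreyPackage, (P.p : ℤ) ∣ P.a * P.b * P.c → ∀ A : ValuationSubring Qb,
    A.LiesOverPrime P.p → ∃ T₀ : S13.Tors P, T₀ ≠ 0 ∧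
      ∀ σ ∈ A.inertiaSubgroupIn ℚ, ∀ x : S13.Tors P, ∃ k : ℕ, σ • x - x = k • T₀

/-- (PEU) -/
def Stmt_PEU : Prop :=
  ∀ P : FreyPackage, (P.p : ℤ) ∣ P.a * P.b * P.c → ∀ A : ValuationSubring Qb,
    A.LiesOverPrime P.p → ∃ β : Qb, A.valuation β = 1 ∧
      (∀ σ ∈ A.inertiaSubgroupIn ℚ, σ (β ^ P.p) = β ^ P.p) ∧
      ∀ σ ∈ A.inertiaSubgroupIn ℚ, (∀ z : Qb, z ^ P.p = 1 → σ z = z) → σ β = β →
        ∀ x : S13.Tors P, σ • x = x

/-- (PEU'), with the extra information `β ^ p ≡ 1`. -/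
def Stmt_PEU' : Prop :=
  ∀ P : FreyPackage, (P.p : ℤ) ∣ P.a * P.b * P.c → ∀ A : ValuationSubring Qb,
    A.LiesOverPrime P.p → ∃ β : Qb, A.valuation β = 1 ∧ A.valuation (β ^ P.p - 1) < 1 ∧
      (∀ σ ∈ A.inertiaSubgroupIn ℚ, σ (β ^ P.p) = β ^ P.p) ∧
      ∀ σ ∈ A.inertiaSubgroupIn ℚ, (∀ z : Qb, z ^ P.p = 1 → σ z = z) → σ β = β →
        ∀ x : S13.Tors P, σ • x = x

theorem Adapter_mem_tors (P : FreyPackage) (R : (P.freyCurve⁄Qb).Point) :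
    R ∈ S13.Tors P ↔ P.p • R = 0 := by
  rw [Submodule.mem_torsionBy_iff]
  constructor
  · intro h
    rw [← natCast_zsmul]
    exact h
  · intro h
    rw [← natCast_zsmul] at h
    exact h

theorem stmt_E1Om (h : Stmt_FreyLocal) : Stmt_E1Om := by
  intro P hP A hA
  obtain ⟨T₀, hT0, hpT, h1, h2, -⟩ := h P hP A hA
  refine ⟨⟨T₀, (Adapter_mem_tors P T₀).2 hpT⟩, ?_, ?_, ?_⟩
  · intro h0
    exact hT0 (congrArg Subtype.val h0)
  · intro σ hσ x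
    obtain ⟨k, hk⟩ := h1 σ hσ x.1 ((Adapter_mem_tors P x.1).1 x.2)
    exact ⟨k, Subtype.ext hk⟩
  · intro σ hσ j hj
    exact Subtype.ext (h2 σ hσ j hj)

theorem stmt_E1 (h : Stmt_FreyLocal) : Stmt_E1 := by
  intro P hP A hA
  obtain ⟨T₀, h0, h1, -⟩ := stmt_E1Om h P hP A hA
  exact ⟨T₀, h0, h1⟩

theorem stmt_PEU' (h : Stmt_FreyLocal) : Stmt_PEU' := by
  intro P hP A hA
  obtain ⟨T₀, -, -, -, -, β, d₀, hβ, hd, hd', hd1, hfix, hall⟩ := h P hP A hA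
  have hp0 : P.p ≠ 0 := by
    have := P.hp5
    omega
  have hv : A.valuation d₀ = 1 := by
    have h1 : A.valuation d₀ ≤ 1 := (A.valuation_le_one_iff d₀).2 hd
    have h2 : A.valuation d₀⁻¹ ≤ 1 := (A.valuation_le_one_iff d₀⁻¹).2 hd'
    by_cases h0 : d₀ = 0
    · exfalso
      rw [h0, zero_sub, Valuation.map_neg, map_one] at hd1
      exact lt_irrefl _ hd1
    · rw [map_inv₀] at h2
      have h3 : 0 < A.valuation d₀ := (Valuation.pos_iff _).2 h0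
      have h4 : 1 ≤ A.valuation d₀ := (inv_le_one₀ h3).1 h2
      exact le_antisymm h1 h4
  refine ⟨β, ?_, ?_, ?_, ?_⟩
  · rw [← hβ, map_pow] at hv
    exact (pow_eq_one_iff_left hp0).1 hv
  · rw [hβ]
    exact hd1
  · intro σ hσ
    rw [hβ]
    exact hfix σ hσ
  · intro σ hσ hz hb x
    refine Subtype.ext (hall σ hσ ?_ hb x.1 ((Adapter_mem_tors P x.1).1 x.2))
    intro ζ hζ
    rw [pow_one]
    exact hz ζ hζ

theorem stmt_PEU (h : Stmt_FreyLocal) : Stmt_PEU := by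
  intro P hP A hA
  obtain ⟨β, h1, -, h2, h3⟩ := stmt_PEU' h P hP A hA
  exact ⟨β, h1, h2, h3⟩

end Fermat.Agent.MR.EC
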