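import Fermat.Agent.MR.EC.Interface

/-!
# MR / EC : task EC-BLR (helper68)

Two modules with the same quadratic relations, the first one spanning a full `2 × 2` matrix
algebra, have the same annihilator in the group algebra.
-/

set_option autoImplicit false

namespace Fermat.Agent.MR.EC

open Fermat.Agent.ES.Rep23 (QuadRel)

section BLRabs

variable {k R B : Type*} [Field k] [Ring R] [Ring B] [Algebra k B]

theorem BLR_claimA (π₁ : R →+* Matrix (Fin 2) (Fin 2) k) (π₂ : R →+* B) (st : R → R) (T : R → k)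
    (h2 : (2 : k) ≠ 0)
    (S1 : ∀ x y, st (x * y) = st y * st x) (S2 : ∀ x, st (st x) = x)
    (S3 : ∀ x, π₁ x + π₁ (st x) = T x • 1) (S3' : ∀ x, π₂ x + π₂ (st x) = T x • 1)
    (hs : Function.Surjective π₁) (Z : R) (hZ : π₁ Z = 0) : π₂ Z = 0 := by
  have h1 : π₁ (st Z) = T Z • 1 := by
    have := S3 Z
    rwa [hZ, zero_add] at this
  have h1' : ∀ x, T (Z * x) • (1 : Matrix (Fin 2) (Fin 2) k) = T Z • π₁ (st x) := by
    intro x
    rw [← S3 (Z * x), map_mul, hZ, zero_mul, zero_add, S1, map_mul, h1, mul_smul_comm, mul_one]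
  have hTZ : T Z = 0 := by
    obtain ⟨x', hx'⟩ := hs !![0, 1; 0, 0]
    have h := h1' (st x')
    rw [S2, hx'] at h
    have h' := congrFun (congrFun h 0) 1
    simpa using h'.symm
  have hTZx : ∀ x, T (Z * x) = 0 := by
    intro x
    have h := h1' x
    rw [hTZ, zero_smul] at h
    have h' := congrFun (congrFun h 0) 0
    simpa using h'
  set z := π₂ Z with hz
  have h3 : π₂ (st Z) = - z := by
    have h := S3' Z
    rw [hTZ, zero_smul] at h
    exact eq_neg_of_add_eq_zero_right h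
  have h4 : ∀ x, z * π₂ x = π₂ (st x) * z := by
    intro x
    have h := S3' (Z * x)
    rw [hTZx, zero_smul, S1, map_mul, map_mul, h3, mul_neg, ← sub_eq_add_neg, sub_eq_zero] at h
    exact h
  have h5 : ∀ a b, (π₂ a * π₂ b - π₂ b * π₂ a) * z = 0 := by
    intro a b
    have e1 : z * (π₂ (st a) * π₂ (st b)) = π₂ a * π₂ b * z := by
      rw [← mul_assoc, h4, S2, mul_assoc, h4, S2, mul_assoc]
    have e2 : z * π₂ (st a * st b) = π₂ b * π₂ a * z := by
      rw [h4, S1, S2, S2, map_mul]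
    rw [sub_mul, ← e1, ← e2, map_mul, sub_self]
  have h6 : ∀ a b, z * (π₂ a * π₂ b - π₂ b * π₂ a) = 0 := by
    intro a b
    rw [mul_sub, ← map_mul π₂ a b, ← map_mul π₂ b a, h4, h4, S1, S1, map_mul, map_mul, ← sub_mul]
    exact h5 _ _
  obtain ⟨a, ha⟩ := hs !![0, 1; 0, 0]
  obtain ⟨b, hb⟩ := hs !![0, 0; 1, 0]
  set m := a * b - b * a with hm
  have hm1 : π₁ m = !![1, 0; 0, -1] := by
    rw [hm, map_sub, map_mul, map_mul, ha, hb]
    ext i j
    fin_cases i <;> fin_cases j <;> simp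
  have hm2 : π₂ m * z = 0 := by
    rw [hm, map_sub, map_mul, map_mul]; exact h5 a b
  have hm3 : π₂ (st m) * z = 0 := by
    rw [← h4, hm, map_sub, map_mul, map_mul]; exact h6 a b
  have hst : π₁ (st m) = T m • 1 - !![1, 0; 0, -1] := by
    rw [← S3 m, hm1]; abel
  have hc := S3 (m * m)
  rw [S1, map_mul, map_mul, hm1, hst] at hc
  have hc0 := congrFun (congrFun hc 0) 0
  have hc1 := congrFun (congrFun hc 1) 1
  simp [Matrix.mul_apply, Fin.sum_univ_two] at hc0 hc1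
  have hTm : T m = 0 := by
    have h4' : (2 : k) * 2 * T m = 0 := by linear_combination hc1 - hc0
    rcases mul_eq_zero.mp h4' with h | h
    · exact absurd (mul_self_eq_zero.mp h) h2
    · exact h
  have hTc : T (m * m) = 2 := by
    rw [hTm] at hc0
    rw [← hc0]; norm_num
  have h7 : (π₂ (m * m) + π₂ (st (m * m))) * z = 0 := by
    rw [S1, map_mul, map_mul, add_mul, mul_assoc, hm2, mul_zero, mul_assoc, hm3, mul_zero, add_zero]
  rw [S3', hTc, smul_mul_assoc, one_mul] at h7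
  exact (smul_eq_zero.mp h7).resolve_left h2

theorem BLR_sum_single (M : Matrix (Fin 2) (Fin 2) k) (i j : Fin 2) :
    Matrix.single (0 : Fin 2) i (1 : k) * M * Matrix.single j (0 : Fin 2) (1 : k)
      + Matrix.single (1 : Fin 2) i (1 : k) * M * Matrix.single j (1 : Fin 2) (1 : k)
        = M i j • (1 : Matrix (Fin 2) (Fin 2) k) := by
  ext a b
  fin_cases a <;> fin_cases b <;> fin_cases i <;> fin_cases j <;>
    simp [Matrix.mul_apply, Matrix.single]

omit [Algebra k B] in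
theorem BLR_claimB [Nontrivial B] (π₁ : R →+* Matrix (Fin 2) (Fin 2) k) (π₂ : R →+* B)
    (hA : ∀ Z, π₁ Z = 0 → π₂ Z = 0)
    (hs : Function.Surjective π₁) (Z : R) (hZ : π₂ Z = 0) : π₁ Z = 0 := by
  by_contra hne
  obtain ⟨i, j, hij⟩ : ∃ i j, π₁ Z i j ≠ 0 := by
    by_contra hcon
    push Not at hcon
    exact hne (Matrix.ext hcon)
  obtain ⟨x0, hx0⟩ := hs ((π₁ Z i j)⁻¹ • Matrix.single 0 i (1 : k))
  obtain ⟨x1, hx1⟩ := hs ((π₁ Z i j)⁻¹ • Matrix.single 1 i (1 : k))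
  obtain ⟨y0, hy0⟩ := hs (Matrix.single j 0 (1 : k))
  obtain ⟨y1, hy1⟩ := hs (Matrix.single j 1 (1 : k))
  have hu1 : π₁ (1 - (x0 * Z * y0 + x1 * Z * y1)) = 0 := by
    rw [map_sub, map_one, map_add, map_mul, map_mul, map_mul, map_mul, hx0, hx1, hy0, hy1,
      smul_mul_assoc, smul_mul_assoc, smul_mul_assoc, smul_mul_assoc, ← smul_add, BLR_sum_single,
      smul_smul, inv_mul_cancel₀ hij, one_smul, sub_self]
  have hu2 := hA _ hu1
  rw [map_sub, map_one, map_add, map_mul, map_mul, map_mul, map_mul, hZ] at hu2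
  simp at hu2

end BLRabs

section BLRconc

variable {k G : Type*} [Field k] [Group G]

/-- `g ↦ op (ε g • g⁻¹)` as a monoid hom into the opposite algebra. -/
noncomputable def BLR_F (ε : G →* k) : G →* (MonoidAlgebra k G)ᵐᵒᵖ where
  toFun g := MulOpposite.op (MonoidAlgebra.single g⁻¹ (ε g))
  map_one' := by simp [MonoidAlgebra.one_def]
  map_mul' g h := by
    rw [← MulOpposite.op_mul, MonoidAlgebra.single_mul_single, mul_inv_rev, map_mul, mul_comm (ε g)]

/-- the anti-involution `g ↦ ε g • g⁻¹`. -/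
noncomputable def BLR_st (ε : G →* k) (x : MonoidAlgebra k G) : MonoidAlgebra k G :=
  MulOpposite.unop (MonoidAlgebra.lift k _ G (BLR_F ε) x)

theorem BLR_st_mul (ε : G →* k) (x y : MonoidAlgebra k G) :
    BLR_st ε (x * y) = BLR_st ε y * BLR_st ε x := by
  simp [BLR_st]

theorem BLR_st_add (ε : G →* k) (x y : MonoidAlgebra k G) :
    BLR_st ε (x + y) = BLR_st ε x + BLR_st ε y := by
  simp [BLR_st]

theorem BLR_st_zero (ε : G →* k) : BLR_st ε 0 = 0 := by
  simp [BLR_st]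

theorem BLR_st_single (ε : G →* k) (g : G) (c : k) :
    BLR_st ε (MonoidAlgebra.single g c) = MonoidAlgebra.single g⁻¹ (c * ε g) := by
  simp [BLR_st, BLR_F]

theorem BLR_st_st (ε : G →* k) (x : MonoidAlgebra k G) : BLR_st ε (BLR_st ε x) = x := by
  induction x using MonoidAlgebra.induction_linear with
  | zero => simp [BLR_st_zero]
  | add x y hx hy => rw [BLR_st_add, BLR_st_add, hx, hy]
  | single g c =>
    rw [BLR_st_single, BLR_st_single, inv_inv, mul_assoc, ← map_mul, mul_inv_cancel, map_one,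
      mul_one]

theorem BLR_trace {A₁ A₂ : Type*} [Ring A₁] [Algebra k A₁] [Ring A₂] [Algebra k A₂]
    (ρ₁ : G →* A₁) (ρ₂ : G →* A₂) (ε : G →* k) (t : G → k)
    (h₁ : QuadRel ρ₁ ε t) (h₂ : QuadRel ρ₂ ε t) (x : MonoidAlgebra k G) :
    ∃ τ : k, MonoidAlgebra.lift k _ G ρ₁ x + MonoidAlgebra.lift k _ G ρ₁ (BLR_st ε x) = τ • 1 ∧
      MonoidAlgebra.lift k _ G ρ₂ x + MonoidAlgebra.lift k _ G ρ₂ (BLR_st ε x) = τ • 1 := by
  induction x using MonoidAlgebra.induction_linear with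
  | zero => exact ⟨0, by simp [BLR_st_zero], by simp [BLR_st_zero]⟩
  | add x y hx hy =>
    obtain ⟨a, ha1, ha2⟩ := hx
    obtain ⟨b, hb1, hb2⟩ := hy
    refine ⟨a + b, ?_, ?_⟩
    · rw [BLR_st_add, map_add, map_add, add_smul, ← ha1, ← hb1]; abel
    · rw [BLR_st_add, map_add, map_add, add_smul, ← ha2, ← hb2]; abel
  | single g c =>
    refine ⟨c * t g, ?_, ?_⟩
    · rw [BLR_st_single, MonoidAlgebra.lift_single, MonoidAlgebra.lift_single, mul_smul, mul_smul,
        h₁.inv_rel g, ← smul_add]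
      congr 1; abel
    · rw [BLR_st_single, MonoidAlgebra.lift_single, MonoidAlgebra.lift_single, mul_smul, mul_smul,
        h₂.inv_rel g, ← smul_add]
      congr 1; abel

theorem BLR_lift_surj {A : Type*} [Ring A] [Algebra k A] (ρ : G →* A)
    (h : Submodule.span k (Set.range ρ) = ⊤) :
    Function.Surjective (MonoidAlgebra.lift k _ G ρ) := by
  intro y
  have hy : y ∈ Submodule.span k (Set.range ρ) := by rw [h]; trivial
  induction hy using Submodule.span_induction with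
  | mem x hx =>
    obtain ⟨g, rfl⟩ := hx
    exact ⟨MonoidAlgebra.single g 1, by simp⟩
  | zero => exact ⟨0, map_zero _⟩
  | add x y _ _ hx hy =>
    obtain ⟨a, rfl⟩ := hx
    obtain ⟨b, rfl⟩ := hy
    exact ⟨a + b, map_add _ _ _⟩
  | smul c x _ hx =>
    obtain ⟨a, rfl⟩ := hx
    exact ⟨c • a, map_smul _ _ _⟩

theorem BLR_main {Y₁ Y₂ : Type*} [AddCommGroup Y₁] [Module k Y₁] [AddCommGroup Y₂]
    [Module k Y₂] [Nontrivial Y₂] (ρ₁ : G →* Module.End k Y₁) (ρ₂ : G →* Module.End k Y₂)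
    (ε : G →* k) (t : G → k) (h2 : (2 : k) ≠ 0) (h₁ : QuadRel ρ₁ ε t) (h₂ : QuadRel ρ₂ ε t)
    (hr : Module.finrank k Y₁ = 2) (hspan : Submodule.span k (Set.range ρ₁) = ⊤)
    (Z : MonoidAlgebra k G) :
    MonoidAlgebra.lift k _ G ρ₁ Z = 0 ↔ MonoidAlgebra.lift k _ G ρ₂ Z = 0 := by
  classical
  have : Module.Finite k Y₁ := Module.finite_of_finrank_pos (by rw [hr]; norm_num)
  have b : Module.Basis (Fin 2) k Y₁ := Module.finBasisOfFinrankEq k Y₁ hr
  set e := LinearMap.toMatrixAlgEquiv b with he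
  set π₁ : MonoidAlgebra k G →+* Matrix (Fin 2) (Fin 2) k :=
    (e : Module.End k Y₁ →+* Matrix (Fin 2) (Fin 2) k).comp
      (MonoidAlgebra.lift k _ G ρ₁ : MonoidAlgebra k G →+* Module.End k Y₁) with hπ₁
  set π₂ : MonoidAlgebra k G →+* Module.End k Y₂ :=
    (MonoidAlgebra.lift k _ G ρ₂ : MonoidAlgebra k G →+* Module.End k Y₂) with hπ₂
  have hπ₁a : ∀ x, π₁ x = e (MonoidAlgebra.lift k _ G ρ₁ x) := fun x => rfl
  have hπ₂a : ∀ x, π₂ x = MonoidAlgebra.lift k _ G ρ₂ x := fun x => rfl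
  have hs : Function.Surjective π₁ := by
    intro y
    obtain ⟨x, hx⟩ := BLR_lift_surj ρ₁ hspan (e.symm y)
    exact ⟨x, by rw [hπ₁a, hx, AlgEquiv.apply_symm_apply]⟩
  choose T hT1 hT2 using BLR_trace ρ₁ ρ₂ ε t h₁ h₂
  have hA : ∀ Z, π₁ Z = 0 → π₂ Z = 0 := by
    refine BLR_claimA π₁ π₂ (BLR_st ε) T h2 (BLR_st_mul ε) (BLR_st_st ε) ?_ hT2 hs
    intro x
    rw [hπ₁a, hπ₁a, ← map_add, hT1, map_smul, map_one]
  have hB := BLR_claimB π₁ π₂ hA hs
  constructor
  · intro h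
    exact hA Z (by rw [hπ₁a, h, map_zero])
  · intro h
    have := hB Z h
    rw [hπ₁a] at this
    exact (map_eq_zero_iff e e.injective).mp this

end BLRconc

theorem stmt_BLR : Stmt_BLR := by
  intro k G Y₁ Y₂ _ _ _ _ _ _ _ ρ₁ ρ₂ ε t h2 h₁ h₂ hr hspan s c
  have h := BLR_main ρ₁ ρ₂ ε t h2 h₁ h₂ hr hspan (∑ g ∈ s, MonoidAlgebra.single g (c g))
  simpa [map_sum] using h

end Fermat.Agent.MR.EC
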