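import Fermat.Agent.MR.EC.Interface

/-!
# MR / EC : valuation algebra of "deep" elements (`v a ^ (p - 1) < v p`)

`stmt_DeepPow`, `stmt_DeepRoot`, `stmt_DeepGrp`.
-/

set_option autoImplicit false

namespace Fermat.Agent.MR.EC

open Polynomial

section

variable {K Γ₀ : Type} [Field K] [LinearOrderedCommGroupWithZero Γ₀] (v : Valuation K Γ₀)

theorem DEEP_natCast_le_one (n : ℕ) : v (n : K) ≤ 1 := by
  induction n with
  | zero => simp
  | succ n ih =>
    rw [Nat.cast_succ]
    exact (v.map_add _ _).trans (max_le ih (le_of_eq v.map_one))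

variable {v}

theorem DEEP_lt_one_of_pow_lt_one {g : Γ₀} {n : ℕ} (h : g ^ n < 1) : g < 1 := by
  by_contra hc
  exact absurd h (not_lt.2 (one_le_pow₀ (not_lt.1 hc)))

theorem DEEP_lt_one {p : ℕ} {a : K} (h : Deep v p a) : v a < 1 :=
  DEEP_lt_one_of_pow_lt_one (lt_of_lt_of_le h (DEEP_natCast_le_one v p))

theorem DEEP_p_pos {p : ℕ} {a : K} (h : Deep v p a) : 0 < v (p : K) :=
  lt_of_le_of_lt zero_le h

theorem DEEP_of_le {p : ℕ} {a b : K} (h : Deep v p a) (hb : v b ≤ v a) : Deep v p b :=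
  lt_of_le_of_lt (pow_le_pow_left₀ zero_le hb _) h

theorem DEEP_add {p : ℕ} {a b : K} (ha : Deep v p a) (hb : Deep v p b) : Deep v p (a + b) := by
  rcases le_total (v a) (v b) with h | h
  · exact DEEP_of_le hb ((v.map_add _ _).trans (max_le h le_rfl))
  · exact DEEP_of_le ha ((v.map_add _ _).trans (max_le le_rfl h))

theorem DEEP_mul {p : ℕ} {a b : K} (ha : Deep v p a) (hb : v b ≤ 1) : Deep v p (a * b) := by
  refine DEEP_of_le ha ?_
  rw [v.map_mul]
  exact mul_le_of_le_one_right' hb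

end

theorem stmt_DeepPow : Stmt_DeepPow := by
  intro K Γ₀ _ _ v p hp δ hδ
  have hp0 : 0 < v (p : K) := DEEP_p_pos hδ
  have hδ1 : v δ < 1 := DEEP_lt_one hδ
  rcases eq_or_ne δ 0 with rfl | hδ0
  · simp
  have hδpos : 0 < v δ := by
    rw [pos_iff_ne_zero]
    exact (v.ne_zero_iff).2 hδ0
  obtain ⟨m, rfl⟩ : ∃ m, p = m + 2 := ⟨p - 2, by have := hp.two_le; omega⟩
  have hg : 0 < v ((m + 2 : ℕ) : K) * v δ := mul_pos hp0 hδpos
  -- the expansion
  have hexp : (1 + δ) ^ (m + 2) - 1 = ((m + 2 : ℕ) : K) * δ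
      + ∑ i ∈ Finset.range (m + 1), δ ^ (i + 2) * (((m + 2).choose (i + 2) : ℕ) : K) := by
    rw [add_comm 1 δ, add_pow, Finset.sum_range_succ', Finset.sum_range_succ']
    simp only [one_pow, mul_one, pow_zero, Nat.choose_zero_right, Nat.cast_one, zero_add, pow_one,
      Nat.choose_one_right]
    ring
  have hsmall : v (∑ i ∈ Finset.range (m + 1),
      δ ^ (i + 2) * (((m + 2).choose (i + 2) : ℕ) : K)) < v ((m + 2 : ℕ) : K) * v δ := by
    refine v.map_sum_lt' hg fun i hi => ?_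
    rw [Finset.mem_range] at hi
    rw [v.map_mul, v.map_pow]
    rcases Nat.lt_succ_iff_lt_or_eq.1 hi with hlt | rfl
    · -- `p ∣ choose`
      obtain ⟨c, hc⟩ := hp.dvd_choose_self (k := i + 2) (by omega) (by omega)
      have h1 : v (((m + 2).choose (i + 2) : ℕ) : K) ≤ v ((m + 2 : ℕ) : K) := by
        rw [hc, Nat.cast_mul, v.map_mul]
        exact mul_le_of_le_one_right' (DEEP_natCast_le_one v c)
      have h2 : v δ ^ (i + 2) < v δ := by
        calc v δ ^ (i + 2) ≤ v δ ^ 2 := pow_le_pow_of_le_one zero_le hδ1.le (by omega)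
          _ = v δ * v δ := sq _
          _ < v δ * 1 := mul_lt_mul_of_pos_left hδ1 hδpos
          _ = v δ := mul_one _
      calc v δ ^ (i + 2) * v (((m + 2).choose (i + 2) : ℕ) : K)
          ≤ v δ ^ (i + 2) * v ((m + 2 : ℕ) : K) := mul_le_mul_right h1 _
        _ < v δ * v ((m + 2 : ℕ) : K) := mul_lt_mul_of_pos_right h2 hp0
        _ = _ := mul_comm _ _
    · rw [Nat.choose_self, Nat.cast_one, v.map_one, mul_one]
      have h3 : v δ ^ (i + 2 - 1) < v ((i + 2 : ℕ) : K) := hδ
      calc v δ ^ (i + 2) = v δ ^ (i + 2 - 1) * v δ := by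
            rw [← pow_succ]; congr 1
        _ < _ := mul_lt_mul_of_pos_right h3 hδpos
  rw [hexp, v.map_add_eq_of_lt_left (by rw [v.map_mul]; exact hsmall), v.map_mul]

theorem stmt_DeepRoot : Stmt_DeepRoot := by
  intro K Γ₀ _ _ _ v p hp e he
  classical
  set f : K[X] := X ^ p - C (1 + e) with hf
  have hmon : f.Monic := monic_X_pow_sub_C _ hp.ne_zero
  have hspl : f.Splits := IsAlgClosed.splits f
  have hcard : Multiset.card f.roots = p := by
    rw [← hspl.natDegree_eq_card_roots, hf, natDegree_X_pow_sub_C]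
  have hprod : (f.roots.map (fun η => v (1 - η))).prod = v e := by
    have h1 := hspl.eval_eq_prod_roots_of_monic hmon 1
    have h2 : f.eval 1 = -e := by
      rw [hf]; simp
    rw [h2] at h1
    have h3 := congrArg v h1
    rw [v.map_neg, map_multiset_prod, Multiset.map_map] at h3
    exact h3.symm
  -- a root minimising `v (1 - η)`
  have hne : f.roots.toFinset.Nonempty := by
    rw [Multiset.toFinset_nonempty, ← Multiset.card_pos, hcard]
    exact hp.pos
  obtain ⟨η, hη, hmin⟩ := Finset.exists_min_image f.roots.toFinset (fun η => v (1 - η)) hne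
  rw [Multiset.mem_toFinset] at hη
  have hle : v (1 - η) ^ p ≤ v e := by
    rw [← hprod, ← hcard]
    have := Multiset.pow_card_le_prod (s := f.roots.map (fun η => v (1 - η))) (a := v (1 - η)) (by
      intro x hx
      obtain ⟨y, hy, rfl⟩ := Multiset.mem_map.1 hx
      exact hmin y (Multiset.mem_toFinset.2 hy))
    rwa [Multiset.card_map] at this
  refine ⟨η, ?_, ?_⟩
  · have h1 := (mem_roots hmon.ne_zero).1 hη
    rw [IsRoot.def, hf, eval_sub, eval_pow, eval_X, eval_C, sub_eq_zero] at h1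
    exact h1
  · unfold Deep
    rw [v.map_sub_swap]
    refine lt_of_pow_lt_pow_left₀ p zero_le ?_
    calc (v (1 - η) ^ (p - 1)) ^ p = (v (1 - η) ^ p) ^ (p - 1) := by
          rw [← pow_mul, ← pow_mul, mul_comm]
      _ ≤ v e ^ (p - 1) := pow_le_pow_left₀ zero_le hle _
      _ < _ := he

theorem stmt_DeepGrp : Stmt_DeepGrp := by
  intro K Γ₀ _ _ v p hp hp2 hp0 hp1
  have hpos : 0 < v (p : K) := by
    rw [pos_iff_ne_zero]
    exact (v.ne_zero_iff).2 hp0
  have h3 : 3 ≤ p := by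
    have := hp.two_le
    omega
  refine ⟨fun a b ha hb => ?_, fun a ha => ?_, fun e he => ?_, fun a ha => DEEP_lt_one ha⟩
  · have e : a * b - 1 = (a - 1) * (b - 1) + (a - 1) + (b - 1) := by ring
    rw [e]
    exact DEEP_add (DEEP_add (DEEP_mul ha (DEEP_lt_one hb).le) ha) hb
  · have h1 : v (a - 1) < 1 := DEEP_lt_one ha
    have hva : v a = 1 := by
      have := v.map_one_add_of_lt h1
      rwa [add_sub_cancel] at this
    have ha0 : a ≠ 0 := by
      rintro rfl
      simp at hva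
    refine DEEP_of_le ha (le_of_eq ?_)
    have e : a⁻¹ - 1 = -(a - 1) * a⁻¹ := by field_simp; ring
    rw [e, v.map_mul, v.map_neg, map_inv₀, hva, inv_one, mul_one]
  · have h4 : v e ^ (p - 1) ≤ v (p : K) ^ (2 * (p - 1)) := by
      rw [pow_mul]
      exact pow_le_pow_left₀ zero_le he _
    have h5 : v (p : K) ^ (2 * (p - 1)) < v (p : K) ^ p :=
      pow_lt_pow_right_of_lt_one₀ hpos hp1 (by omega)
    have h6 : v (p : K) ^ p ≤ v (p : K) := by
      calc v (p : K) ^ p ≤ v (p : K) ^ 1 := pow_le_pow_of_le_one zero_le hp1.le (by omega)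
        _ = _ := pow_one _
    exact ⟨lt_of_le_of_lt h4 (lt_of_lt_of_le h5 h6), lt_of_le_of_lt h4 h5⟩

end Fermat.Agent.MR.EC
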