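import Fermat.Agent.MR.EC.Interface

/-!
# MR / EC, task EC-CYCGAL (helper8, task 1116)

`E₁[p]` is cyclic (`stmt_E1Cyc`) and inertia acts on it through the cyclotomic character
(`stmt_E1Gal`).
-/

set_option autoImplicit false

namespace Fermat.Agent.MR.EC

open WeierstrassCurve WeierstrassCurve.Affine WeierstrassCurve.Affine.Point
open Fermat.Agent.S05 (InE0 InE1 zc)

theorem CYCGAL_E0_of_E1 {K Γ₀ : Type} [Field K] [LinearOrderedCommGroupWithZero Γ₀]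
    (v : Valuation K Γ₀) {E : WeierstrassCurve.Affine K} (P : E.Point) (h : InE1 v P) :
    InE0 v P := by
  rcases P with _ | ⟨x, y, hxy⟩
  · exact trivial
  · exact le_of_lt (show 1 < v x from h)

/-- `a / b = (a / ζ) * (b / ζ)⁻¹`. -/
theorem CYCGAL_div_eq {K : Type} [Field K] (a b ζ : K) (hζ : ζ ≠ 0) :
    a / b = (a / ζ) * (b / ζ)⁻¹ := by
  rw [inv_div, div_mul_div_comm, mul_comm ζ b, mul_div_mul_right _ _ hζ]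

/-- powers of elements of `1 + Deep`. -/
theorem CYCGAL_deep_pow (hG : Stmt_DeepGrp) {K Γ₀ : Type} [Field K]
    [LinearOrderedCommGroupWithZero Γ₀] (v : Valuation K Γ₀) (p : ℕ) (hp : p.Prime) (hp2 : p ≠ 2)
    (hp0 : (p : K) ≠ 0) (hvp : v (p : K) < 1) (a : K) (ha : Deep v p (a - 1)) (k : ℕ) :
    Deep v p (a ^ k - 1) := by
  obtain ⟨hG1, -, hG3, -⟩ := hG K Γ₀ v p hp hp2 hp0 hvp
  induction k with
  | zero =>
    rw [pow_zero, sub_self]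
    exact (hG3 0 (by simp)).1
  | succ k ih =>
    rw [pow_succ]
    exact hG1 _ _ ih ha

/-- (AUX) if `tt T ∈ ζ (1 + Deep)` then `tt (k T) ∈ ζ ^ k (1 + Deep)`. -/
theorem CYCGAL_aux (hP : Stmt_TTPow) (hG : Stmt_DeepGrp) {K Γ₀ : Type} [Field K] [DecidableEq K]
    [LinearOrderedCommGroupWithZero Γ₀] (v : Valuation K Γ₀) (E : WeierstrassCurve.Affine K)
    (α : K) (p : ℕ) (hM : MSet v E α) (hp : p.Prime) (hp2 : p ≠ 2) (hp0 : (p : K) ≠ 0)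
    (hvp : v (p : K) < 1) (ha4 : v E.a₄ ≤ v (p : K) ^ 2) (T : E.Point) (hT1 : InE1 v T) (ζ : K)
    (hd : Deep v p (tt α T / ζ - 1)) (k : ℕ) : Deep v p (tt α (k • T) / ζ ^ k - 1) := by
  obtain ⟨hG1, -, hG3, -⟩ := hG K Γ₀ v p hp hp2 hp0 hvp
  obtain ⟨ε, hε, htt, -⟩ := hP K Γ₀ v E α hM T (CYCGAL_E0_of_E1 v T hT1) k
  have h1 : tt α (k • T) / ζ ^ k = (tt α T / ζ) ^ k * (1 + ε) := by
    rw [htt, div_pow]; ring
  rw [h1]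
  refine hG1 _ _ (CYCGAL_deep_pow hG v p hp hp2 hp0 hvp _ hd k) ?_
  rw [add_sub_cancel_left]
  exact (hG3 ε (hε.trans ha4)).1

theorem CYCGAL_root_ne_zero {K : Type} [Field K] {p : ℕ} (hp : p.Prime) {ζ : K} (hζ : ζ ^ p = 1) :
    ζ ≠ 0 := by
  rintro rfl
  rw [zero_pow hp.ne_zero] at hζ
  exact zero_ne_one hζ

theorem stmt_E1Cyc (_hB : Stmt_TTBasic) (hP : Stmt_TTPow) (hG : Stmt_DeepGrp) (hT : Stmt_E1Tors)
    (hI : Stmt_E1Inj) (hU : Stmt_E1Unity) : Stmt_E1Cyc := by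
  intro K Γ₀ _ _ _ _ v E α p hM hp hp2 hp0 hvp ha4
  obtain ⟨hG1, hG2, -, -⟩ := hG K Γ₀ v p hp hp2 hp0 hvp
  have hU2 : v E.a₂ ≤ 1 := by rw [← hM.sq, map_pow, hM.vα, one_pow]
  have hW : v E.a₄ ≤ 1 := hM.w1.le
  have ha4' : v E.a₄ ≤ v (p : K) := by
    refine ha4.trans ?_
    rw [pow_two]
    exact mul_le_of_le_one_left' hvp.le
  by_cases hall : ∀ T : E.Point, InE1 v T → p • T = 0 → T = 0
  · exact ⟨0, S05.InE1_zero v, smul_zero _, fun T h1 h2 => ⟨0, by rw [hall T h1 h2, zero_smul]⟩⟩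
  push Not at hall
  obtain ⟨T₀, hT₀1, hpT₀, hT₀⟩ := hall
  obtain ⟨ζ₀, hζ₀, hd₀⟩ := hU K Γ₀ v E α p hM hp hp2 hp0 hvp ha4 T₀ hT₀1 hpT₀
  have hζ₀1 : ζ₀ ≠ 1 := by
    rintro rfl
    rw [div_one] at hd₀
    exact hT₀ (hT K Γ₀ v E α p hM hp hp0 ha4' T₀ hT₀1 hpT₀ hd₀)
  have : Fact p.Prime := ⟨hp⟩
  have : NeZero p := ⟨hp.ne_zero⟩
  have hprim : IsPrimitiveRoot ζ₀ p := orderOf_eq_prime hζ₀ hζ₀1 ▸ IsPrimitiveRoot.orderOf ζ₀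
  refine ⟨T₀, hT₀1, hpT₀, fun T hT1 hpT => ?_⟩
  obtain ⟨ζ, hζ, hd⟩ := hU K Γ₀ v E α p hM hp hp2 hp0 hvp ha4 T hT1 hpT
  obtain ⟨k, -, hk⟩ := hprim.eq_pow_of_pow_eq_one hζ
  refine ⟨k, hI K Γ₀ v E α p hM hp hp2 hp0 hvp ha4 T (k • T₀) hT1
    (hM.mc.E1_nsmul hU2 hW T₀ hT₀1 k).1 hpT (by rw [smul_comm, hpT₀, smul_zero]) ?_⟩
  have haux := CYCGAL_aux hP hG v E α p hM hp hp2 hp0 hvp ha4 T₀ hT₀1 ζ₀ hd₀ k
  rw [hk] at haux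
  rw [CYCGAL_div_eq _ _ ζ (CYCGAL_root_ne_zero hp hζ)]
  exact hG1 _ _ hd (hG2 _ haux)

theorem stmt_E1Gal (_hB : Stmt_TTBasic) (hP : Stmt_TTPow) (hG : Stmt_DeepGrp) (_hT : Stmt_E1Tors)
    (hI : Stmt_E1Inj) (hU : Stmt_E1Unity) : Stmt_E1Gal := by
  intro K Γ₀ _ _ _ _ v E α p hM hp hp2 hp0 hvp ha4 σ τ hA
  have htt : ∀ P : E.Point, tt α (τ P) = σ (tt α P) := by
    intro P
    rcases P with _ | ⟨x, y, h⟩
    · rw [← Point.zero_def, _root_.map_zero, tt_zero, map_one]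
    · obtain ⟨h', e⟩ := hA.ia.act x y h
      rw [e, tt_some, tt_some, map_div₀, map_sub, map_add, map_mul, hA.fixα]
  refine ⟨htt, fun j hj T hT1 hpT => ?_⟩
  obtain ⟨hG1, hG2, -, -⟩ := hG K Γ₀ v p hp hp2 hp0 hvp
  have hU2 : v E.a₂ ≤ 1 := by rw [← hM.sq, map_pow, hM.vα, one_pow]
  have hW : v E.a₄ ≤ 1 := hM.w1.le
  obtain ⟨ζ, hζ, hd⟩ := hU K Γ₀ v E α p hM hp hp2 hp0 hvp ha4 T hT1 hpT
  have hd1 : Deep v p (tt α (τ T) / ζ ^ j - 1) := by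
    have h1 : tt α (τ T) / ζ ^ j - 1 = σ (tt α T / ζ - 1) := by
      rw [map_sub, map_div₀, map_one, htt, hj ζ hζ]
    unfold Deep
    rw [h1, hA.val]
    exact hd
  have hd2 := CYCGAL_aux hP hG v E α p hM hp hp2 hp0 hvp ha4 T hT1 ζ hd j
  apply hI K Γ₀ v E α p hM hp hp2 hp0 hvp ha4 (τ T) (j • T) (hA.ia.E1 _ hT1)
    (hM.mc.E1_nsmul hU2 hW T hT1 j).1 (by rw [← map_nsmul, hpT, _root_.map_zero])
    (by rw [smul_comm, hpT, smul_zero])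
  rw [CYCGAL_div_eq _ _ (ζ ^ j) (pow_ne_zero _ (CYCGAL_root_ne_zero hp hζ))]
  exact hG1 _ _ hd1 (hG2 _ hd2)

end Fermat.Agent.MR.EC
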