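import Fermat.Agent.MR.EC.Interface

/-!
# MR / EC : (FROB-E) `E[p]` itself satisfies `VHyp` (helper59)
-/

set_option autoImplicit false

namespace Fermat.Agent.MR.EC

open WeierstrassCurve WeierstrassCurve.Affine WeierstrassCurve.Affine.Point

/-- the discriminant of the Frey curve. -/
theorem EHyp_freyDisc (P : FreyPackage) : P.freyCurve.Δ ≠ 0 := by
  have h : P.freyCurve.Δ =
      ((P.a : ℚ) ^ P.p) ^ 2 * ((P.b : ℚ) ^ P.p) ^ 2 * ((P.c : ℚ) ^ P.p) ^ 2 / 256 := by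
    have hF : (P.c : ℚ) ^ P.p = (P.a : ℚ) ^ P.p + (P.b : ℚ) ^ P.p := by
      exact_mod_cast P.hFLT.symm
    rw [hF]
    simp only [WeierstrassCurve.Δ, WeierstrassCurve.b₂, WeierstrassCurve.b₄, WeierstrassCurve.b₆,
      WeierstrassCurve.b₈, FreyPackage.freyCurve]
    ring
  rw [h]
  have ha : (P.a : ℚ) ≠ 0 := by exact_mod_cast P.ha0
  have hb : (P.b : ℚ) ≠ 0 := by exact_mod_cast P.hb0
  have hc : (P.c : ℚ) ≠ 0 := by exact_mod_cast P.hc0
  positivity

theorem EHyp_disc_ne (P : FreyPackage) (W : WeierstrassCurve ℤ)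
    (hW : W.IsIntegralModelOf P.freyCurve) : W.Δ ≠ 0 := by
  obtain ⟨C, hC⟩ := hW
  intro h0
  have h1 : (W.map (Int.castRingHom ℚ)).Δ = 0 := by
    rw [WeierstrassCurve.map_Δ, h0, _root_.map_zero]
  rw [← hC, WeierstrassCurve.variableChange_Δ] at h1
  rcases mul_eq_zero.1 h1 with h | h
  · exact (pow_ne_zero _ (Units.ne_zero _)) h
  · exact EHyp_freyDisc P h

theorem stmt_EHyp (hF : Stmt_FrobRel) (hV : Stmt_VC) (hL : Stmt_Level) : Stmt_EHyp := by
  intro P _ W hW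
  refine ⟨hL P, (W.Δ.natAbs).primeFactors ∪ {P.p}, ?_⟩
  intro ℓ hℓ hS A hA σ hσ
  rw [Finset.mem_union, not_or, Finset.mem_singleton] at hS
  have hgood : W.IsGoodPrimeFor ℓ := by
    intro hd
    apply hS.1
    rw [Nat.mem_primeFactors]
    exact ⟨hℓ, Int.natCast_dvd.1 hd, Int.natAbs_ne_zero.2 (EHyp_disc_ne P W hW)⟩
  have hlp : ¬ ℓ ∣ P.p := fun h => hS.2 ((Nat.prime_dvd_prime_iff_eq hℓ P.pp).1 h)
  obtain ⟨e, he⟩ := hV W P.freyCurve hW
  apply LinearMap.ext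
  intro x
  simp only [LinearMap.add_apply, LinearMap.sub_apply, LinearMap.smul_apply, Module.End.mul_apply,
    Module.End.one_apply, rhoE_apply, LinearMap.zero_apply]
  rw [Int.cast_smul_eq_zsmul, Nat.cast_smul_eq_nsmul]
  apply Subtype.ext
  show σ • σ • (x : (P.freyCurve⁄Qb).Point) - W.apOfModel ℓ • σ • (x : (P.freyCurve⁄Qb).Point)
    + ℓ • (x : (P.freyCurve⁄Qb).Point) = 0
  have hx : P.p • (x : (P.freyCurve⁄Qb).Point) = 0 := by
    have hx := x.2
    rw [Submodule.mem_torsionBy_iff] at hx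
    rw [← hx, Nat.cast_smul_eq_nsmul]
  have hR' : P.p • e.symm (x : (P.freyCurve⁄Qb).Point) = 0 := by
    rw [← map_nsmul, hx, _root_.map_zero]
  have h1 := hF ℓ hℓ A σ hA hσ W hgood P.p hlp _ hR'
  have h2 := congrArg e h1
  rw [map_add, map_sub, map_zsmul, map_zsmul, he, he, e.apply_symm_apply, _root_.map_zero,
    natCast_zsmul] at h2
  exact h2

end Fermat.Agent.MR.EC
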