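import Fermat.Agent.MR.EC.Interface
import Fermat.Agent.S13.CardTransfer

/-!
# MR / EC, task EC-FREY : transfer of the local statement from the model curve to the Frey curve
`stmt_FreyLocal (hM : Stmt_ModelLocal) : Stmt_FreyLocal`.
-/

set_option autoImplicit false

namespace Fermat.Agent.MR.EC

open WeierstrassCurve WeierstrassCurve.Affine WeierstrassCurve.Affine.Point

/-- `LocalAt` only sees the Galois module of points. -/
theorem FREY_localAt_of_equiv {E₁ E₂ : WeierstrassCurve ℚ} (e : (E₁⁄Qb).Point ≃+ (E₂⁄Qb).Point)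
    (he : ∀ (σ : GQ) (R : (E₁⁄Qb).Point), e (σ • R) = σ • e R) (p : ℕ) (A : ValuationSubring Qb)
    (h : LocalAt E₁ p A) : LocalAt E₂ p A := by
  obtain ⟨T₀, h0, hp, h1, h2, β, d₀, hβ, hd1, hd2, hd3, hd4, h3⟩ := h
  have htors : ∀ R : (E₂⁄Qb).Point, p • R = 0 → p • e.symm R = 0 := fun R hR => by
    rw [← map_nsmul, hR, _root_.map_zero]
  refine ⟨e T₀, by rwa [Ne, AddEquiv.map_eq_zero_iff], by rw [← map_nsmul, hp, _root_.map_zero], ?_, ?_,
    β, d₀, hβ, hd1, hd2, hd3, hd4, ?_⟩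
  · intro σ hσ R hR
    obtain ⟨k, hk⟩ := h1 σ hσ (e.symm R) (htors R hR)
    refine ⟨k, ?_⟩
    have := congrArg e hk
    rwa [map_sub, he, e.apply_symm_apply, map_nsmul] at this
  · intro σ hσ j hj
    rw [← he, h2 σ hσ j hj, map_nsmul]
  · intro σ hσ hc hb R hR
    have := congrArg e (h3 σ hσ hc hb (e.symm R) (htors R hR))
    rwa [he, e.apply_symm_apply] at this

/-- transfer from the model curve to the Frey curve. -/
theorem FREY_of_model (P : FreyPackage) (u w ρ : ℚ)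
    (r1 : u = 4 * P.freyCurve.a₂ + 1 - 3 * ρ)
    (r2 : w = 16 * P.freyCurve.a₄ - 3 * ρ ^ 2 - 2 * u * ρ)
    (r3 : ρ ^ 3 + u * ρ ^ 2 + w * ρ = 0) (A : ValuationSubring Qb)
    (h : LocalAt (S05.mcQ u w) P.p A) : LocalAt P.freyCurve P.p A := by
  have H := S05.isTransfer_frey P u w ρ r1 r2 r3
  refine FREY_localAt_of_equiv (S13.T9_equiv H).symm ?_ P.p A h
  intro σ R
  apply (S13.T9_equiv H).injective
  rw [AddEquiv.apply_symm_apply]
  show _ = H.hom (σ • (S13.T9_equiv H).symm R)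
  rw [S05.transfer_equivariant P H, algEquiv_smul_def]
  congr 1
  exact ((S13.T9_equiv H).apply_symm_apply R).symm

theorem stmt_FreyLocal (hM : Stmt_ModelLocal) : Stmt_FreyLocal := by
  intro P hdvd A hA
  have hpZ : Prime (P.p : ℤ) := Nat.prime_iff_prime_int.1 P.pp
  have hp2 : P.p ≠ 2 := by have := P.hp5; omega
  have hFLT : (P.a : ℚ) ^ P.p + (P.b : ℚ) ^ P.p = (P.c : ℚ) ^ P.p := by
    exact_mod_cast congrArg (Int.cast : ℤ → ℚ) P.hFLT
  by_cases hc : (P.p : ℤ) ∣ P.c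
  · have hb : ¬ (P.p : ℤ) ∣ P.b := by
      intro hb
      have := dvd_gcd hb hc
      rw [P.hgcdbc] at this
      exact hpZ.not_isUnit (isUnit_of_dvd_one this)
    refine FREY_of_model P ((2 * P.a ^ P.p + P.b ^ P.p : ℤ) : ℚ)
      (((P.a * P.c) ^ P.p : ℤ) : ℚ) ((-(P.a ^ P.p) : ℤ) : ℚ) ?_ ?_ ?_ A ?_
    · simp only [FreyPackage.freyCurve]
      push_cast
      ring
    · simp only [FreyPackage.freyCurve]
      push_cast
      rw [mul_pow, ← hFLT]
      ring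
    · push_cast
      rw [mul_pow, ← hFLT]
      ring
    · refine hM P.p P.pp hp2 A hA _ (P.a * P.c) (mul_ne_zero P.ha0 P.hc0) (hc.mul_left _) ?_
      have e : (2 * P.a ^ P.p + P.b ^ P.p) ^ 2 - 4 * (P.a * P.c) ^ P.p = (P.b ^ P.p) ^ 2 := by
        rw [mul_pow, ← P.hFLT]; ring
      rw [e]
      intro h
      exact hb (hpZ.dvd_of_dvd_pow (hpZ.dvd_of_dvd_pow h))
  · have hab : (P.p : ℤ) ∣ P.a * P.b := (hpZ.dvd_or_dvd hdvd).resolve_right hc
    refine FREY_of_model P ((P.b ^ P.p - P.a ^ P.p : ℤ) : ℚ)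
      (((-(P.a * P.b)) ^ P.p : ℤ) : ℚ) 0 ?_ ?_ ?_ A ?_
    · simp only [FreyPackage.freyCurve]
      push_cast
      ring
    · simp only [FreyPackage.freyCurve]
      push_cast
      rw [P.hp_odd.neg_pow, mul_pow]
      ring
    · ring
    · refine hM P.p P.pp hp2 A hA _ (-(P.a * P.b)) (neg_ne_zero.2 (mul_ne_zero P.ha0 P.hb0))
        ((dvd_neg).mpr hab) ?_
      have e : (P.b ^ P.p - P.a ^ P.p) ^ 2 - 4 * (-(P.a * P.b)) ^ P.p = (P.c ^ P.p) ^ 2 := by
        rw [P.hp_odd.neg_pow, mul_pow, ← P.hFLT]; ring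
      rw [e]
      intro h
      exact hc (hpZ.dvd_of_dvd_pow (hpZ.dvd_of_dvd_pow h))

end Fermat.Agent.MR.EC
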