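import Fermat.Agent.MR.EC.Interface
import Fermat.Agent.S52.Trace
import Fermat.Agent.S52.RedHom
import Fermat.Agent.S52.A2Final

/-! # MR / EC : (FROB) the Frobenius relation on torsion prime to `ℓ`, for every Frobenius lift.
(variant of `S52/Trace.lean`) -/

set_option autoImplicit false

open WeierstrassCurve WeierstrassCurve.Affine WeierstrassCurve.Affine.Point

namespace Fermat.Agent.MR.EC

open Fermat.Agent.S52 (EQb IsRed)
open Fermat.Agent.S52.Trace (sigma_mem sigma_not_mem residue_sigma residue_nonunit charP_residue)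

theorem FrobRel_aux {G : Type*} [AddCommGroup G] (s : G →+ G) (n : ℕ) (P : G) (h : n • P = 0)
    (α β : ℤ) : n • (s (s P) - α • s P + β • P) = 0 := by
  rw [nsmul_add, nsmul_sub, smul_comm n α, smul_comm n β, ← map_nsmul, ← map_nsmul, h]
  simp

theorem stmt_FrobRel : Stmt_FrobRel := by
  intro ℓ hℓ A σ hl hfr W hW n hn P hP
  have hRT := S52.stmt_RT
  have hF := S52.stmt_Frob
  have : Fact ℓ.Prime := ⟨hℓ⟩
  have := charP_residue A ℓ hl
  let _ : Algebra (ZMod ℓ) (IsLocalRing.ResidueField A) := ZMod.algebra _ ℓ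
  classical
  set W₀ : Affine (ZMod ℓ) := (W.reductionMod ℓ).toAffine with hW₀
  have hred : IsRed A (IsLocalRing.residue A) (EQb W) (W₀⁄(IsLocalRing.ResidueField A)) := by
    refine ⟨⟨(W.a₁ : A), ?_, ?_⟩, ⟨(W.a₂ : A), ?_, ?_⟩, ⟨(W.a₃ : A), ?_, ?_⟩,
      ⟨(W.a₄ : A), ?_, ?_⟩, ⟨(W.a₆ : A), ?_, ?_⟩⟩ <;>
    simp [hW₀, WeierstrassCurve.reductionMod]
  have hΔ₀ : W₀.Δ ≠ 0 := by
    have : W₀.Δ = ((W.Δ : ℤ) : ZMod ℓ) := by
      show (W.map (Int.castRingHom (ZMod ℓ))).Δ = _
      rw [WeierstrassCurve.map_Δ]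
      rfl
    rw [this]
    intro h
    exact hW ((ZMod.intCast_zmod_eq_zero_iff_dvd _ _).mp h)
  have hΔ : (W₀⁄(IsLocalRing.ResidueField A)).Δ ≠ 0 := by
    show (W₀.map (algebraMap (ZMod ℓ) (IsLocalRing.ResidueField A))).Δ ≠ 0
    rw [WeierstrassCurve.map_Δ]
    intro h
    rw [map_eq_zero] at h
    exact hΔ₀ h
  obtain ⟨red, h1, h2, h3, h4⟩ := hRT Qb (IsLocalRing.ResidueField A) A (IsLocalRing.residue A)
    (residue_nonunit A) _ _ hred hΔ
  set φ := Point.map (W' := W₀)
    (FiniteField.frobeniusAlgHom (ZMod ℓ) (IsLocalRing.ResidueField A)) with hφ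
  have hdec := hfr.mem_decompositionSubgroup
  have heq : ∀ P : (EQb W).Point, red (σ • P) = φ (red P) := by
    intro P
    rcases P with _ | ⟨x, y, h⟩
    · show red 0 = φ (red 0)
      rw [_root_.map_zero, _root_.map_zero]
    · rw [algEquiv_smul_def, Point.map_some]
      by_cases hx : x ∈ A
      · have hy := h1 x y h hx
        obtain ⟨h', e'⟩ := h2 ⟨x, hx⟩ ⟨y, hy⟩ h
        have hx' : σ x ∈ A := sigma_mem A σ hdec hx
        have hy' : σ y ∈ A := sigma_mem A σ hdec hy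
        obtain ⟨h'', e''⟩ := h2 ⟨_, hx'⟩ ⟨_, hy'⟩
          ((WeierstrassCurve.Affine.baseChange_nonsingular _ σ.toAlgHom.injective ..).mpr h)
        have e3 : red (Point.some x y h) = _ := e'
        rw [e3, hφ, Point.map_some]
        refine e''.trans ?_
        simp only [Point.some.injEq]
        refine ⟨?_, ?_⟩
        · rw [residue_sigma A σ ℓ hfr hx, FiniteField.coe_frobeniusAlgHom, ZMod.card]
        · rw [residue_sigma A σ ℓ hfr hy, FiniteField.coe_frobeniusAlgHom, ZMod.card]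
      · rw [h3 x y h hx, _root_.map_zero]
        exact h3 _ _ _ (sigma_not_mem A σ hdec hx)
  have hnk : ((n : ℕ) : IsLocalRing.ResidueField A) ≠ 0 := by
    intro h
    rw [CharP.cast_eq_zero_iff _ ℓ] at h
    exact hn h
  set s : (EQb W).Point →+ (EQb W).Point := DistribSMul.toAddMonoidHom _ σ with hs
  have hs' : ∀ Q : (EQb W).Point, s Q = σ • Q := fun _ => rfl
  apply h4 n hnk
  · rw [map_add, map_sub, map_zsmul, map_zsmul, heq, heq]
    have := hF ℓ W₀ hΔ₀ (IsLocalRing.ResidueField A) (red P)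
    have ha : W.apOfModel ℓ = (ℓ : ℤ) + 1 - (Nat.card W₀.Point : ℤ) := by
      simp [WeierstrassCurve.apOfModel, WeierstrassCurve.traceOfFrobenius, WeierstrassCurve.card,
        hW₀]
    rw [ha]
    exact this
  · exact FrobRel_aux s n P hP _ _

end Fermat.Agent.MR.EC
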