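import Fermat.Agent.MR.EC.Interface
import Fermat.Agent.S13.TFinal
import Fermat.Agent.S36.Base.Unram

/-!
# MR / EC, task EC-LEVOM (helper76): `E[p]` has finite level; the cyclotomic character mod `p` is
ramified at `p`.
-/

set_option autoImplicit false

namespace Fermat.Agent.MR.EC

open WeierstrassCurve WeierstrassCurve.Affine WeierstrassCurve.Affine.Point

/-! ### Level -/

/-- a point is fixed by the Galois group of a number field. -/
theorem LevOm_point (W : WeierstrassCurve ℚ) (Q : (W⁄Qb).Point) :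
    ∃ L : IntermediateField ℚ Qb, FiniteDimensional ℚ L ∧
      ∀ σ : GQ, (∀ x ∈ L, σ x = x) → σ • Q = Q := by
  rcases Q with _ | ⟨x, y, h⟩
  · exact ⟨⊥, inferInstance, fun σ _ => rfl⟩
  · refine ⟨IntermediateField.adjoin ℚ {x, y}, ?_, ?_⟩
    · exact IntermediateField.finiteDimensional_adjoin
        (fun z _ => Algebra.IsIntegral.isIntegral z)
    · intro σ hσ
      rw [algEquiv_smul_def, Point.map_some]
      simp only [Point.some.injEq]
      exact ⟨hσ x (IntermediateField.subset_adjoin ℚ _ (by simp)),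
        hσ y (IntermediateField.subset_adjoin ℚ _ (by simp))⟩

theorem stmt_Level : Stmt_Level := by
  intro P
  have hfin : Finite (S13.Tors P) := Nat.finite_of_card_ne_zero (by
    rw [S13.stmt_card_final P]; exact pow_ne_zero 2 P.pp.ne_zero)
  choose L hL hfix using fun x : S13.Tors P =>
    LevOm_point P.freyCurve (x : (P.freyCurve⁄Qb).Point)
  refine ⟨⨆ x, L x, ?_, ?_⟩
  · have := hL
    exact IntermediateField.finiteDimensional_iSup_of_finite
  · intro σ hσ
    refine LinearMap.ext fun x => ?_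
    rw [rhoE_apply]
    exact Subtype.ext (hfix x σ fun z hz => hσ z (le_iSup L x hz))

/-! ### Omega -/

/-- a root of unity has valuation `1`. -/
theorem LevOm_val_root {L : Type*} [Field L] (A : ValuationSubring L) {n : ℕ} (hn : n ≠ 0) {ζ : L}
    (hζ : ζ ^ n = 1) : A.valuation ζ = 1 := by
  have h : A.valuation ζ ^ n = 1 := by rw [← map_pow, hζ, map_one]
  exact (pow_eq_one_iff_of_nonneg zero_le hn).1 h

/-- `v(1 - ζ^k) ≤ v(1 - ζ)`. -/
theorem LevOm_val_le {L : Type*} [Field L] (A : ValuationSubring L) {ζ : L}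
    (hζ : A.valuation ζ = 1) (k : ℕ) : A.valuation (1 - ζ ^ k) ≤ A.valuation (1 - ζ) := by
  have h1 : 1 - ζ ^ k = (∑ i ∈ Finset.range k, ζ ^ i) * (1 - ζ) := (geom_sum_mul_neg ζ k).symm
  have h2 : A.valuation (∑ i ∈ Finset.range k, ζ ^ i) ≤ 1 := by
    refine Valuation.map_sum_le _ fun i _ => ?_
    rw [map_pow, hζ, one_pow]
  rw [h1, map_mul]
  exact mul_le_of_le_one_left' h2

/-- `v(1 - ζ^k) = v(1 - ζ)` for `k` prime to the order. -/
theorem LevOm_val_eq {L : Type*} [Field L] (A : ValuationSubring L) {n : ℕ} (hn : 1 < n) {ζ : L}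
    (hζ : ζ ^ n = 1) {k : ℕ} (hk : k.Coprime n) :
    A.valuation (1 - ζ ^ k) = A.valuation (1 - ζ) := by
  have hn0 : n ≠ 0 := by omega
  refine le_antisymm (LevOm_val_le A (LevOm_val_root A hn0 hζ) k) ?_
  obtain ⟨j, hj⟩ : ∃ j : ℕ, (ζ ^ k) ^ j = ζ := by
    obtain ⟨j, -, hj⟩ := Nat.exists_mul_mod_eq_one_of_coprime hk hn
    refine ⟨j, ?_⟩
    rw [← pow_mul, ← Nat.div_add_mod (k * j) n, hj, pow_add, pow_mul, hζ, one_pow, one_mul, pow_one]
  have h1 : A.valuation (ζ ^ k) = 1 := by rw [map_pow, LevOm_val_root A hn0 hζ, one_pow]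
  have := LevOm_val_le A h1 j
  rwa [hj] at this

/-- `v(p) = v(1 - ζ)^(p-1)`. -/
theorem LevOm_val_p {L : Type*} [Field L] (A : ValuationSubring L) {p : ℕ} (hp : p.Prime) {ζ : L}
    (hζ : IsPrimitiveRoot ζ p) : A.valuation (p : L) = A.valuation (1 - ζ) ^ (p - 1) := by
  obtain ⟨n, rfl⟩ : ∃ n, p = n + 1 := ⟨p - 1, (Nat.succ_pred_eq_of_pos hp.pos).symm⟩
  have h := hζ.prod_one_sub_pow_eq_order
  have h' : ((n + 1 : ℕ) : L) = ∏ k ∈ Finset.range n, (1 - ζ ^ (k + 1)) := by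
    rw [h]; push_cast; rfl
  rw [h', map_prod, Nat.add_sub_cancel]
  rw [Finset.prod_congr rfl (g := fun _ => A.valuation (1 - ζ)), Finset.prod_const,
    Finset.card_range]
  intro k hk
  refine LevOm_val_eq A hp.one_lt hζ.pow_eq_one ?_
  refine (Nat.Coprime.symm ?_)
  rw [hp.coprime_iff_not_dvd]
  intro hd
  have := Nat.le_of_dvd (Nat.succ_pos k) hd
  have := Finset.mem_range.1 hk
  omega

theorem stmt_Omega : Stmt_Omega := by
  intro p hp hp2 A hA
  by_contra hcon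
  push Not at hcon
  have : NeZero p := ⟨hp.ne_zero⟩
  obtain ⟨ζ, hζ⟩ := HasEnoughRootsOfUnity.exists_primitiveRoot Qb p
  have hw0 : 1 - ζ ≠ 0 := sub_ne_zero.2 (hζ.ne_one hp.one_lt).symm
  obtain ⟨k, hk1, hk2⟩ := S36.Base.stmt_Unram p A hp hA (1 - ζ) hw0 (fun σ hσ => by
    rw [map_sub, map_one, hcon σ hσ ζ hζ.pow_eq_one])
  have hvp := LevOm_val_p A hp hζ
  have hp1 : A.valuation (p : Qb) < 1 := (ValuationSubring.mem_nonunits_iff A).1 hA
  have hp0 : A.valuation (p : Qb) ≠ 0 := by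
    rw [Valuation.ne_zero_iff]
    exact_mod_cast hp.ne_zero
  have hv : A.valuation ((1 - ζ) * (p : Qb) ^ k) = 1 := by
    refine le_antisymm ((ValuationSubring.valuation_le_one_iff A _).2 hk1) ?_
    have h := (ValuationSubring.valuation_le_one_iff A _).2 hk2
    rw [map_inv₀] at h
    refine (inv_le_one₀ (zero_lt_iff.2 ((Valuation.ne_zero_iff _).2 ?_))).1 h
    exact mul_ne_zero hw0 (zpow_ne_zero _ (by exact_mod_cast hp.ne_zero))
  rw [map_mul, map_zpow₀] at hv
  have h1 : A.valuation (p : Qb) ^ (1 + k * ((p - 1 : ℕ) : ℤ)) = 1 := by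
    have h : (A.valuation (1 - ζ) * A.valuation (p : Qb) ^ k) ^ (p - 1) = 1 := by
      rw [hv, one_pow]
    rw [mul_pow, ← hvp, ← zpow_natCast (A.valuation (p : Qb) ^ k), ← zpow_mul] at h
    rw [zpow_add₀ hp0, zpow_one]
    exact h
  have h2 : 1 + k * ((p - 1 : ℕ) : ℤ) = 0 := (zpow_eq_one_iff_right₀ zero_le hp1.ne).1 h1
  have h3 : ((p - 1 : ℕ) : ℤ) ∣ 1 := ⟨-k, by linarith⟩
  have h4 : p - 1 = 1 := by
    have := Int.natCast_dvd_natCast.1 (by simpa using h3 : ((p - 1 : ℕ) : ℤ) ∣ ((1 : ℕ) : ℤ))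
    exact Nat.dvd_one.1 this
  omega

end Fermat.Agent.MR.EC
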