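import Fermat.Agent.MR.EC.Interface
import Fermat.Agent.S13.M1E0

/-!
# MR / EC, task MID : a `p`-torsion point outside `E₁` lies in the annulus `v a₄ < v x < 1`
-/

set_option autoImplicit false

namespace Fermat.Agent.MR.EC

open WeierstrassCurve WeierstrassCurve.Affine WeierstrassCurve.Affine.Point
open Fermat.Agent.S05 (InE0 InE1 zc)

/-- a `p`-torsion element is a multiple of each of its multiples prime to `p`. -/
theorem MID_exists_nsmul {G : Type*} [AddCommGroup G] (P : G) (p k : ℕ) (hp : p.Prime)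
    (hcop : Nat.Coprime k p) (hpP : p • P = 0) : ∃ m : ℕ, m • (k • P) = P := by
  obtain ⟨m, hm⟩ := Nat.exists_mul_mod_eq_one_of_coprime hcop hp.one_lt
  have e : k * m = p * (k * m / p) + 1 := by
    have := Nat.div_add_mod (k * m) p
    omega
  refine ⟨m, ?_⟩
  rw [← mul_nsmul', mul_comm m k, e, add_nsmul, mul_comm p, mul_nsmul', one_nsmul, hpP]
  simp

section

variable {K Γ₀ : Type} [Field K] [DecidableEq K] [LinearOrderedCommGroupWithZero Γ₀]
  {v : Valuation K Γ₀} {E : WeierstrassCurve.Affine K} {α : K}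

omit [DecidableEq K] in
theorem MID_vU (hM : MSet v E α) : v E.a₂ = 1 := by
  rw [← hM.sq, map_pow, hM.vα, one_pow]

/-- if a multiple `k • P + j • T` (`k` prime to `p`) of a `p`-torsion point lies in `E₀`, then
`P ∈ E₁`. -/
theorem MID_E1_of_E0 (h0 : Stmt_E0Tors) (hM : MSet v E α) {p : ℕ} (hp : p.Prime) (hp2 : p ≠ 2)
    (hvp : v (p : K) < 1) (hT : E.Nonsingular 0 0) (P : E.Point) (hpP : p • P = 0) (k j : ℕ)
    (hk : Nat.Coprime k p) (hQ : InE0 v (k • P + j • Point.some 0 0 hT)) : InE1 v P := by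
  have hE := hM.mc
  have hM1 : S13.IsM1 E := ⟨hE.a₃, hE.a₆⟩
  have hc : v E.a₁ ≤ 1 := by rw [hE.a₁, _root_.map_zero]; exact zero_le_one
  have hU : v E.a₂ ≤ 1 := (MID_vU hM).le
  have h2Q := hM1.E0_add hc hU hM.w1 _ _ hQ hQ
  have e : k • P + j • Point.some 0 0 hT + (k • P + j • Point.some 0 0 hT) = (2 * k) • P := by
    have h1 : j • Point.some 0 0 hT + j • Point.some 0 0 hT = 0 := by
      rw [← nsmul_add, hE.T_add_T, nsmul_zero]
    have h2 : k • P + j • Point.some 0 0 hT + (k • P + j • Point.some 0 0 hT)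
        = (k • P + k • P) + (j • Point.some 0 0 hT + j • Point.some 0 0 hT) := by abel
    rw [h2, h1, add_zero, two_mul, add_nsmul]
  rw [e] at h2Q
  have h3 : p • ((2 * k) • P) = 0 := by
    rw [nsmul_left_comm, hpP, nsmul_zero]
  have h4 := h0 K Γ₀ v E α p hM hp hvp _ h2Q h3
  have hcop : Nat.Coprime (2 * k) p := by
    apply Nat.Coprime.mul_left _ hk
    rw [Nat.coprime_comm]
    exact (Nat.coprime_primes hp Nat.prime_two).2 hp2
  obtain ⟨m, hm⟩ := MID_exists_nsmul P p (2 * k) hp hcop hpP
  rw [← hm]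
  exact (hE.E1_nsmul hU hM.w1.le _ h4 m).1

end

theorem stmt_Mid (h0 : Stmt_E0Tors) : Stmt_Mid := by
  intro K Γ₀ _ _ _ v E α d p hM hp hp2 hvp hWd x y h hpP hP1
  have hE := hM.mc
  have hT := hE.nonsingular_T hM.w0
  have hUu := MID_vU hM
  -- (1)
  have hP0 : ¬ InE0 v (Point.some x y h) := fun hc => hP1 (h0 K Γ₀ v E α p hM hp hvp _ hc hpP)
  have hx1 : v x < 1 := not_le.1 hP0
  -- (2)
  have hxW : v E.a₄ < v x := by
    by_contra hc
    apply hP1
    refine MID_E1_of_E0 h0 hM hp hp2 hvp hT _ hpP 1 1 (Nat.coprime_one_left p) ?_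
    rw [one_nsmul, one_nsmul]
    exact hE.E0_add_T_of_le hT h (not_lt.1 hc)
  have hx0 : x ≠ 0 := by
    rintro rfl
    rw [_root_.map_zero] at hxW
    simp at hxW
  have hvx : 0 < v x := (Valuation.pos_iff v).mpr hx0
  -- (3)
  obtain ⟨s, h', e'⟩ := S05.exists_s h hx0
  have hy : y = x * s := by
    simp only [Point.some.injEq] at e'
    exact e'.2
  rw [e'] at hpP hP1
  have e := hE.equation_s hx0 h'.1
  have hs2 : s ^ 2 = E.a₂ + (x + E.a₄ / x) := by
    field_simp
    linear_combination e
  have hsmall : v (x + E.a₄ / x) < 1 := by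
    apply Valuation.map_add_lt v hx1
    rw [map_div₀]
    exact (div_lt_one₀ hvx).mpr hxW
  have hs : v s = 1 := by
    have h5 : v (s ^ 2) = 1 := by
      rw [hs2, ← hUu]
      apply Valuation.map_add_eq_of_lt_left
      rw [hUu]
      exact hsmall
    rw [map_pow] at h5
    exact (pow_eq_one_iff_left two_ne_zero).mp h5
  have hPos : S05.IsPos v s (Point.some _ _ h') x :=
    ⟨hxW, hx1, x, s, h', rfl, rfl, by simp⟩
  have hd1 : v d < 1 := by
    by_contra hc
    have : 1 ≤ v d ^ p := one_le_pow₀ (not_lt.1 hc)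
    rw [← hWd] at this
    exact absurd hM.w1 (not_lt.2 this)
  refine ⟨hxW, hx1, ?_, ?_⟩
  · rcases hE.mult_induction hM.v2 hT hs hPos p hp.one_le with
      ⟨j, hj⟩ | ⟨k', hk1, hk2, j, hj1, hj2⟩
    · exfalso
      rw [hpP, zero_add] at hj
      obtain ⟨ht1, -, x', s', h'', e'', hx', -⟩ := hj
      have hx'0 : x' ≠ 0 := by
        rintro rfl
        rw [_root_.map_zero] at hx'
        rw [← hx'] at ht1
        simp at ht1
      rcases hE.nsmul_T hT j with h0' | h0'
      · rw [h0'] at e''
        exact Point.some_ne_zero _ e''.symm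
      · rw [h0'] at e''
        simp only [Point.some.injEq] at e''
        exact hx'0 e''.1.symm
    · rcases lt_or_eq_of_le hk2 with hk2 | rfl
      · exfalso
        apply hP1
        refine MID_E1_of_E0 h0 hM hp hp2 hvp hT _ hpP k' j ?_ hj1
        rw [Nat.coprime_comm]
        exact (Nat.Prime.coprime_iff_not_dvd hp).2 (fun hd => by
          have := Nat.le_of_dvd (by omega) hd
          omega)
      · have hxj : v x = v d ^ j := by
          rw [map_pow, map_pow, hWd, ← pow_mul, mul_comm, pow_mul] at hj2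
          exact (pow_left_inj hp.ne_zero).mp hj2
        refine ⟨j, ?_, hxj⟩
        by_contra hc
        have h6 : v d ^ j ≤ v d ^ k' := pow_le_pow_right_of_le_one' hd1.le (not_lt.1 hc)
        rw [← hxj, ← hWd] at h6
        exact absurd hxW (not_lt.2 h6)
  · -- (4)
    have hprod : v ((s - α) * (s + α)) < 1 := by
      have : (s - α) * (s + α) = x + E.a₄ / x := by
        have h7 : (s - α) * (s + α) = s ^ 2 - α ^ 2 := by ring
        rw [h7, hM.sq, hs2]
        ring
      rw [this]
      exact hsmall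
    have hor : v (s - α) < 1 ∨ v (s + α) < 1 := by
      by_contra hc
      push Not at hc
      have : 1 ≤ v (s - α) * v (s + α) := one_le_mul_of_one_le_of_one_le hc.1 hc.2
      rw [← map_mul] at this
      exact absurd hprod (not_lt.2 this)
    rcases hor with h8 | h8
    · left
      have : y - α * x = x * (s - α) := by rw [hy]; ring
      rw [this, map_mul]
      exact mul_lt_of_lt_one_right hvx h8
    · right
      have : y + α * x = x * (s + α) := by rw [hy]; ring
      rw [this, map_mul]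
      exact mul_lt_of_lt_one_right hvx h8

end Fermat.Agent.MR.EC
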