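import Fermat.Agent.MR.EC.Interface
import Fermat.Agent.S13.AtpClaim1
import Fermat.Agent.S13.TFinal
import Fermat.Agent.S13.Two

/-!
# MR / EC / EC-MODEL : assembly for the model curve `mcQ u (d ^ p)` (`Stmt_ModelLocal`)
-/

set_option autoImplicit false

namespace Fermat.Agent.MR.EC

open WeierstrassCurve WeierstrassCurve.Affine WeierstrassCurve.Affine.Point
open Fermat.Agent.S05 (InE0 InE1 zc)
open Fermat.Agent.ES.RepGalois (IsCyc)

section Abs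

variable {K Γ₀ : Type} [Field K] [LinearOrderedCommGroupWithZero Γ₀]
  {v : Valuation K Γ₀} {E : WeierstrassCurve.Affine K} {α : K}

theorem Model_hU (hM : MSet v E α) : v E.a₂ = 1 := by
  rw [← hM.sq, map_pow, hM.vα, one_pow]

theorem Model_disc (hM : MSet v E α) : v (E.a₂ ^ 2 - 4 * E.a₄) = 1 := by
  have h1 : v (E.a₂ ^ 2) = 1 := by rw [map_pow, Model_hU hM, one_pow]
  have h4 : v (4 : K) ≤ 1 := by
    have := S05.v_natCast_le_one v 4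
    simpa using this
  have h2 : v (4 * E.a₄) < 1 := by
    rw [map_mul]
    exact Right.mul_lt_one_of_le_of_lt h4 hM.w1
  rw [← h1]
  exact Valuation.map_sub_eq_of_lt_left v (h1 ▸ h2)

theorem Model_E0_of_E1 (P : E.Point) (hP : InE1 v P) : InE0 v P := by
  rcases P with _ | ⟨x, y, h⟩
  · exact trivial
  · exact le_of_lt (show 1 < v x from hP)

/-- the parameter of a point of `E₁` is in the maximal ideal. -/
theorem Model_v_zc_lt_one (hM : MSet v E α) (P : E.Point) (hP : InE1 v P) : v (zc P) < 1 := by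
  rcases P with _ | ⟨x, y, h⟩
  · simp [zc]
  have hx : 1 < v x := hP
  have hx0 : x ≠ 0 := S05.ne_zero_of_one_lt hx
  obtain ⟨s, h', e'⟩ := S05.exists_s h hx0
  rw [e']
  have hs2 := S05.v_s_sq (Model_hU hM).le hM.w1.le hx (hM.mc.equation_s hx0 h'.1)
  have ha : 1 < v s := S05.one_lt_of_one_lt_sq (hs2 ▸ hx)
  have hs0 : s ≠ 0 := S05.ne_zero_of_one_lt ha
  rw [S05.zc_some, div_mul_cancel_left₀ hx0, map_inv₀]
  exact inv_lt_one_of_one_lt₀ ha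

end Abs

/-- a subgroup of a group of order `p ^ 2` containing an element of order `p` and an element
outside the cyclic group generated by it is everything. -/
theorem Model_group {G : Type*} [AddCommGroup G] (p : ℕ) (hp : p.Prime) (Tp H : AddSubgroup G)
    (hcard : Nat.card Tp = p ^ 2) (hH : H ≤ Tp) (T₀ Q : G) (hT₀ : T₀ ≠ 0) (hpT₀ : p • T₀ = 0)
    (hT₀H : T₀ ∈ H) (hQH : Q ∈ H) (hQ : Q ∉ AddSubgroup.zmultiples T₀) : H = Tp := by
  have hfin : Finite Tp := Nat.finite_of_card_ne_zero (by rw [hcard]; exact pow_ne_zero 2 hp.ne_zero)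
  have hfinH : Finite H := Finite.of_injective (AddSubgroup.inclusion hH)
    (AddSubgroup.inclusion_injective hH)
  have hZ : AddSubgroup.zmultiples T₀ ≤ H := (AddSubgroup.zmultiples_le).2 hT₀H
  have hcZ : Nat.card (AddSubgroup.zmultiples T₀) = p := by
    have := Fact.mk hp
    rw [Nat.card_zmultiples]
    exact addOrderOf_eq_prime hpT₀ hT₀
  have h1 : p ∣ Nat.card H := hcZ ▸ AddSubgroup.card_dvd_of_le hZ
  have h2 : Nat.card H ∣ p ^ 2 := hcard ▸ AddSubgroup.card_dvd_of_le hH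
  obtain ⟨k, hk, hk2⟩ := (Nat.dvd_prime_pow hp).1 h2
  have hk' : k = 0 ∨ k = 1 ∨ k = 2 := by omega
  rcases hk' with rfl | rfl | rfl
  · rw [hk2, pow_zero] at h1
    exact absurd (Nat.dvd_one.1 h1) hp.one_lt.ne'
  · exfalso
    apply hQ
    have : AddSubgroup.zmultiples T₀ = H :=
      AddSubgroup.eq_of_le_of_card_ge hZ (by rw [hcZ, hk2, pow_one])
    rw [this]
    exact hQH
  · exact AddSubgroup.eq_of_le_of_card_ge hH (by rw [hcard, hk2])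

/-- the abstract assembly. -/
theorem Model_abs (hB : Stmt_TTBasic) (hCyc : Stmt_E1Cyc) (hGal : Stmt_E1Gal) (hMid : Stmt_Mid)
    (hNZ : Stmt_E1Nonzero) (hQ0 : Stmt_Q0) (hPEU : Stmt_PEUabs)
    {K Γ₀ : Type} [Field K] [DecidableEq K] [IsAlgClosed K] [LinearOrderedCommGroupWithZero Γ₀]
    (v : Valuation K Γ₀) (E : WeierstrassCurve.Affine K) (α d : K) (p : ℕ) (hM : MSet v E α)
    (hp : p.Prime) (hp2 : p ≠ 2) (hp0 : (p : K) ≠ 0) (hvp : v (p : K) < 1)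
    (h4 : v E.a₄ ≤ v (p : K) ^ 2) (h4d : v E.a₄ = v d ^ p)
    (hcard : Nat.card {R : E.Point // p • R = 0} = p ^ 2)
    (ι : Type) (σ : ι → K →+* K) (τ : ι → E.Point →+ E.Point)
    (hG : ∀ i, GAct v E α (σ i) (τ i))
    (hres : ∀ a, v a ≤ 1 → ∃ a₀, (∀ i, σ i a₀ = a₀) ∧ v (a - a₀) < 1)
    (hd : ∀ i, σ i d = d) (hs2 : ∀ i, σ i E.a₂ = E.a₂) (hs4 : ∀ i, σ i E.a₄ = E.a₄) :
    ∃ T₀ : E.Point, T₀ ≠ 0 ∧ p • T₀ = 0 ∧
      (∀ i, ∀ R : E.Point, p • R = 0 → ∃ k : ℕ, τ i R - R = k • T₀) ∧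
      (∀ i, ∀ j : ℕ, (∀ ζ : K, ζ ^ p = 1 → σ i ζ = ζ ^ j) → τ i T₀ = j • T₀) ∧
      ∃ β d₀ : K, β ^ p = d₀ ∧ v d₀ = 1 ∧ v (d₀ - 1) < 1 ∧ (∀ i, σ i d₀ = d₀) ∧
        ∀ i, (∀ ζ : K, ζ ^ p = 1 → σ i ζ = ζ ^ 1) → σ i β = β →
          ∀ R : E.Point, p • R = 0 → τ i R = R := by
  have hE := hM.mc
  have hU : v E.a₂ ≤ 1 := (Model_hU hM).le
  have hW : v E.a₄ ≤ 1 := hM.w1.le
  obtain ⟨T₀, hT₀1, hpT₀, hgen⟩ := hCyc K Γ₀ v E α p hM hp hp2 hp0 hvp h4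
  have hT₀ : T₀ ≠ 0 := by
    obtain ⟨T, hT, hT1, hpT⟩ := hNZ K Γ₀ v E α d p hM hp hp2 hvp h4d hcard
    obtain ⟨k, hk⟩ := hgen T hT1 hpT
    intro h0
    rw [h0, smul_zero] at hk
    exact hT hk
  have hmove : ∀ i, ∀ R : E.Point, p • R = 0 → ∃ k : ℕ, τ i R - R = k • T₀ := by
    intro i R hR
    apply hgen
    · exact S13.sub_mem_E1_of_torsion hE hU hW hM.w0 (Model_disc hM) hM.v2 (hG i).ia p hp (hd i)
        h4d R hR
    · rw [smul_sub, ← map_nsmul, hR, _root_.map_zero, sub_zero]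
  have hcycT : ∀ i, ∀ j : ℕ, (∀ ζ : K, ζ ^ p = 1 → σ i ζ = ζ ^ j) → τ i T₀ = j • T₀ := by
    intro i j hj
    exact (hGal K Γ₀ v E α p hM hp hp2 hp0 hvp h4 (σ i) (τ i) (hG i)).2 j hj T₀ hT₀1 hpT₀
  refine ⟨T₀, hT₀, hpT₀, hmove, hcycT, ?_⟩
  -- the torsion subgroup
  let Tp : AddSubgroup E.Point := (nsmulAddMonoidHom (α := E.Point) p).ker
  have hTp : ∀ R : E.Point, R ∈ Tp ↔ p • R = 0 := fun R => Iff.rfl
  have hcardTp : Nat.card Tp = p ^ 2 := hcard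
  have hZ1 : ∀ R ∈ AddSubgroup.zmultiples T₀, InE1 v R := by
    intro R hR
    obtain ⟨k, rfl⟩ := AddSubgroup.mem_zmultiples_iff.1 hR
    rcases Int.eq_nat_or_neg k with ⟨n, rfl | rfl⟩
    · rw [natCast_zsmul]
      exact (hE.E1_nsmul hU hW T₀ hT₀1 n).1
    · rw [neg_smul, natCast_zsmul]
      exact S05.InE1_neg _ (hE.E1_nsmul hU hW T₀ hT₀1 n).1
  -- a torsion point outside `E₁`
  obtain ⟨Q, hpQ, hQ1⟩ : ∃ Q : E.Point, p • Q = 0 ∧ ¬ InE1 v Q := by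
    by_contra hcon
    push Not at hcon
    have hle : Tp ≤ AddSubgroup.zmultiples T₀ := by
      intro R hR
      obtain ⟨k, hk⟩ := hgen R (hcon R hR) hR
      rw [hk]
      exact AddSubgroup.nsmul_mem _ (AddSubgroup.mem_zmultiples T₀) k
    have hcZ : Nat.card (AddSubgroup.zmultiples T₀) = p := by
      have := Fact.mk hp
      rw [Nat.card_zmultiples]
      exact addOrderOf_eq_prime hpT₀ hT₀
    have h1 := AddSubgroup.card_dvd_of_le hle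
    rw [hcardTp, hcZ] at h1
    have h2 := Nat.le_of_dvd hp.pos h1
    have h3 : p * 1 < p * p := Nat.mul_lt_mul_of_pos_left hp.one_lt hp.pos
    nlinarith
  rcases Q with _ | ⟨x, y, h⟩
  · exact absurd trivial hQ1
  obtain ⟨hx4, hx1, ⟨j, -, hj⟩, -⟩ := hMid K Γ₀ v E α d p hM hp hp2 hvp h4d x y h hpQ hQ1
  obtain ⟨x₀, y₀, h₀, hfix, hR1⟩ := hQ0 K Γ₀ v E α d (Set.range σ) hM
    (by rintro _ ⟨i, rfl⟩ a ha; exact (hG i).ia.triv a ha)
    (by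
      intro a ha
      obtain ⟨a₀, h1, h2⟩ := hres a ha
      exact ⟨a₀, by rintro _ ⟨i, rfl⟩; exact h1 i, h2⟩)
    (by rintro _ ⟨i, rfl⟩; exact hd i) (by rintro _ ⟨i, rfl⟩; exact hs2 i)
    (by rintro _ ⟨i, rfl⟩; exact hs4 i) x y h j hj hx4 hx1
  set Q : E.Point := Point.some x y h with hQdef
  set Q₀ : E.Point := Point.some x₀ y₀ h₀ with hQ₀def
  have hτQ₀ : ∀ i, τ i Q₀ = Q₀ := by
    intro i
    obtain ⟨h', e⟩ := (hG i).ia.act x₀ y₀ h₀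
    rw [hQ₀def, e]
    obtain ⟨e1, e2⟩ := hfix (σ i) ⟨i, rfl⟩
    simp only [e1, e2]
  obtain ⟨β, hβ, hβfix⟩ := hPEU K Γ₀ v E α p hM hp hp2 hp0 hvp h4 (Q - Q₀) hR1
  have hpR1 : InE1 v (p • (Q - Q₀)) := (hE.E1_nsmul hU hW _ hR1 p).1
  obtain ⟨hv1, hv2, -⟩ := (hB K Γ₀ v E α hM).2 (p • (Q - Q₀)) (Model_E0_of_E1 _ hpR1)
  refine ⟨β, tt α (p • (Q - Q₀)), hβ, hv1, ?_, ?_, ?_⟩
  · rw [hv2 hpR1]
    exact Model_v_zc_lt_one hM _ hpR1
  · intro i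
    rw [← (hGal K Γ₀ v E α p hM hp hp2 hp0 hvp h4 (σ i) (τ i) (hG i)).1]
    congr 1
    rw [smul_sub, hpQ, zero_sub, map_neg, map_nsmul, hτQ₀]
  · intro i hi hiβ
    have hτR : τ i (Q - Q₀) = Q - Q₀ := by
      apply hβfix (σ i) (τ i) (hG i) hiβ
      have : τ i (Q - Q₀) - (Q - Q₀) = τ i Q - Q := by
        rw [map_sub, hτQ₀]; abel
      rw [this, smul_sub, ← map_nsmul, hpQ, _root_.map_zero, sub_zero]
    have hτQ : τ i Q = Q := by
      rw [map_sub, hτQ₀] at hτR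
      exact sub_left_injective hτR
    have hτT₀ : τ i T₀ = T₀ := by rw [hcycT i 1 hi, one_smul]
    let H : AddSubgroup E.Point := Tp ⊓ (τ i - AddMonoidHom.id _).ker
    have hH : ∀ R : E.Point, R ∈ H ↔ p • R = 0 ∧ τ i R = R := by
      intro R
      rw [AddSubgroup.mem_inf, hTp, AddMonoidHom.mem_ker, AddMonoidHom.sub_apply,
        AddMonoidHom.id_apply, sub_eq_zero]
    have hHT : H = Tp := Model_group p hp Tp H hcardTp inf_le_left T₀ Q hT₀ hpT₀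
      ((hH T₀).2 ⟨hpT₀, hτT₀⟩) ((hH Q).2 ⟨hpQ, hτQ⟩) (fun hc => hQ1 (hZ1 Q hc))
    intro R hR
    have : R ∈ H := by rw [hHT]; exact hR
    exact ((hH R).1 this).2

/-- (MODEL) -/
theorem stmt_ModelLocal (hB : Stmt_TTBasic) (hCyc : Stmt_E1Cyc) (hGal : Stmt_E1Gal)
    (hMid : Stmt_Mid) (hNZ : Stmt_E1Nonzero) (hQ0 : Stmt_Q0) (hPEU : Stmt_PEUabs)
    (hRes : Stmt_Res) : Stmt_ModelLocal := by
  intro p hp hp2 A hA u d hd0 hpd hdisc
  have hpZ : Prime (p : ℤ) := Nat.prime_iff_prime_int.1 hp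
  have hw0 : d ^ p ≠ 0 := pow_ne_zero p hd0
  have hdisc0 : u ^ 2 - 4 * d ^ p ≠ 0 := fun h0 => hdisc (h0 ▸ dvd_zero _)
  have hpu : ¬ (p : ℤ) ∣ u := by
    intro h
    exact hdisc (dvd_sub (dvd_pow h two_ne_zero)
      (Dvd.dvd.mul_left (dvd_pow hpd hp.ne_zero) 4))
  have e2 : ((S05.mcQ (u : ℚ) ((d ^ p : ℤ) : ℚ))⁄Qb).a₂ = (u : Qb) := by
    rw [S05.mcQ_a₂]; simp
  have e4 : ((S05.mcQ (u : ℚ) ((d ^ p : ℤ) : ℚ))⁄Qb).a₄ = ((d ^ p : ℤ) : Qb) := by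
    rw [S05.mcQ_a₄]; simp
  obtain ⟨α, hα⟩ := IsAlgClosed.exists_pow_nat_eq (u : Qb) (n := 2) (by norm_num)
  have hvu : A.valuation (u : Qb) = 1 := S05.val_int_eq_one hA hp hpu
  have hvα : A.valuation α = 1 := by
    have h1 : A.valuation α ^ 2 = 1 := by rw [← map_pow, hα, hvu]
    exact (pow_eq_one_iff_of_nonneg zero_le two_ne_zero).1 h1
  have h2 : A.valuation (2 : Qb) = 1 := by
    have : ¬ (p : ℤ) ∣ 2 := by
      intro h
      have h' : p ∣ 2 := by exact_mod_cast h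
      exact hp2 ((Nat.prime_dvd_prime_iff_eq hp Nat.prime_two).1 h')
    have := S05.val_int_eq_one hA hp this
    simpa using this
  have hvp : A.valuation (p : Qb) < 1 := (ValuationSubring.mem_nonunits_iff A).1 hA
  have hp0 : (p : Qb) ≠ 0 := Nat.cast_ne_zero.2 hp.ne_zero
  have hM : MSet A.valuation ((S05.mcQ (u : ℚ) ((d ^ p : ℤ) : ℚ))⁄Qb) α :=
    { mc := S05.isMC_mcQ _ _
      sq := by rw [e2, hα]
      vα := hvα
      v2 := h2
      w0 := by rw [e4]; exact_mod_cast hw0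
      w1 := by rw [e4]; exact S05.val_int_lt hA (dvd_pow hpd hp.ne_zero) }
  have h4d : A.valuation ((S05.mcQ (u : ℚ) ((d ^ p : ℤ) : ℚ))⁄Qb).a₄ = A.valuation (d : Qb) ^ p := by
    rw [e4]; push_cast; rw [map_pow]
  have h4 : A.valuation ((S05.mcQ (u : ℚ) ((d ^ p : ℤ) : ℚ))⁄Qb).a₄ ≤ A.valuation (p : Qb) ^ 2 := by
    rw [h4d]
    obtain ⟨m, rfl⟩ := hpd
    have h1 : A.valuation (((p : ℤ) * m : ℤ) : Qb) ≤ A.valuation (p : Qb) := by
      push_cast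
      rw [map_mul]
      exact mul_le_of_le_one_right zero_le (S05.val_int_le A m)
    calc A.valuation (((p : ℤ) * m : ℤ) : Qb) ^ p ≤ A.valuation (p : Qb) ^ p :=
          pow_le_pow_left₀ zero_le h1 p
      _ ≤ A.valuation (p : Qb) ^ 2 := pow_le_pow_of_le_one zero_le hvp.le hp.two_le
  have hcard := S13.stmt_model_card_final u (d ^ p) hw0 hdisc0 p hp hp2
  have hGA : ∀ i : A.inertiaSubgroupIn ℚ, GAct A.valuation
      ((S05.mcQ (u : ℚ) ((d ^ p : ℤ) : ℚ))⁄Qb) α ((i : GQ) : Qb →+* Qb)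
      (Point.map (W' := S05.mcQ (u : ℚ) ((d ^ p : ℤ) : ℚ)) (i : GQ).toAlgHom) := by
    intro i
    have hia := S05.inertiaAct_mcQ (u : ℚ) ((d ^ p : ℤ) : ℚ) i.2
    refine ⟨hia, S13.Two.val_eq_of_inertia i.2, ?_⟩
    have h1 : ((i : GQ) α) ^ 2 = α ^ 2 := by
      rw [← map_pow, hα]; simp
    rcases sq_eq_sq_iff_eq_or_eq_neg.1 h1 with h | h
    · exact h
    · exfalso
      have h3 := S05.inertia_unpack i.2 α hvα.le
      rw [h] at h3
      have : -α - α = -(2 * α) := by ring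
      rw [this, Valuation.map_neg, map_mul, h2, hvα, one_mul] at h3
      exact lt_irrefl _ h3
  obtain ⟨T₀, hT₀, hpT₀, hmove, hcyc, β, d₀, hβ, hv1, hv2, hfix, hall⟩ :=
    Model_abs hB hCyc hGal hMid hNZ hQ0 hPEU A.valuation
      ((S05.mcQ (u : ℚ) ((d ^ p : ℤ) : ℚ))⁄Qb) α (d : Qb) p hM hp hp2 hp0 hvp h4 h4d hcard
      (A.inertiaSubgroupIn ℚ) (fun i => ((i : GQ) : Qb →+* Qb))
      (fun i => Point.map (W' := S05.mcQ (u : ℚ) ((d ^ p : ℤ) : ℚ)) (i : GQ).toAlgHom) hGA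
      (by
        intro a ha
        obtain ⟨a₀, h1, h2⟩ := hRes p hp A hA a ((ValuationSubring.valuation_le_one_iff A a).1 ha)
        exact ⟨a₀, fun i => h1 i i.2, h2⟩)
      (fun i => by simp) (fun i => by rw [e2]; simp) (fun i => by rw [e4]; simp)
  refine ⟨T₀, hT₀, hpT₀, fun σ hσ R hR => hmove ⟨σ, hσ⟩ R hR,
    fun σ hσ j hj => hcyc ⟨σ, hσ⟩ j hj, β, d₀, hβ, ?_, ?_, hv2, fun σ hσ => hfix ⟨σ, hσ⟩,
    fun σ hσ h1 hb R hR => hall ⟨σ, hσ⟩ h1 hb R hR⟩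
  · exact (ValuationSubring.valuation_le_one_iff A d₀).1 hv1.le
  · apply (ValuationSubring.valuation_le_one_iff A d₀⁻¹).1
    rw [map_inv₀, hv1, inv_one]

end Fermat.Agent.MR.EC
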