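import Fermat.Agent.MR.EC.Interface
import Fermat.Agent.S13.M1Mid

/-!
# MR / EC, task EC-NZ (helper40; architect helper90): `E₁[p] ≠ 0` by pigeonhole.

If `E₁[p] = 0`, every nonzero `R = (x, y) ∈ E[p]` reduces to the node (`Stmt_Mid`): it has a depth
`j < p` (`v x = v d ^ j`) and a branch (`y ≡ ± α x`).  There are `p² > 2 p + 1` points, so two
different points have the same depth and the same branch; their difference lies in `E₀`
(`S13.IsM1.sub_mem_E0_of_mid`), hence in `E₁` (`Stmt_E0Tors`), hence is `0`.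
-/

set_option autoImplicit false

namespace Fermat.Agent.MR.EC

open WeierstrassCurve WeierstrassCurve.Affine WeierstrassCurve.Affine.Point
open Fermat.Agent.S05 (InE0 InE1 zc)

section

variable {K Γ₀ : Type} [Field K] [DecidableEq K] [LinearOrderedCommGroupWithZero Γ₀]

/-- two points at the same depth on the same branch `y ≡ ε x` (`ε = ± α`) differ by a point
of `E₀`. -/
theorem ECNZ_sub_mem_E0 {v : Valuation K Γ₀} {E : WeierstrassCurve.Affine K} {α : K}
    (hS : MSet v E α) {ε : K} (hε : v ε = 1) {x y x' y' : K} (h : E.Nonsingular x y)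
    (h' : E.Nonsingular x' y') (hx0 : x ≠ 0) (hxv : v x' = v x)
    (hy : v (y - ε * x) < v x) (hy' : v (y' - ε * x') < v x') :
    InE0 v (Point.some x' y' h' - Point.some x y h) := by
  have hvx : 0 < v x := (Valuation.pos_iff v).mpr hx0
  have hx'0 : x' ≠ 0 := by
    intro h0; rw [h0, _root_.map_zero] at hxv; exact hvx.ne hxv
  have hvx' : 0 < v x' := (Valuation.pos_iff v).mpr hx'0
  obtain ⟨h₁, e₁⟩ := S05.exists_some_eq h rfl (show y = x * (y / x) by field_simp)
  obtain ⟨h₂, e₂⟩ := S05.exists_some_eq h' rfl (show y' = x' * (y' / x') by field_simp)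
  rw [e₁, e₂]
  have hs : v (y / x - ε) < 1 := by
    have : y / x - ε = (y - ε * x) / x := by field_simp
    rw [this, map_div₀]
    exact (div_lt_one₀ hvx).mpr hy
  have hs' : v (y' / x' - ε) < 1 := by
    have : y' / x' - ε = (y' - ε * x') / x' := by field_simp
    rw [this, map_div₀]
    exact (div_lt_one₀ hvx').mpr hy'
  have hM1 : S13.IsM1 E := ⟨hS.mc.a₃, hS.mc.a₆⟩
  refine hM1.sub_mem_E0_of_mid h₁ h₂ hx0 hxv ?_ ?_
  · rw [hS.mc.a₁, add_zero, map_mul, hS.v2, one_mul]
    have : y / x = ε + (y / x - ε) := by ring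
    rw [this, ← hε]
    exact Valuation.map_add_eq_of_lt_left v (hε ▸ hs)
  · have : y' / x' - y / x = (y' / x' - ε) - (y / x - ε) := by ring
    rw [this]
    exact Valuation.map_sub_lt v hs' hs

end

/-- **(E1-NONZERO)**. -/
theorem stmt_E1Nonzero (h0 : Stmt_E0Tors) (hM : Stmt_Mid) : Stmt_E1Nonzero := by
  intro K Γ₀ _ _ _ v E α d p hS hp hp2 hvp hd hcard
  by_contra hcon
  have hcon' : ∀ T : E.Point, InE1 v T → p • T = 0 → T = 0 := fun T h1 h2 => by
    by_contra hT
    exact hcon ⟨T, hT, h1, h2⟩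
  -- the class of a torsion point
  have hcls : ∀ R : {R : E.Point // p • R = 0}, ∃ c : Option (Fin p × Bool),
      (c = none → R.1 = 0) ∧ ∀ (j : Fin p) (b : Bool), c = some (j, b) →
        ∃ (x y : K) (h : E.Nonsingular x y), R.1 = Point.some x y h ∧ x ≠ 0 ∧
          v x = v d ^ (j : ℕ) ∧ v (y - (if b then α else -α) * x) < v x := by
    rintro ⟨R, hR⟩
    rcases R with _ | ⟨x, y, h⟩
    · exact ⟨none, fun _ => rfl, fun j b hjb => by simp at hjb⟩
    · have hnE1 : ¬ InE1 v (Point.some x y h) := fun h1 => by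
        have := hcon' _ h1 hR
        exact Point.some_ne_zero h this
      obtain ⟨hx4, -, ⟨j, hj, hxj⟩, hb⟩ := hM K Γ₀ v E α d p hS hp hp2 hvp hd x y h hR hnE1
      have hx0 : x ≠ 0 := by
        rintro rfl
        rw [_root_.map_zero] at hx4; simp at hx4
      rcases hb with hb | hb
      · refine ⟨some (⟨j, hj⟩, true), fun hc => by simp at hc, fun j' b' hjb => ?_⟩
        simp only [Option.some.injEq, Prod.mk.injEq] at hjb
        obtain ⟨rfl, rfl⟩ := hjb
        exact ⟨x, y, h, rfl, hx0, hxj, by simpa using hb⟩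
      · refine ⟨some (⟨j, hj⟩, false), fun hc => by simp at hc, fun j' b' hjb => ?_⟩
        simp only [Option.some.injEq, Prod.mk.injEq] at hjb
        obtain ⟨rfl, rfl⟩ := hjb
        refine ⟨x, y, h, rfl, hx0, hxj, ?_⟩
        have : y - (if false = true then α else -α) * x = y + α * x := by simp
        rw [this]; exact hb
  choose c hc0 hc1 using hcls
  -- pigeonhole
  have hfin : Finite {R : E.Point // p • R = 0} :=
    Nat.finite_of_card_ne_zero (by rw [hcard]; exact pow_ne_zero 2 hp.ne_zero)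
  have := Fintype.ofFinite {R : E.Point // p • R = 0}
  have hp3 : 3 ≤ p := by
    have := hp.two_le
    omega
  have hlt : Fintype.card (Option (Fin p × Bool)) < Fintype.card {R : E.Point // p • R = 0} := by
    rw [← Nat.card_eq_fintype_card (α := {R : E.Point // p • R = 0}), hcard]
    simp only [Fintype.card_option, Fintype.card_prod, Fintype.card_fin, Fintype.card_bool]
    nlinarith
  obtain ⟨R, R', hne, hcc⟩ := Fintype.exists_ne_map_eq_of_card_lt c hlt
  apply hne
  apply Subtype.ext
  rcases hcR : c R with _ | ⟨j, b⟩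
  · rw [hc0 R hcR, hc0 R' (hcc ▸ hcR)]
  · obtain ⟨x, y, h, eR, hx0, hxj, hy⟩ := hc1 R j b hcR
    obtain ⟨x', y', h', eR', -, hxj', hy'⟩ := hc1 R' j b (hcc ▸ hcR)
    have hε : v (if b then α else -α) = 1 := by
      split_ifs
      · exact hS.vα
      · rw [Valuation.map_neg]; exact hS.vα
    have hE0 : InE0 v (R'.1 - R.1) := by
      rw [eR, eR']
      exact ECNZ_sub_mem_E0 hS hε h h' hx0 (hxj'.trans hxj.symm) hy hy'
    have hp0 : p • (R'.1 - R.1) = 0 := by
      rw [smul_sub, R.2, R'.2, sub_zero]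
    have hE1 := h0 K Γ₀ v E α p hS hp hvp _ hE0 hp0
    exact (sub_eq_zero.mp (hcon' _ hE1 hp0)).symm

end Fermat.Agent.MR.EC
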