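import Fermat.Agent.MR.EC.Interface

/-!
# MR / EC / (PEU-ABS) : Kummer generator for a `p`-division point in `E₁`  (helper50, task 1120)
-/

set_option autoImplicit false

namespace Fermat.Agent.MR.EC

open WeierstrassCurve WeierstrassCurve.Affine WeierstrassCurve.Affine.Point
open Fermat.Agent.S05 (InE0 InE1 zc)

theorem PEU_inE0_of_inE1 {K Γ₀ : Type*} [Field K] [DecidableEq K]
    [LinearOrderedCommGroupWithZero Γ₀] {v : Valuation K Γ₀} {E : WeierstrassCurve.Affine K}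
    {P : E.Point} (h : InE1 v P) : InE0 v P := by
  rcases P with _ | ⟨x, y, hxy⟩
  · trivial
  · exact le_of_lt h

theorem stmt_PEUabs (hB : Stmt_TTBasic) (hM : Stmt_TTMul) (hP : Stmt_TTPow) (hR : Stmt_DeepRoot)
    (hG : Stmt_DeepGrp) (hT : Stmt_E1Tors) (hGal : Stmt_E1Gal) : Stmt_PEUabs := by
  intro K Γ₀ _ _ _ _ v E α p hS hp hp2 hp0 hvp ha4 R hR1
  obtain ⟨hGmul, hGinv, hGsmall, hGlt⟩ := hG K Γ₀ v p hp hp2 hp0 hvp
  obtain ⟨hBneg, hBE0⟩ := hB K Γ₀ v E α hS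
  have hR0 : InE0 v R := PEU_inE0_of_inE1 hR1
  obtain ⟨ε, hε, htt, -⟩ := hP K Γ₀ v E α hS R hR0 p
  obtain ⟨-, hε2⟩ := hGsmall ε (hε.trans ha4)
  obtain ⟨η, hη, hηd⟩ := hR K Γ₀ v p hp ε hε2
  have hη0 : η ≠ 0 := by
    rintro rfl
    have h1 := hGlt _ hηd
    rw [zero_sub, Valuation.map_neg, map_one] at h1
    exact lt_irrefl _ h1
  have httR : v (tt α R) = 1 := (hBE0 R hR0).1
  have httR0 : tt α R ≠ 0 := by
    intro h
    rw [h, _root_.map_zero] at httR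
    exact zero_ne_one httR
  refine ⟨tt α R * η, by rw [mul_pow, hη, htt], ?_⟩
  intro σ τ hA hσβ hpT
  have hU : v E.a₂ ≤ 1 := by rw [← hS.sq, map_pow, hS.vα, one_pow]
  have hW : v E.a₄ ≤ 1 := hS.w1.le
  have hτR1 : InE1 v (τ R) := hA.ia.E1 _ hR1
  have hnR1 : InE1 v (-R) := S05.InE1_neg _ hR1
  have hT1 : InE1 v (τ R - R) := by
    rw [sub_eq_add_neg]
    exact (hS.mc.E1_add hU hW _ _ hτR1 hnR1).1
  obtain ⟨ε', hε', hmul, -⟩ := hM K Γ₀ v E α hS (τ R) (-R) (PEU_inE0_of_inE1 hτR1)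
    (PEU_inE0_of_inE1 hnR1)
  have hgal := (hGal K Γ₀ v E α p hS hp hp2 hp0 hvp ha4 σ τ hA).1 R
  have hση0 : σ η ≠ 0 := (map_ne_zero σ).2 hη0
  -- `σ (tt R) = tt R * η / σ η`
  have hσtt : σ (tt α R) = tt α R * η / σ η := by
    rw [eq_div_iff hση0, ← map_mul, hσβ]
  have httT : tt α (τ R - R) = η * (σ η)⁻¹ * (1 + ε') := by
    rw [sub_eq_add_neg, hmul, hBneg, hgal, hσtt]
    field_simp
  have hd1 : Deep v p (σ η - 1) := by
    have h1 : σ η - 1 = σ (η - 1) := by rw [map_sub, map_one]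
    unfold Deep
    rw [h1, hA.val]
    exact hηd
  have hd2 : Deep v p ((1 + ε') - 1) := by
    rw [add_sub_cancel_left]
    exact (hGsmall ε' (hε'.trans ha4)).1
  have hd3 : Deep v p (tt α (τ R - R) - 1) := by
    rw [httT]
    exact hGmul _ _ (hGmul _ _ hηd (hGinv _ hd1)) hd2
  have ha4' : v E.a₄ ≤ v (p : K) := by
    refine ha4.trans ?_
    rw [pow_two]
    exact mul_le_of_le_one_left' hvp.le
  have := hT K Γ₀ v E α p hS hp hp0 ha4' (τ R - R) hT1 hpT hd3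
  exact sub_eq_zero.1 this

end Fermat.Agent.MR.EC
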