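import Fermat.Agent.MR.EC.Interface
import Fermat.Agent.S05.Mult

/-!
# MR / EC / Q0 : a rational point in the same residue class (helper54)
-/

set_option autoImplicit false

namespace Fermat.Agent.MR.EC

open WeierstrassCurve WeierstrassCurve.Affine
open Fermat.Agent.S05 (InE0 InE1 zc IsMC)

section

variable {K : Type*} [Field K] [DecidableEq K] {Γ₀ : Type*} [LinearOrderedCommGroupWithZero Γ₀]
  {v : Valuation K Γ₀}

/-- static version of `S05.IsMC.sub_mem_E1_of_s_unit`. -/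
theorem Q0_sub_mem_E1 {E : WeierstrassCurve.Affine K} (hE : IsMC E) (h2 : v (2 : K) = 1)
    {x s x₀ s₀ : K} (h : E.Nonsingular x (x * s)) (h₀ : E.Nonsingular x₀ (x₀ * s₀))
    (hx0 : x ≠ 0) (hs : v s = 1) (hxv : v (x₀ - x) < v x) (hsv : v (s₀ - s) < 1) :
    InE1 v (Point.some _ _ h - Point.some _ _ h₀) := by
  obtain ⟨h₂, e₂'⟩ := hE.neg_s x₀ s₀ h₀
  rw [sub_eq_add_neg, e₂']
  have hvx : 0 < v x := (Valuation.pos_iff v).mpr hx0
  have hx₀v : v x₀ = v x := by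
    have : x₀ = x + (x₀ - x) := by ring
    rw [this]
    exact Valuation.map_add_eq_of_lt_left v hxv
  have hx₀0 : x₀ ≠ 0 := by
    intro h0; rw [h0, map_zero] at hx₀v; exact hvx.ne hx₀v
  have e₁ := hE.equation_s hx0 h.1
  have e₂ := hE.equation_s hx₀0 h₂.1
  have hd := S05.alg_diff e₁ e₂
  have hD' : v (s - -s₀) = 1 := by
    have : s - -s₀ = 2 * s + (s₀ - s) := by ring
    rw [this]
    have h8 : v (2 * s) = 1 := by rw [map_mul, h2, hs, one_mul]
    rw [← h8]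
    exact Valuation.map_add_eq_of_lt_left v (h8 ▸ hsv)
  have hD'0 : s - -s₀ ≠ 0 := by
    intro h0; rw [h0] at hD'; simp at hD'
  by_cases hxx : x = x₀
  · have hD0 : s + -s₀ = 0 := by
      rw [hxx, sub_self, zero_mul] at hd
      rcases mul_eq_zero.1 hd with h9 | h9
      · exact absurd h9 (mul_ne_zero hx₀0 hx₀0)
      · rcases mul_eq_zero.1 h9 with h9 | h9
        · exact absurd h9 hD'0
        · exact h9
    have hy : x * s = E.negY x₀ (x₀ * -s₀) := by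
      rw [hE.negY, hxx]; linear_combination x₀ * hD0
    rw [Point.add_of_Y_eq hxx hy]
    trivial
  · obtain ⟨x₃, y₃, h₃, hadd, hx₃⟩ := hE.add_minus_x' hx0 hx₀0 hxx h h₂
    rw [hadd]
    show 1 < v x₃
    have hxv' : v (x - x₀) < v x := by rwa [← Valuation.map_neg, neg_sub]
    have hxx0 : 0 < v (x - x₀) := (Valuation.pos_iff v).mpr (sub_ne_zero.2 hxx)
    rw [hx₃, map_div₀, map_mul, map_mul, map_pow, map_pow, hx₀v, hD', one_pow,
      mul_one, one_lt_div₀ (pow_pos hxx0 2), ← sq]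
    exact pow_lt_pow_left₀ hxv' zero_le two_ne_zero

end

theorem stmt_Q0 : Stmt_Q0 := by
  intro K Γ₀ _ _ _ _ v E α d 𝒮 hM hS1 hS2 hd ha2 ha4 x y h j hxj hlt hx1
  have hE := hM.mc
  have h2 := hM.v2
  have hvx : 0 < v x := lt_of_le_of_lt zero_le hlt
  have hx0 : x ≠ 0 := (Valuation.pos_iff v).mp hvx
  have hdj : v (d ^ j) = v x := by rw [map_pow, hxj]
  have hdj0 : d ^ j ≠ 0 := by
    intro h0; rw [h0, map_zero] at hdj; exact hvx.ne hdj
  have hUu : v E.a₂ = 1 := by rw [← hM.sq, map_pow, hM.vα, one_pow]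
  -- the coordinate `x₀`
  have hva : v (x / d ^ j) = 1 := by rw [map_div₀, hdj, div_self hvx.ne']
  obtain ⟨a₀, ha₀, haa₀⟩ := hS2 (x / d ^ j) hva.le
  set x₀ := d ^ j * a₀ with hx₀
  have hx₀fix : ∀ σ ∈ 𝒮, σ x₀ = x₀ := by
    intro σ hσ
    rw [hx₀, map_mul, map_pow, hd σ hσ, ha₀ σ hσ]
  have hxv : v (x₀ - x) < v x := by
    have : x₀ - x = -(d ^ j * (x / d ^ j - a₀)) := by
      rw [hx₀]; field_simp; ring
    rw [this, Valuation.map_neg, map_mul, hdj]
    exact mul_lt_of_lt_one_right hvx haa₀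
  have hx₀v : v x₀ = v x := by
    have : x₀ = x + (x₀ - x) := by ring
    rw [this]
    exact Valuation.map_add_eq_of_lt_left v hxv
  have hx₀0 : x₀ ≠ 0 := by
    intro h0; rw [h0, map_zero] at hx₀v; exact hvx.ne hx₀v
  -- the slope `s`
  obtain ⟨s, h', e'⟩ := S05.exists_s h hx0
  have e := hE.equation_s hx0 h'.1
  have hs2 : s ^ 2 = E.a₂ + (x + E.a₄ / x) := by
    field_simp
    linear_combination e
  have hs : v s = 1 := by
    have h5 : v (s ^ 2) = 1 := by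
      rw [hs2, ← hUu]
      apply Valuation.map_add_eq_of_lt_left
      rw [hUu]
      apply Valuation.map_add_lt v hx1
      rw [map_div₀]
      exact (div_lt_one₀ hvx).mpr hlt
    rw [map_pow] at h5
    exact (pow_eq_one_iff_left two_ne_zero).mp h5
  -- the slope `s₀`
  set c₀ := E.a₂ + (x₀ + E.a₄ / x₀) with hc₀
  have hc₀fix : ∀ σ ∈ 𝒮, σ c₀ = c₀ := by
    intro σ hσ
    rw [hc₀, map_add, map_add, map_div₀, ha2 σ hσ, ha4 σ hσ, hx₀fix σ hσ]
  have hex : ∃ s₀ : K, s₀ ^ 2 = c₀ ∧ v (s₀ - s) < 1 := by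
    obtain ⟨s₁, hs₁⟩ := IsAlgClosed.exists_pow_nat_eq c₀ (n := 2) (by norm_num)
    have hprod : v ((s₁ - s) * (s₁ + s)) < 1 := by
      have : (s₁ - s) * (s₁ + s) = (x₀ - x) + -(E.a₄ / x * ((x₀ - x) / x₀)) := by
        have : (s₁ - s) * (s₁ + s) = s₁ ^ 2 - s ^ 2 := by ring
        rw [this, hs₁, hs2, hc₀]
        field_simp
        ring
      rw [this]
      apply Valuation.map_add_lt v (hxv.trans hx1)
      rw [Valuation.map_neg, map_mul, map_div₀, map_div₀, hx₀v]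
      exact mul_lt_one_of_nonneg_of_lt_one_left zero_le ((div_lt_one₀ hvx).mpr hlt)
        ((div_lt_one₀ hvx).mpr hxv).le
    rw [map_mul] at hprod
    by_cases hc : v (s₁ - s) < 1
    · exact ⟨s₁, hs₁, hc⟩
    · refine ⟨-s₁, by rw [neg_sq, hs₁], ?_⟩
      have h3 : -s₁ - s = -(s₁ + s) := by ring
      rw [h3, Valuation.map_neg]
      by_contra hc'
      exact absurd hprod (not_lt.2 (one_le_mul_of_one_le_of_one_le (not_lt.1 hc) (not_lt.1 hc')))
  obtain ⟨s₀, hs₀, hsv⟩ := hex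
  have hs₀v : v s₀ = 1 := by
    have : s₀ = s + (s₀ - s) := by ring
    rw [this, ← hs]
    exact Valuation.map_add_eq_of_lt_left v (hs ▸ hsv)
  have hs₀fix : ∀ σ ∈ 𝒮, σ s₀ = s₀ := by
    intro σ hσ
    have h3 : σ s₀ ^ 2 = s₀ ^ 2 := by rw [← map_pow, hs₀, hc₀fix σ hσ]
    rcases sq_eq_sq_iff_eq_or_eq_neg.mp h3 with h4 | h4
    · exact h4
    · exfalso
      have h5 := hS1 σ hσ s₀ hs₀v.le
      have h6 : σ s₀ - s₀ = -(2 * s₀) := by rw [h4]; ring
      rw [h6, Valuation.map_neg, map_mul, h2, hs₀v, one_mul] at h5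
      exact lt_irrefl _ h5
  -- the point
  have heq : E.Equation x₀ (x₀ * s₀) := by
    rw [hE.equation_iff, mul_pow, hs₀, hc₀]
    field_simp
    ring
  have h₀ : E.Nonsingular x₀ (x₀ * s₀) := by
    rw [WeierstrassCurve.Affine.nonsingular_iff]
    refine ⟨heq, Or.inr ?_⟩
    rw [hE.a₁, hE.a₃]
    intro h3
    have h4 : 2 * (x₀ * s₀) = 0 := by linear_combination h3
    have h5 : v (2 * (x₀ * s₀)) = v x := by rw [map_mul, map_mul, h2, hs₀v, hx₀v, one_mul, mul_one]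
    rw [h4, map_zero] at h5
    exact hvx.ne h5
  refine ⟨x₀, x₀ * s₀, h₀, fun σ hσ => ⟨hx₀fix σ hσ, by rw [map_mul, hx₀fix σ hσ, hs₀fix σ hσ]⟩, ?_⟩
  rw [e']
  exact Q0_sub_mem_E1 hE h2 h' h₀ hx0 hs hxv hsv

end Fermat.Agent.MR.EC
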