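import Fermat.Agent.MR.EC.Interface

/-!
# MR / EC, task EC-QUAD (helper2): two modules with `VHyp` satisfy a common quadratic relation
(Frobenius density).
-/

set_option autoImplicit false

namespace Fermat.Agent.MR.EC

open Fermat.Agent.ES.Rep23 (QuadRel exists_quad_pow)
open Fermat.Agent.ES.RepGalois
open Fermat.Agent.ES.Res29 (epsBar epsBar_eq eq_of_level)

theorem stmt_Quad (hFD : FD.Stmt_FD) : Stmt_Quad := by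
  intro P hp W V₁ V₂ _ _ _ _ ρ₁ ρ₂ h₁ h₂
  obtain ⟨L₁, hL₁, hlev₁⟩ := h₁.level
  obtain ⟨L₂, hL₂, hlev₂⟩ := h₂.level
  obtain ⟨S₁, hS₁⟩ := h₁.frob
  obtain ⟨S₂, hS₂⟩ := h₂.frob
  obtain ⟨L₃, hL₃, hcyc⟩ := exists_level P.p hp.out.pos
  have hL₁₂ : FiniteDimensional ℚ ↥(L₁ ⊔ L₂) := IntermediateField.finiteDimensional_sup L₁ L₂
  obtain ⟨L, hL, hLn, hLle⟩ := exists_normal_ge (L₁ ⊔ L₂ ⊔ L₃)
    (IntermediateField.finiteDimensional_sup (L₁ ⊔ L₂) L₃)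
  have hL₁L : L₁ ≤ L := le_trans (le_trans le_sup_left le_sup_left) hLle
  have hL₂L : L₂ ≤ L := le_trans (le_trans le_sup_right le_sup_left) hLle
  have hL₃L : L₃ ≤ L := le_trans le_sup_right hLle
  have hquad : ∀ g : GQ, ∃ s : ZMod P.p,
      (ρ₁ g * ρ₁ g - s • ρ₁ g + epsBar P.p (ZMod P.p) g • (1 : Module.End (ZMod P.p) V₁) = 0) ∧
      (ρ₂ g * ρ₂ g - s • ρ₂ g + epsBar P.p (ZMod P.p) g • (1 : Module.End (ZMod P.p) V₂) = 0) := by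
    intro g
    obtain ⟨ℓ, A, σ, k, -, hℓ, hℓS, hA, hσ, hgk, -⟩ := hFD L g (S₁ ∪ S₂ ∪ {P.p})
    have hℓS₁ : ℓ ∉ S₁ := fun h => hℓS (Finset.mem_union_left _ (Finset.mem_union_left _ h))
    have hℓS₂ : ℓ ∉ S₂ := fun h => hℓS (Finset.mem_union_left _ (Finset.mem_union_right _ h))
    have hℓp : ℓ ≠ P.p := fun h => hℓS (Finset.mem_union_right _ (Finset.mem_singleton.2 h))
    have r : ((ρ₁ σ, ρ₂ σ) : Module.End (ZMod P.p) V₁ × Module.End (ZMod P.p) V₂) * (ρ₁ σ, ρ₂ σ)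
        - ((W.apOfModel ℓ : ℤ) : ZMod P.p) • (ρ₁ σ, ρ₂ σ) + (ℓ : ZMod P.p) • 1 = 0 :=
      Prod.ext (hS₁ ℓ hℓ hℓS₁ A hA σ hσ) (hS₂ ℓ hℓ hℓS₂ A hA σ hσ)
    obtain ⟨s', hs'⟩ := exists_quad_pow r k
    have c1 : ρ₁ σ ^ k * ρ₁ σ ^ k - s' • ρ₁ σ ^ k + (ℓ : ZMod P.p) ^ k • 1 = 0 :=
      congrArg Prod.fst hs'
    have c2 : ρ₂ σ ^ k * ρ₂ σ ^ k - s' • ρ₂ σ ^ k + (ℓ : ZMod P.p) ^ k • 1 = 0 :=
      congrArg Prod.snd hs'
    have e1 : ρ₁ g = ρ₁ σ ^ k := by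
      rw [← map_pow]
      exact eq_of_level hlev₁ fun x hx => hgk x (hL₁L hx)
    have e2 : ρ₂ g = ρ₂ σ ^ k := by
      rw [← map_pow]
      exact eq_of_level hlev₂ fun x hx => hgk x (hL₂L hx)
    have h2 : IsCyc P.p (σ ^ k) (ℓ ^ k) :=
      (isCyc_frob hℓ hA hσ (fun h => hℓp ((Nat.prime_dvd_prime_iff_eq hℓ hp.out).mp h))).pow k
    have h3 : IsCyc P.p g (ℓ ^ k) := hcyc (σ ^ k) g (fun x hx => (hgk x (hL₃L hx)).symm) _ h2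
    refine ⟨s', ?_, ?_⟩
    · rw [e1, epsBar_eq P.p (ZMod P.p) h3, Nat.cast_pow]
      exact c1
    · rw [e2, epsBar_eq P.p (ZMod P.p) h3, Nat.cast_pow]
      exact c2
  choose t ht using hquad
  exact ⟨t, fun g => (ht g).1, fun g => (ht g).2⟩

end Fermat.Agent.MR.EC
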