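import Fermat.Agent.MR.EC.Interface

/-!
# MR / EC : `Stmt_Span` (task 1128): an irreducible 2-dimensional representation containing a split
non-scalar element spans the endomorphism algebra.
-/

set_option autoImplicit false

namespace Fermat.Agent.MR.EC

theorem Span_main (k G Y : Type) [Field k] [Group G] [AddCommGroup Y] [Module k Y]
    (ρ : G →* Module.End k Y) (h2 : Module.finrank k Y = 2)
    (hirr : ∀ V : Submodule k Y, (∀ g, ∀ x ∈ V, ρ g x ∈ V) → V = ⊥ ∨ V = ⊤)
    (hs : ∃ (s : G) (a b : k), a ≠ b ∧ (ρ s - a • 1) * (ρ s - b • 1) = 0 ∧ ρ s ≠ a • 1 ∧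
      ρ s ≠ b • 1) :
    Submodule.span k (Set.range ρ) = ⊤ := by
  obtain ⟨s, a, b, hab, hprod, hna, hnb⟩ := hs
  set AA : Subalgebra k (Module.End k Y) := Algebra.adjoin k (Set.range ρ) with hAA
  have hspan : Submodule.span k (Set.range ρ) = Subalgebra.toSubmodule AA := by
    rw [hAA, Algebra.adjoin_eq_span]
    congr 1
    have : (Set.range ρ) = ((MonoidHom.mrange ρ : Submonoid _) : Set _) :=
      (MonoidHom.coe_mrange ρ).symm
    rw [this, Submonoid.closure_eq]
  rw [hspan]
  have hρ : ∀ g, ρ g ∈ AA := fun g => Algebra.subset_adjoin ⟨g, rfl⟩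
  set T := ρ s with hT
  have hP : T - b • 1 ∈ AA := AA.sub_mem (hρ s) (AA.smul_mem AA.one_mem b)
  have hQ : T - a • 1 ∈ AA := AA.sub_mem (hρ s) (AA.smul_mem AA.one_mem a)
  have hprod' : (T - b • 1) * (T - a • 1) = 0 := by
    rw [← hprod]
    simp only [sub_mul, mul_sub, smul_mul_assoc, mul_smul_comm, one_mul, mul_one, smul_sub]
    rw [smul_comm a b]
    abel
  -- eigenvectors
  obtain ⟨u0, hu0⟩ : ∃ u0, (T - b • 1) u0 ≠ 0 := by
    by_contra h
    push Not at h
    apply hnb
    ext y
    have := h y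
    simpa [sub_eq_zero] using this
  obtain ⟨w0, hw0⟩ : ∃ w0, (T - a • 1) w0 ≠ 0 := by
    by_contra h
    push Not at h
    apply hna
    ext y
    have := h y
    simpa [sub_eq_zero] using this
  set u := (T - b • 1) u0 with hu
  set w := (T - a • 1) w0 with hw
  have hTu : T u = a • u := by
    have := congrArg (fun f : Module.End k Y => f u0) hprod
    simpa [sub_eq_zero, ← hu] using this
  have hTw : T w = b • w := by
    have := congrArg (fun f : Module.End k Y => f w0) hprod'
    simpa [sub_eq_zero, ← hw] using this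
  have hPu : (T - b • 1) u = (a - b) • u := by simp [hTu, sub_smul]
  have hPw : (T - b • 1) w = 0 := by simp [hTw]
  have hQu : (T - a • 1) u = 0 := by simp [hTu]
  have hQw : (T - a • 1) w = (b - a) • w := by simp [hTw, sub_smul]
  have hab' : a - b ≠ 0 := sub_ne_zero.2 hab
  have hba' : b - a ≠ 0 := sub_ne_zero.2 hab.symm
  -- independence
  have hli : LinearIndependent k ![u, w] := by
    rw [LinearIndependent.pair_iff]
    intro c d hcd
    have h1 := congrArg (fun y => (T - b • (1 : Module.End k Y)) y) hcd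
    rw [map_add, map_smul, map_smul, hPu, hPw, smul_zero, add_zero, map_zero, smul_smul] at h1
    have hc : c = 0 := by
      rcases smul_eq_zero.1 h1 with h | h
      · exact (mul_eq_zero.1 h).resolve_right hab'
      · exact absurd h hu0
    subst hc
    rw [zero_smul, zero_add] at hcd
    exact ⟨rfl, (smul_eq_zero.1 hcd).resolve_right hw0⟩
  have htop : Submodule.span k ({u, w} : Set Y) = ⊤ := by
    have := hli.span_eq_top_of_card_eq_finrank (by simp [h2])
    rw [← this]
    congr 1
    simp [Matrix.range_cons, Set.pair_comm]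
  -- orbits
  have horb : ∀ v : Y, v ≠ 0 → ∀ y : Y, ∃ x ∈ AA, x v = y := by
    intro v hv y
    let V : Submodule k Y :=
      { carrier := {z | ∃ x ∈ AA, x v = z}
        add_mem' := by
          rintro _ _ ⟨x, hx, rfl⟩ ⟨x', hx', rfl⟩
          exact ⟨x + x', AA.add_mem hx hx', rfl⟩
        zero_mem' := ⟨0, AA.zero_mem, rfl⟩
        smul_mem' := by
          rintro c _ ⟨x, hx, rfl⟩
          exact ⟨c • x, AA.smul_mem hx c, rfl⟩ }
    have hV : V = ⊥ ∨ V = ⊤ := hirr V (by
      rintro g _ ⟨x, hx, rfl⟩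
      exact ⟨ρ g * x, AA.mul_mem (hρ g) hx, rfl⟩)
    have hvV : v ∈ V := ⟨1, AA.one_mem, rfl⟩
    rcases hV with h | h
    · rw [h, Submodule.mem_bot] at hvV
      exact absurd hvV hv
    · have : y ∈ V := by rw [h]; exact Submodule.mem_top
      exact this
  obtain ⟨x, hx, hxu⟩ := horb u hu0 w
  obtain ⟨x', hx', hxw⟩ := horb w hw0 u
  rw [eq_top_iff]
  intro f _
  have hfu : f u ∈ Submodule.span k ({u, w} : Set Y) := by rw [htop]; exact Submodule.mem_top
  have hfw : f w ∈ Submodule.span k ({u, w} : Set Y) := by rw [htop]; exact Submodule.mem_top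
  obtain ⟨f11, f21, h1⟩ := Submodule.mem_span_pair.1 hfu
  obtain ⟨f12, f22, h2'⟩ := Submodule.mem_span_pair.1 hfw
  have hf : f = ((a - b)⁻¹ * f11) • (T - b • 1) + ((a - b)⁻¹ * f21) • (x * (T - b • 1)) +
      ((b - a)⁻¹ * f12) • (x' * (T - a • 1)) + ((b - a)⁻¹ * f22) • (T - a • 1) := by
    apply LinearMap.ext_on htop
    intro z hz
    rcases hz with rfl | hz
    · simp only [LinearMap.add_apply, LinearMap.smul_apply, Module.End.mul_apply, hPu, hQu,
        map_zero, smul_zero, add_zero, map_smul, hxu, smul_smul]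
      rw [← h1]
      congr 1 <;> congr 1 <;> field_simp
    · rw [Set.mem_singleton_iff] at hz
      subst hz
      simp only [LinearMap.add_apply, LinearMap.smul_apply, Module.End.mul_apply, hPw, hQw,
        map_zero, smul_zero, zero_add, map_smul, hxw, smul_smul]
      rw [← h2']
      congr 1 <;> congr 1 <;> field_simp
  rw [hf]
  show _ ∈ AA
  exact AA.add_mem (AA.add_mem (AA.add_mem (AA.smul_mem hP _) (AA.smul_mem (AA.mul_mem hx hP) _))
    (AA.smul_mem (AA.mul_mem hx' hQ) _)) (AA.smul_mem hQ _)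

theorem stmt_Span : Stmt_Span := fun k G Y _ _ _ _ ρ h2 hirr hs => Span_main k G Y ρ h2 hirr hs

end Fermat.Agent.MR.EC
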