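import Fermat.Agent.MR.EC.Interface
import Fermat.Agent.S13.TFinal

/-!
# MR / EC : (SPAN-E) the Galois image spans `End(E[p])`

`E[p]` has rank two; an element `s` of the inertia group at `p` moving `ζ_p` acts on `E[p]` with
the two distinct eigenvalues `ω(s)` (on the line `⟨T₀⟩`) and `1` (on the quotient), and is not a
scalar.  The abstract statement `Stmt_Span` then gives that the image spans the matrix algebra.
-/

set_option autoImplicit false

namespace Fermat.Agent.MR.EC

open WeierstrassCurve WeierstrassCurve.Affine WeierstrassCurve.Affine.Point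
open Fermat.Agent.ES.RepGalois (IsCyc)

/-- there is a valuation subring of `ℚ̄` over every prime. -/
theorem SpanE_exists_valuationSubring (l : ℕ) (hl : l.Prime) :
    ∃ V : ValuationSubring Qb, V.LiesOverPrime l := by
  let A : Subring Qb := (Int.castRingHom Qb).range
  let lA : A := ⟨(l : Qb), ⟨(l : ℤ), by simp⟩⟩
  have hI : Ideal.span {lA} ≠ ⊤ := by
    intro h
    rw [Ideal.span_singleton_eq_top] at h
    obtain ⟨⟨_, ⟨n, rfl⟩⟩, hn⟩ := isUnit_iff_exists_inv.mp h
    have h1 : ((l : ℤ) * n : ℤ) = 1 := by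
      have h2 := congrArg Subtype.val hn
      have h3 : ((l : Qb)) * ((n : ℤ) : Qb) = 1 := h2
      exact_mod_cast h3
    have h4 : IsUnit (l : ℤ) := IsUnit.of_mul_eq_one _ h1
    exact (Nat.prime_iff_prime_int.mp hl).not_isUnit h4
  obtain ⟨V, -, hV⟩ := Ideal.image_subset_nonunits_valuationSubring _ hI
  exact ⟨V, hV ⟨lA, Ideal.subset_span rfl, rfl⟩⟩

/-- the rank of `E[p]`. -/
theorem SpanE_finrank (hcard : S13.Stmt_card) (P : FreyPackage) :
    Module.finrank (ZMod P.p) (S13.Tors P) = 2 := by
  have : Fact P.p.Prime := ⟨P.pp⟩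
  have hc : Nat.card (S13.Tors P) = P.p ^ 2 := hcard P
  have hfin : Finite (S13.Tors P) := Nat.finite_of_card_ne_zero (by
    rw [hc]; exact pow_ne_zero 2 P.pp.ne_zero)
  have h1 := Module.natCard_eq_pow_finrank (K := ZMod P.p) (V := S13.Tors P)
  rw [hc, Nat.card_zmod] at h1
  exact (Nat.pow_right_injective P.pp.two_le h1).symm

theorem SpanE_core (hcard : S13.Stmt_card) (hFL : Stmt_FreyLocal) (hO : Stmt_Omega)
    (hS : Stmt_Span) : Stmt_SpanE := by
  intro P hdvd hirr
  have : Fact P.p.Prime := ⟨P.pp⟩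
  have hrank := SpanE_finrank hcard P
  refine ⟨hrank, ?_⟩
  obtain ⟨A, hA⟩ := SpanE_exists_valuationSubring P.p P.pp
  obtain ⟨s, hs, ζ, hζ, hsζ⟩ := hO P.p P.pp (by have := P.hp5; omega) A hA
  obtain ⟨j, hj⟩ := ES.RepGalois.exists_isCyc P.p P.pp.pos s
  obtain ⟨T₀, hT0, hpT, hq, hl, -⟩ := hFL P hdvd A hA
  have hj1 : (j : ZMod P.p) ≠ 1 := by
    intro h
    apply hsζ
    have h1 : j ≡ 1 [MOD P.p] := by
      rw [← ZMod.natCast_eq_natCast_iff]
      simpa using h
    have h2 := hj.congr h1 ζ hζ
    simpa using h2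
  have hj1' : (j : ZMod P.p) - 1 ≠ 0 := sub_ne_zero.2 hj1
  -- `T₀` as an element of the torsion module
  let T : S13.Tors P := ⟨T₀, by
    rw [Submodule.mem_torsionBy_iff, natCast_zsmul]; exact hpT⟩
  have hT : T ≠ 0 := fun h => hT0 (congrArg Subtype.val h)
  have hsT : s • T = (j : ZMod P.p) • T := by
    rw [Nat.cast_smul_eq_nsmul]
    exact Subtype.ext (hl s hs j hj)
  have hsx : ∀ x : S13.Tors P, ∃ k : ℕ, s • x - x = (k : ZMod P.p) • T := by
    intro x
    have hx : P.p • (x : (P.freyCurve⁄Qb).Point) = 0 := by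
      have := x.2
      rwa [Submodule.mem_torsionBy_iff, natCast_zsmul] at this
    obtain ⟨k, hk⟩ := hq s hs x hx
    refine ⟨k, ?_⟩
    rw [Nat.cast_smul_eq_nsmul]
    exact Subtype.ext hk
  apply hS (ZMod P.p) GQ (S13.Tors P) (rhoE P) hrank
  · intro V hV
    exact hirr.2 V (fun σ x hx => hV σ x hx)
  · refine ⟨s, (j : ZMod P.p), 1, hj1, ?_, ?_, ?_⟩
    · ext x
      obtain ⟨k, hk⟩ := hsx x
      have h1 : (rhoE P s - (1 : ZMod P.p) • (1 : Module.End (ZMod P.p) (S13.Tors P))) x
          = (k : ZMod P.p) • T := by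
        rw [LinearMap.sub_apply, rhoE_apply, LinearMap.smul_apply, Module.End.one_apply, one_smul,
          hk]
      rw [Module.End.mul_apply, h1, map_smul, LinearMap.sub_apply, rhoE_apply,
        LinearMap.smul_apply, Module.End.one_apply, hsT, sub_self, smul_zero,
        LinearMap.zero_apply]
    · intro h
      -- then every `x` is a multiple of `T`
      have hx : ∀ x : S13.Tors P, x ∈ Submodule.span (ZMod P.p) {T} := by
        intro x
        obtain ⟨k, hk⟩ := hsx x
        have h1 : s • x = (j : ZMod P.p) • x := by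
          rw [← rhoE_apply, h, LinearMap.smul_apply, Module.End.one_apply]
        have h2 : ((j : ZMod P.p) - 1) • x = (k : ZMod P.p) • T := by
          rw [sub_smul, one_smul, ← h1, hk]
        have h3 : x = (((j : ZMod P.p) - 1)⁻¹ * (k : ZMod P.p)) • T := by
          rw [mul_smul, ← h2, smul_smul, inv_mul_cancel₀ hj1', one_smul]
        rw [h3]
        exact Submodule.smul_mem _ _ (Submodule.mem_span_singleton_self T)
      have htop : Submodule.span (ZMod P.p) {T} = ⊤ := eq_top_iff.2 fun x _ => hx x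
      have h4 := finrank_span_singleton (K := ZMod P.p) hT
      rw [htop, finrank_top, hrank] at h4
      omega
    · intro h
      have h1 : s • T = T := by
        rw [← rhoE_apply, h, LinearMap.smul_apply, Module.End.one_apply, one_smul]
      have h2 : ((j : ZMod P.p) - 1) • T = 0 := by
        rw [sub_smul, one_smul, ← hsT, h1, sub_self]
      rcases smul_eq_zero.1 h2 with h3 | h3
      · exact hj1' h3
      · exact hT h3

/-- **(SPAN-E)** -/
theorem stmt_SpanE (hFL : Stmt_FreyLocal) (hO : Stmt_Omega) (hS : Stmt_Span) : Stmt_SpanE :=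
  SpanE_core S13.stmt_card_final hFL hO hS

end Fermat.Agent.MR.EC
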