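import Fermat.Agent.MR.EC.Interface
import Fermat.Agent.S05.Vieta
import Fermat.Agent.S13.M1E0

/-!
# MR / EC, task EC-TT1 : the approximate Tate parameter `tt` is multiplicative on `E₀`
up to `1 + O(a₄)`.
-/

set_option autoImplicit false

namespace Fermat.Agent.MR.EC

open WeierstrassCurve WeierstrassCurve.Affine WeierstrassCurve.Affine.Point
open Fermat.Agent.S05 (InE0 InE1 zc)

section
variable {K Γ₀ : Type*} [Field K] [LinearOrderedCommGroupWithZero Γ₀] {v : Valuation K Γ₀}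
  {E : WeierstrassCurve.Affine K} {α : K}

theorem TT1_prod (h : MSet v E α) {x y : K} (hxy : E.Equation x y) :
    (y - α * x) * (y + α * x) = x * (x ^ 2 + E.a₄) := by
  have h1 := (h.mc.equation_iff x y).1 hxy
  have hs := h.sq
  linear_combination h1 - x ^ 2 * hs

theorem TT1_va2 (h : MSet v E α) : v E.a₂ = 1 := by
  rw [← h.sq, map_pow, h.vα, one_pow]

/-- the case `v x = 1`. -/
theorem TT1_unit (h : MSet v E α) {x y : K} (hxy : E.Equation x y) (hx : v x = 1) :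
    v (y - α * x) = 1 ∧ v (y + α * x) = 1 := by
  have h1 := (h.mc.equation_iff x y).1 hxy
  have hy2 : v y ^ 2 ≤ 1 := by
    rw [← map_pow, h1]
    refine Valuation.map_add_le v (Valuation.map_add_le v ?_ ?_) ?_
    · rw [map_pow, hx, one_pow]
    · rw [map_mul, map_pow, hx, TT1_va2 h, one_pow, one_mul]
    · rw [map_mul, hx, mul_one]; exact h.w1.le
  have hy : v y ≤ 1 := by
    by_contra hc
    exact absurd hy2 (not_le.2 (one_lt_pow₀ (not_le.1 hc) two_ne_zero))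
  have hax : v (α * x) = 1 := by rw [map_mul, h.vα, hx, one_mul]
  have ha : v (y - α * x) ≤ 1 := Valuation.map_sub_le v hy hax.le
  have hb : v (y + α * x) ≤ 1 := Valuation.map_add_le v hy hax.le
  have hp : v (y - α * x) * v (y + α * x) = 1 := by
    rw [← map_mul, TT1_prod h hxy, map_mul, hx, one_mul]
    have : v (x ^ 2 + E.a₄) = v (x ^ 2) :=
      Valuation.map_add_eq_of_lt_left v (by rw [map_pow, hx, one_pow]; exact h.w1)
    rw [this, map_pow, hx, one_pow]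
  constructor
  · refine le_antisymm ha ?_
    rw [← hp]
    exact mul_le_of_le_one_right' hb
  · refine le_antisymm hb ?_
    rw [← hp]
    exact mul_le_of_le_one_left' ha

/-- the case `1 < v x`. -/
theorem TT1_big (h : MSet v E α) {x y : K} (hxy : E.Equation x y) (hx : 1 < v x) :
    v y ^ 2 = v x ^ 3 ∧ v x < v y ∧ v (y - α * x) = v y ∧ v (y + α * x) = v y := by
  have h1 := (h.mc.equation_iff x y).1 hxy
  have hx0 : 0 < v x := zero_lt_one.trans hx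
  have hy2 : v y ^ 2 = v x ^ 3 := by
    rw [← map_pow, h1, add_assoc, ← map_pow]
    apply Valuation.map_add_eq_of_lt_left
    have h23 : v x ^ 2 < v x ^ 3 := pow_lt_pow_right₀ hx (by norm_num)
    apply Valuation.map_add_lt
    · rw [map_mul, map_pow, map_pow, TT1_va2 h, one_mul]; exact h23
    · rw [map_mul, map_pow]
      calc v E.a₄ * v x ≤ 1 * v x := mul_le_mul_left h.w1.le _
        _ = v x ^ 1 := by rw [one_mul, pow_one]
        _ < v x ^ 3 := pow_lt_pow_right₀ hx (by norm_num)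
  have hxy' : v x < v y := by
    apply lt_of_pow_lt_pow_left₀ 2 zero_le
    rw [hy2]
    exact pow_lt_pow_right₀ hx (by norm_num)
  have hax : v (α * x) < v y := by rw [map_mul, h.vα, one_mul]; exact hxy'
  exact ⟨hy2, hxy', Valuation.map_sub_eq_of_lt_left v hax, Valuation.map_add_eq_of_lt_left v hax⟩

/-- `tt - 1`. -/
theorem TT1_sub_one {x y : K} (hd : y + α * x ≠ 0) :
    (y - α * x) / (y + α * x) - 1 = -(2 * α * x) / (y + α * x) := by
  field_simp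
  ring

theorem TT1_basic_some (h : MSet v E α) {x y : K} (hn : E.Nonsingular x y) (hx : 1 ≤ v x) :
    v (tt α (Point.some x y hn)) = 1 ∧
      (1 < v x → v (tt α (Point.some x y hn) - 1) = v (x / y)) ∧
      (¬ 1 < v x → v (tt α (Point.some x y hn) - 1) = 1) := by
  rw [tt_some]
  rcases lt_or_eq_of_le hx with hx | hx
  · obtain ⟨hy2, hxy, ha, hb⟩ := TT1_big h hn.1 hx
    have hy0 : 0 < v y := (zero_lt_one.trans hx).trans hxy
    have hd : y + α * x ≠ 0 := by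
      intro h0; rw [h0, _root_.map_zero] at hb; exact hy0.ne hb
    refine ⟨?_, fun _ => ?_, fun hc => absurd hx hc⟩
    · rw [map_div₀, ha, hb, div_self hy0.ne']
    · rw [TT1_sub_one hd, map_div₀, Valuation.map_neg, map_mul, map_mul, h.v2, h.vα, hb, one_mul,
        one_mul, map_div₀]
  · obtain ⟨ha, hb⟩ := TT1_unit h hn.1 hx.symm
    have hd : y + α * x ≠ 0 := by
      intro h0; rw [h0, _root_.map_zero] at hb; exact zero_ne_one hb
    refine ⟨?_, fun hc => absurd hc (by rw [← hx]; exact lt_irrefl _), fun _ => ?_⟩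
    · rw [map_div₀, ha, hb, div_one]
    · rw [TT1_sub_one hd, map_div₀, Valuation.map_neg, map_mul, map_mul, h.v2, h.vα, hb, ← hx,
        one_mul, one_mul, div_one]

theorem TT1_neg (h : MSet v E α) (P : E.Point) : tt α (-P) = (tt α P)⁻¹ := by
  rcases P with _ | ⟨x, y, hn⟩
  · show tt α (0 : E.Point) = (tt α (0 : E.Point))⁻¹
    simp
  · rw [Point.neg_some, tt_some, tt_some, h.mc.negY, inv_div]
    rw [show -y - α * x = -(y + α * x) by ring, show -y + α * x = -(y - α * x) by ring,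
      neg_div_neg_eq]

theorem TT1_val (h : MSet v E α) (P : E.Point) (hP : InE0 v P) : v (tt α P) = 1 := by
  rcases P with _ | ⟨x, y, hn⟩
  · show v (tt α (0 : E.Point)) = 1
    simp
  · exact (TT1_basic_some h hn hP).1

theorem TT1_ne (h : MSet v E α) {x y : K} (hxy : E.Equation x y) (hx : 1 ≤ v x) :
    y - α * x ≠ 0 ∧ y + α * x ≠ 0 := by
  have hx0 : x ≠ 0 := by
    rintro rfl; simp at hx
  have h2 : x ^ 2 + E.a₄ ≠ 0 := by
    intro h0
    have : v (x ^ 2 + E.a₄) = v (x ^ 2) :=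
      Valuation.map_add_eq_of_lt_left v (by
        rw [map_pow]; exact lt_of_lt_of_le h.w1 (one_le_pow₀ hx))
    rw [h0, _root_.map_zero, map_pow] at this
    exact pow_ne_zero 2 ((Valuation.ne_zero_iff v).2 hx0) this.symm
  have hp := TT1_prod h hxy
  have : (y - α * x) * (y + α * x) ≠ 0 := by rw [hp]; exact mul_ne_zero hx0 h2
  exact ⟨left_ne_zero_of_mul this, right_ne_zero_of_mul this⟩

/-- the key identity. -/
theorem TT1_ident {a2 a4 l nu c x1 x2 x3 : K} (hc : (c - l) ^ 2 = a2)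
    (e1 : x1 + x2 + x3 = l ^ 2 - a2) (e2 : x1 * x2 + x1 * x3 + x2 * x3 = a4 - 2 * l * nu)
    (e3 : x1 * x2 * x3 = nu ^ 2) :
    (c * x1 + nu) * (c * x2 + nu) * (c * x3 + nu) = nu * (nu ^ 2 + a4 * c ^ 2) := by
  linear_combination c ^ 3 * e3 + c ^ 2 * nu * e2 + c * nu ^ 2 * e1 + c * nu ^ 2 * hc

theorem TT1_est {a b c t : Γ₀} (ha : 1 ≤ a) (hat : 1 ≤ a * t) (hbt : 1 ≤ b * t)
    (hct : 1 ≤ c * t) :
    a ≤ a * b * c * t ^ 2 ∧ b ≤ a * b * c * t ^ 2 ∧ c ≤ a * b * c * t ^ 2 ∧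
      1 ≤ a * b * c * t ^ 2 := by
  have e1 : a * b * c * t ^ 2 = a * ((b * t) * (c * t)) := by rw [sq]; ac_rfl
  have e2 : a * b * c * t ^ 2 = b * ((a * t) * (c * t)) := by rw [sq]; ac_rfl
  have e3 : a * b * c * t ^ 2 = c * ((a * t) * (b * t)) := by rw [sq]; ac_rfl
  have h1 : a ≤ a * b * c * t ^ 2 := by
    rw [e1]; exact le_mul_of_one_le_right' (one_le_mul hbt hct)
  refine ⟨h1, ?_, ?_, ha.trans h1⟩
  · rw [e2]; exact le_mul_of_one_le_right' (one_le_mul hat hct)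
  · rw [e3]; exact le_mul_of_one_le_right' (one_le_mul hat hbt)

theorem TT1_sq_le {l s : K} {Q : Γ₀} (hQ : 1 ≤ Q) (hl : v l ^ 2 ≤ Q) (hs : v s ≤ 1) :
    v ((l + s) ^ 2) ≤ Q := by
  rw [map_pow]
  rcases le_total (v l) 1 with h | h
  · exact (pow_le_one₀ zero_le (Valuation.map_add_le v h hs)).trans hQ
  · exact (pow_le_pow_left₀ zero_le (Valuation.map_add_le v le_rfl (hs.trans h)) 2).trans hl

theorem TT1_eps {a4 Yp Ym n2 : K} (hn : n2 ≠ 0) (h4 : v a4 < 1) (hm1 : v Ym ≤ v n2) :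
    n2 + a4 * Ym ≠ 0 ∧ ∀ T : Γ₀, v Yp ≤ v n2 * T → v Ym ≤ v n2 * T →
      v ((n2 + a4 * Yp) / (n2 + a4 * Ym) - 1) ≤ v a4 * T := by
  have hn0 : 0 < v n2 := (Valuation.pos_iff v).2 hn
  have hN : v (n2 + a4 * Ym) = v n2 := by
    apply Valuation.map_add_eq_of_lt_left
    rw [map_mul]
    calc v a4 * v Ym ≤ v a4 * v n2 := mul_le_mul_right hm1 _
      _ < 1 * v n2 := mul_lt_mul_of_pos_right h4 hn0
      _ = v n2 := one_mul _
  have hN0 : n2 + a4 * Ym ≠ 0 := by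
    intro h0; rw [h0, _root_.map_zero] at hN; exact hn0.ne hN
  refine ⟨hN0, fun T hp hm => ?_⟩
  have e : (n2 + a4 * Yp) / (n2 + a4 * Ym) - 1 = a4 * (Yp - Ym) / (n2 + a4 * Ym) := by
    field_simp
    ring
  rw [e, map_div₀, map_mul, hN, div_le_iff₀ hn0, mul_assoc, mul_comm T]
  exact mul_le_mul_right (Valuation.map_sub_le v hp hm) _

theorem TT1_zc (h : MSet v E α) {x y : K} (hxy : E.Equation x y) (hx : 1 < v x) :
    v x * v (x / y) ^ 2 = 1 := by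
  obtain ⟨hy2, -, -, -⟩ := TT1_big h hxy hx
  have hx0 : v x ≠ 0 := (zero_lt_one.trans hx).ne'
  rw [map_div₀, div_pow, hy2, mul_div_assoc', ← pow_succ', div_self (pow_ne_zero _ hx0)]

theorem TT1_one_le (h : MSet v E α) {x y : K} (hxy : E.Equation x y) (hx : 1 < v x) {r : Γ₀}
    (hr : v (x / y) ≤ r) : 1 ≤ v x * r ^ 2 := by
  rw [← TT1_zc h hxy hx]
  exact mul_le_mul_right (pow_le_pow_left₀ zero_le hr 2) _

end

theorem stmt_TTBasic : Stmt_TTBasic := by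
  intro K Γ₀ _ _ _ v E α h
  refine ⟨TT1_neg h, ?_⟩
  intro P hP
  rcases P with _ | ⟨x, y, hn⟩
  · refine ⟨?_, fun _ => ?_, fun hc => absurd trivial hc⟩
    · show v (tt α (0 : E.Point)) = 1
      simp
    · show v (tt α (0 : E.Point) - 1) = v (zc (0 : E.Point))
      simp
  · exact TT1_basic_some h hn hP

section
variable {K Γ₀ : Type*} [Field K] [DecidableEq K] [LinearOrderedCommGroupWithZero Γ₀]
  {v : Valuation K Γ₀} {E : WeierstrassCurve.Affine K} {α : K}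

theorem TT1_E0_add (h : MSet v E α) (P₁ P₂ : E.Point) (h₁ : InE0 v P₁) (h₂ : InE0 v P₂) :
    InE0 v (P₁ + P₂) :=
  S13.IsM1.E0_add ⟨h.mc.a₃, h.mc.a₆⟩ (by rw [h.mc.a₁]; simp) (TT1_va2 h).le h.w1 P₁ P₂ h₁ h₂

/-- the generic case. -/
theorem TT1_generic (h : MSet v E α) {x₁ y₁ x₂ y₂ : K} (n₁ : E.Nonsingular x₁ y₁)
    (n₂ : E.Nonsingular x₂ y₂) (hx₁ : 1 ≤ v x₁) (hx₂ : 1 ≤ v x₂)
    (hxy : ¬(x₁ = x₂ ∧ y₁ = E.negY x₂ y₂)) :
    ∃ ε : K, v ε ≤ v E.a₄ ∧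
      tt α (Point.some x₁ y₁ n₁ + Point.some x₂ y₂ n₂)
        = tt α (Point.some x₁ y₁ n₁) * tt α (Point.some x₂ y₂ n₂) * (1 + ε) ∧
      ∀ r : Γ₀, 1 < v x₁ → 1 < v x₂ → v (x₁ / y₁) ≤ r → v (x₂ / y₂) ≤ r →
        v ε ≤ v E.a₄ * r ^ 4 := by
  obtain ⟨l, nu, x₃, y₃, n₃, hadd, e₁, e₂, e₃, s₁, s₂, s₃⟩ :=
    S05.add_vieta h.mc.a₁ h.mc.a₃ h.mc.a₆ n₁ n₂ hxy
  have h0 : InE0 v (Point.some x₁ y₁ n₁ + Point.some x₂ y₂ n₂) :=
    TT1_E0_add h _ _ hx₁ hx₂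
  have hx₃ : 1 ≤ v x₃ := by rw [hadd] at h0; exact h0
  obtain ⟨u₁0, w₁0⟩ := TT1_ne h n₁.1 hx₁
  obtain ⟨u₂0, w₂0⟩ := TT1_ne h n₂.1 hx₂
  obtain ⟨u₃0, w₃0⟩ := TT1_ne h n₃.1 hx₃
  have hsq := h.sq
  have I1 : (y₁ - α * x₁) * (y₂ - α * x₂) * (-(y₃ + α * x₃))
      = nu * (nu ^ 2 + E.a₄ * (l + -α) ^ 2) := by
    have := TT1_ident (c := l + -α) (l := l) (a2 := E.a₂) (a4 := E.a₄) (nu := nu)
      (by rw [← hsq]; ring) s₁ s₂ s₃
    rw [← this, e₁, e₂]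
    linear_combination (((l + -α) * x₁ + nu) * ((l + -α) * x₂ + nu)) * e₃
  have I2 : (y₁ + α * x₁) * (y₂ + α * x₂) * (-(y₃ - α * x₃))
      = nu * (nu ^ 2 + E.a₄ * (l + α) ^ 2) := by
    have := TT1_ident (c := l + α) (l := l) (a2 := E.a₂) (a4 := E.a₄) (nu := nu)
      (by rw [← hsq]; ring) s₁ s₂ s₃
    rw [← this, e₁, e₂]
    linear_combination (((l + α) * x₁ + nu) * ((l + α) * x₂ + nu)) * e₃
  have hnu : nu ≠ 0 := by
    intro hn
    rw [hn, zero_mul] at I1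
    exact mul_ne_zero (mul_ne_zero u₁0 u₂0) (neg_ne_zero.2 w₃0) I1
  have hn2 : nu ^ 2 ≠ 0 := pow_ne_zero 2 hnu
  have hvn : v (nu ^ 2) = v x₁ * v x₂ * v x₃ := by rw [← s₃, map_mul, map_mul]
  -- the bounds
  have bound : ∀ t : Γ₀, 1 ≤ v x₁ * t → 1 ≤ v x₂ * t → 1 ≤ v x₃ * t →
      v ((l + α) ^ 2) ≤ v (nu ^ 2) * t ^ 2 ∧ v ((l + -α) ^ 2) ≤ v (nu ^ 2) * t ^ 2 := by
    intro t t₁ t₂ t₃
    obtain ⟨q₁, q₂, q₃, q₀⟩ := TT1_est hx₁ t₁ t₂ t₃
    rw [hvn]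
    have hl : v l ^ 2 ≤ v x₁ * v x₂ * v x₃ * t ^ 2 := by
      rw [← map_pow, show l ^ 2 = x₁ + x₂ + x₃ + E.a₂ by linear_combination -s₁]
      refine Valuation.map_add_le v (Valuation.map_add_le v (Valuation.map_add_le v q₁ q₂) q₃) ?_
      rw [TT1_va2 h]; exact q₀
    exact ⟨TT1_sq_le q₀ hl h.vα.le, TT1_sq_le q₀ hl (by rw [Valuation.map_neg]; exact h.vα.le)⟩
  obtain ⟨bp, bm⟩ := bound 1 (by rwa [mul_one]) (by rwa [mul_one]) (by rwa [mul_one])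
  rw [one_pow, mul_one] at bp bm
  obtain ⟨hN0, hE⟩ := TT1_eps (Yp := (l + α) ^ 2) hn2 h.w1 bm
  refine ⟨(nu ^ 2 + E.a₄ * (l + α) ^ 2) / (nu ^ 2 + E.a₄ * (l + -α) ^ 2) - 1, ?_, ?_, ?_⟩
  · have := hE 1 (by rwa [mul_one]) (by rwa [mul_one])
    rwa [mul_one] at this
  · rw [hadd, tt_some, tt_some, tt_some, add_sub_cancel, div_mul_div_comm, div_mul_div_comm,
      div_eq_div_iff w₃0 (mul_ne_zero (mul_ne_zero w₁0 w₂0) hN0)]
    apply mul_left_cancel₀ hnu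
    linear_combination (-((y₃ - α * x₃) * ((y₁ + α * x₁) * (y₂ + α * x₂)))) * I1
      + ((y₁ - α * x₁) * (y₂ - α * x₂) * (y₃ + α * x₃)) * I2
  · intro r r₁ r₂ z₁ z₂
    obtain ⟨hE1, δ, hδ, hz⟩ := h.mc.E1_add (TT1_va2 h).le h.w1.le
      (Point.some x₁ y₁ n₁) (Point.some x₂ y₂ n₂) r₁ r₂
    rw [hadd] at hE1 hz
    have r₃ : 1 < v x₃ := hE1
    have z₃ : v (x₃ / y₃) ≤ r := by
      have hz' : x₃ / y₃ = (x₁ / y₁ + x₂ / y₂) * (1 + δ) := hz
      rw [hz', map_mul]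
      have h1δ : v (1 + δ) ≤ 1 := Valuation.map_add_le v (by simp) hδ.le
      calc v (x₁ / y₁ + x₂ / y₂) * v (1 + δ) ≤ r * 1 :=
            mul_le_mul' (Valuation.map_add_le v z₁ z₂) h1δ
        _ = r := mul_one r
    obtain ⟨cp, cm⟩ := bound (r ^ 2) (TT1_one_le h n₁.1 r₁ z₁) (TT1_one_le h n₂.1 r₂ z₂)
      (TT1_one_le h n₃.1 r₃ z₃)
    rw [← pow_mul] at cp cm
    exact hE (r ^ 4) cp cm

end

theorem stmt_TTMul (_hB : Stmt_TTBasic) : Stmt_TTMul := by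
  intro K Γ₀ _ _ _ v E α h P₁ P₂ h₁ h₂
  rcases P₁ with _ | ⟨x₁, y₁, n₁⟩
  · refine ⟨0, by simp, ?_, fun r _ _ _ _ => by simp⟩
    rw [← Point.zero_def, zero_add, tt_zero, one_mul, add_zero, mul_one]
  rcases P₂ with _ | ⟨x₂, y₂, n₂⟩
  · refine ⟨0, by simp, ?_, fun r _ _ _ _ => by simp⟩
    rw [← Point.zero_def, add_zero, tt_zero, mul_one, add_zero, mul_one]
  by_cases hxy : x₁ = x₂ ∧ y₁ = E.negY x₂ y₂
  · refine ⟨0, by simp, ?_, fun r _ _ _ _ => by simp⟩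
    have hs : Point.some x₁ y₁ n₁ + Point.some x₂ y₂ n₂ = 0 := Point.add_of_Y_eq hxy.1 hxy.2
    have hneg : Point.some x₁ y₁ n₁ = -Point.some x₂ y₂ n₂ := eq_neg_of_add_eq_zero_left hs
    have hne : tt α (Point.some x₂ y₂ n₂) ≠ 0 := by
      intro h0
      have := TT1_val h _ h₂
      rw [h0, _root_.map_zero] at this
      exact zero_ne_one this
    rw [hs, hneg, TT1_neg h, tt_zero, inv_mul_cancel₀ hne, add_zero, mul_one]
  · exact TT1_generic h n₁ n₂ h₁ h₂ hxy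

theorem stmt_TTMul_all : Stmt_TTMul := stmt_TTMul stmt_TTBasic

end Fermat.Agent.MR.EC
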