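import Fermat.Agent.MR.EC.Interface
import Fermat.Agent.S13.M1E0

/-!
# MR / EC, task EC-TT2 (helper2): `tt (n P) = tt P ^ n (1 + ε)`.
-/

set_option autoImplicit false

namespace Fermat.Agent.MR.EC

open WeierstrassCurve WeierstrassCurve.Affine
open Fermat.Agent.S05 (InE0 InE1 zc)

theorem stmt_TTPow (hM : Stmt_TTMul) : Stmt_TTPow := by
  intro K Γ₀ _ _ _ v E α hS P hP n
  have hU : v E.a₂ ≤ 1 := by rw [← hS.sq, map_pow, hS.vα, one_pow]
  have hM1 : S13.IsM1 E := ⟨hS.mc.a₃, hS.mc.a₆⟩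
  have hc : v E.a₁ ≤ 1 := by rw [hS.mc.a₁, map_zero]; exact zero_le_one
  induction n with
  | zero => exact ⟨0, by simp, by simp, fun _ => by simp⟩
  | succ n ih =>
    obtain ⟨ε, hε, ht, hε1⟩ := ih
    have hnP : InE0 v (n • P) := hM1.E0_nsmul hc hU hS.w1 P hP n
    obtain ⟨ε', hε', ht', hε1'⟩ := hM K Γ₀ v E α hS (n • P) P hnP hP
    have hε'1 : v ε' ≤ 1 := hε'.trans hS.w1.le
    refine ⟨ε + ε' + ε * ε', ?_, ?_, ?_⟩
    · apply Valuation.map_add_le v (Valuation.map_add_le v hε hε')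
      rw [map_mul]
      calc v ε * v ε' ≤ v E.a₄ * 1 := mul_le_mul' hε hε'1
        _ = v E.a₄ := mul_one _
    · rw [succ_nsmul, ht', ht, pow_succ]; ring
    · intro hP1
      obtain ⟨hn1, e, he, hz⟩ := hS.mc.E1_nsmul (v := v) hU hS.w1.le P hP1 n
      have hzn : v (zc (n • P)) ≤ v (zc P) := by
        rw [hz, map_mul]
        calc v (zc P) * v ((n : K) + e) ≤ v (zc P) * 1 :=
              mul_le_mul' le_rfl (Valuation.map_add_le v (S05.v_natCast_le_one v n) he.le)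
          _ = v (zc P) := mul_one _
      have h1 := hε1 hP1
      have h2 := hε1' (v (zc P)) hn1 hP1 hzn le_rfl
      apply Valuation.map_add_le v (Valuation.map_add_le v h1 h2)
      rw [map_mul]
      calc v ε * v ε' ≤ v E.a₄ * v (zc P) ^ 4 * 1 := mul_le_mul' h1 hε'1
        _ = v E.a₄ * v (zc P) ^ 4 := mul_one _

end Fermat.Agent.MR.EC
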