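import Fermat.Agent.MR.EC.Defs
import Fermat.Agent.S05.Frey
import Fermat.Agent.ES.Res29
import Fermat.Agent.FD.Interface
import Fermat.Agent.S52.Interface

/-!
# MR / EC : interface (statements as `Prop`s), architect helper90

OUTPUT of the package (consumed by MR/TOP, MR/PL):
* `Stmt_FreyLocal` : structure of `E[p]` at `p ∣ abc`: line `⟨T₀⟩`, inertia acts by `ω` on it and
  trivially on the quotient, and (PEU): `E[p]` is fixed by the `σ ∈ I` fixing `ζ_p` and `β`,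
  `β ^ p = d₀` a UNIT fixed by `I`.
* `Stmt_Transfer`  : `σ - c` kills `E[p]` iff it kills `V`, for every nonzero `𝔽_p[G_ℚ]`-module `V`
  of finite level with the Eichler-Shimura relations `σ_ℓ² - a_ℓ σ_ℓ + ℓ = 0`.
* `Stmt_NotEis`    : `a_ℓ ≠ ℓ + 1` for some good `ℓ` outside any finite set.
-/

set_option autoImplicit false

namespace Fermat.Agent.MR.EC

open WeierstrassCurve WeierstrassCurve.Affine WeierstrassCurve.Affine.Point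
open Fermat.Agent.S05 (InE0 InE1 zc)
open Fermat.Agent.ES.Rep23 (QuadRel)
open Fermat.Agent.ES.RepGalois (IsCyc)
open Fermat.Agent.ES.Res29 (epsBar)

/-! ## Part A1 : the approximate Tate parameter (abstract valued field) -/

/-- (TT-BASIC) -/
def Stmt_TTBasic : Prop :=
  ∀ (K Γ₀ : Type) [Field K] [DecidableEq K] [LinearOrderedCommGroupWithZero Γ₀]
    (v : Valuation K Γ₀) (E : WeierstrassCurve.Affine K) (α : K), MSet v E α →
    (∀ P : E.Point, tt α (-P) = (tt α P)⁻¹) ∧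
    ∀ P : E.Point, InE0 v P → v (tt α P) = 1 ∧ (InE1 v P → v (tt α P - 1) = v (zc P)) ∧
      (¬ InE1 v P → v (tt α P - 1) = 1)

/-- (TT-MUL) `tt` is multiplicative on `E₀` up to `1 + O(a₄)`, and up to `1 + O(a₄ r⁴)` on the
points of `E₁` with parameter of size `≤ r`. -/
def Stmt_TTMul : Prop :=
  ∀ (K Γ₀ : Type) [Field K] [DecidableEq K] [LinearOrderedCommGroupWithZero Γ₀]
    (v : Valuation K Γ₀) (E : WeierstrassCurve.Affine K) (α : K), MSet v E α →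
    ∀ P₁ P₂ : E.Point, InE0 v P₁ → InE0 v P₂ →
      ∃ ε : K, v ε ≤ v E.a₄ ∧ tt α (P₁ + P₂) = tt α P₁ * tt α P₂ * (1 + ε) ∧
        ∀ r : Γ₀, InE1 v P₁ → InE1 v P₂ → v (zc P₁) ≤ r → v (zc P₂) ≤ r → v ε ≤ v E.a₄ * r ^ 4

/-- (TT-POW) -/
def Stmt_TTPow : Prop :=
  ∀ (K Γ₀ : Type) [Field K] [DecidableEq K] [LinearOrderedCommGroupWithZero Γ₀]
    (v : Valuation K Γ₀) (E : WeierstrassCurve.Affine K) (α : K), MSet v E α →
    ∀ P : E.Point, InE0 v P → ∀ n : ℕ,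
      ∃ ε : K, v ε ≤ v E.a₄ ∧ tt α (n • P) = tt α P ^ n * (1 + ε) ∧
        (InE1 v P → v ε ≤ v E.a₄ * v (zc P) ^ 4)

/-! ## Part A2 : pure valuation algebra -/

/-- (DEEP-POW) -/
def Stmt_DeepPow : Prop :=
  ∀ (K Γ₀ : Type) [Field K] [LinearOrderedCommGroupWithZero Γ₀] (v : Valuation K Γ₀) (p : ℕ),
    p.Prime → ∀ δ : K, Deep v p δ → v ((1 + δ) ^ p - 1) = v (p : K) * v δ

/-- (DEEP-ROOT) -/
def Stmt_DeepRoot : Prop :=
  ∀ (K Γ₀ : Type) [Field K] [IsAlgClosed K] [LinearOrderedCommGroupWithZero Γ₀]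
    (v : Valuation K Γ₀) (p : ℕ), p.Prime → ∀ e : K, v e ^ (p - 1) < v (p : K) ^ p →
    ∃ η : K, η ^ p = 1 + e ∧ Deep v p (η - 1)

/-- (DEEP-GRP) the elements `a` with `a - 1` deep form a group; small elements are deep. -/
def Stmt_DeepGrp : Prop :=
  ∀ (K Γ₀ : Type) [Field K] [LinearOrderedCommGroupWithZero Γ₀] (v : Valuation K Γ₀) (p : ℕ),
    p.Prime → p ≠ 2 → (p : K) ≠ 0 → v (p : K) < 1 →
    (∀ a b : K, Deep v p (a - 1) → Deep v p (b - 1) → Deep v p (a * b - 1)) ∧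
    (∀ a : K, Deep v p (a - 1) → Deep v p (a⁻¹ - 1)) ∧
    (∀ e : K, v e ≤ v (p : K) ^ 2 → Deep v p e ∧ v e ^ (p - 1) < v (p : K) ^ p) ∧
    (∀ a : K, Deep v p a → v a < 1)

/-! ## Part A3 : torsion in `E₀` and `E₁` -/

/-- (E0-TORS) `p`-torsion of `E₀` lies in `E₁` (residue characteristic `p`). -/
def Stmt_E0Tors : Prop :=
  ∀ (K Γ₀ : Type) [Field K] [DecidableEq K] [LinearOrderedCommGroupWithZero Γ₀]
    (v : Valuation K Γ₀) (E : WeierstrassCurve.Affine K) (α : K) (p : ℕ), MSet v E α → p.Prime →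
    v (p : K) < 1 → ∀ P : E.Point, InE0 v P → p • P = 0 → InE1 v P

/-- (E1-TORS) a `p`-torsion point of `E₁` whose parameter is deep is `0`. -/
def Stmt_E1Tors : Prop :=
  ∀ (K Γ₀ : Type) [Field K] [DecidableEq K] [LinearOrderedCommGroupWithZero Γ₀]
    (v : Valuation K Γ₀) (E : WeierstrassCurve.Affine K) (α : K) (p : ℕ), MSet v E α → p.Prime →
    (p : K) ≠ 0 → v E.a₄ ≤ v (p : K) → ∀ T : E.Point, InE1 v T → p • T = 0 → Deep v p (tt α T - 1) →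
    T = 0

/-- (E1-INJ) -/
def Stmt_E1Inj : Prop :=
  ∀ (K Γ₀ : Type) [Field K] [DecidableEq K] [LinearOrderedCommGroupWithZero Γ₀]
    (v : Valuation K Γ₀) (E : WeierstrassCurve.Affine K) (α : K) (p : ℕ), MSet v E α → p.Prime →
    p ≠ 2 → (p : K) ≠ 0 → v (p : K) < 1 → v E.a₄ ≤ v (p : K) ^ 2 →
    ∀ T T' : E.Point, InE1 v T → InE1 v T' → p • T = 0 → p • T' = 0 →
      Deep v p (tt α T / tt α T' - 1) → T = T'

/-- (E1-UNITY) -/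
def Stmt_E1Unity : Prop :=
  ∀ (K Γ₀ : Type) [Field K] [DecidableEq K] [IsAlgClosed K] [LinearOrderedCommGroupWithZero Γ₀]
    (v : Valuation K Γ₀) (E : WeierstrassCurve.Affine K) (α : K) (p : ℕ), MSet v E α → p.Prime →
    p ≠ 2 → (p : K) ≠ 0 → v (p : K) < 1 → v E.a₄ ≤ v (p : K) ^ 2 →
    ∀ T : E.Point, InE1 v T → p • T = 0 → ∃ ζ : K, ζ ^ p = 1 ∧ Deep v p (tt α T / ζ - 1)

/-- (E1-CYC) `E₁[p]` is cyclic. -/
def Stmt_E1Cyc : Prop :=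
  ∀ (K Γ₀ : Type) [Field K] [DecidableEq K] [IsAlgClosed K] [LinearOrderedCommGroupWithZero Γ₀]
    (v : Valuation K Γ₀) (E : WeierstrassCurve.Affine K) (α : K) (p : ℕ), MSet v E α → p.Prime →
    p ≠ 2 → (p : K) ≠ 0 → v (p : K) < 1 → v E.a₄ ≤ v (p : K) ^ 2 →
    ∃ T₀ : E.Point, InE1 v T₀ ∧ p • T₀ = 0 ∧
      ∀ T : E.Point, InE1 v T → p • T = 0 → ∃ k : ℕ, T = k • T₀

/-- (E1-GAL) inertia acts on `E₁[p]` through the cyclotomic character. -/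
def Stmt_E1Gal : Prop :=
  ∀ (K Γ₀ : Type) [Field K] [DecidableEq K] [IsAlgClosed K] [LinearOrderedCommGroupWithZero Γ₀]
    (v : Valuation K Γ₀) (E : WeierstrassCurve.Affine K) (α : K) (p : ℕ), MSet v E α → p.Prime →
    p ≠ 2 → (p : K) ≠ 0 → v (p : K) < 1 → v E.a₄ ≤ v (p : K) ^ 2 →
    ∀ (σ : K →+* K) (τ : E.Point →+ E.Point), GAct v E α σ τ →
    (∀ P : E.Point, tt α (τ P) = σ (tt α P)) ∧
    ∀ (j : ℕ), (∀ ζ : K, ζ ^ p = 1 → σ ζ = ζ ^ j) →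
      ∀ T : E.Point, InE1 v T → p • T = 0 → τ T = j • T

/-! ## Part A4 : the points outside `E₁` -/

/-- (MID) a `p`-torsion point outside `E₁` reduces to the node, `v x ∈ (v d) ^ ℕ`. -/
def Stmt_Mid : Prop :=
  ∀ (K Γ₀ : Type) [Field K] [DecidableEq K] [LinearOrderedCommGroupWithZero Γ₀]
    (v : Valuation K Γ₀) (E : WeierstrassCurve.Affine K) (α d : K) (p : ℕ), MSet v E α → p.Prime →
    p ≠ 2 → v (p : K) < 1 → v E.a₄ = v d ^ p →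
    ∀ (x y : K) (h : E.Nonsingular x y), p • Point.some x y h = 0 → ¬ InE1 v (Point.some x y h) →
      v E.a₄ < v x ∧ v x < 1 ∧ (∃ j : ℕ, j < p ∧ v x = v d ^ j) ∧
        (v (y - α * x) < v x ∨ v (y + α * x) < v x)

/-- (E1-NONZERO) pigeonhole. -/
def Stmt_E1Nonzero : Prop :=
  ∀ (K Γ₀ : Type) [Field K] [DecidableEq K] [LinearOrderedCommGroupWithZero Γ₀]
    (v : Valuation K Γ₀) (E : WeierstrassCurve.Affine K) (α d : K) (p : ℕ), MSet v E α → p.Prime →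
    p ≠ 2 → v (p : K) < 1 → v E.a₄ = v d ^ p → Nat.card {R : E.Point // p • R = 0} = p ^ 2 →
    ∃ T : E.Point, T ≠ 0 ∧ InE1 v T ∧ p • T = 0

/-- (Q0) a point reducing to the node with `v x = v d ^ j` is congruent modulo `E₁` to a point
fixed by the inertia-like family `𝒮`. -/
def Stmt_Q0 : Prop :=
  ∀ (K Γ₀ : Type) [Field K] [DecidableEq K] [IsAlgClosed K] [LinearOrderedCommGroupWithZero Γ₀]
    (v : Valuation K Γ₀) (E : WeierstrassCurve.Affine K) (α d : K) (𝒮 : Set (K →+* K)),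
    MSet v E α → (∀ σ ∈ 𝒮, ∀ a, v a ≤ 1 → v (σ a - a) < 1) →
    (∀ a, v a ≤ 1 → ∃ a₀, (∀ σ ∈ 𝒮, σ a₀ = a₀) ∧ v (a - a₀) < 1) →
    (∀ σ ∈ 𝒮, σ d = d) → (∀ σ ∈ 𝒮, σ E.a₂ = E.a₂) → (∀ σ ∈ 𝒮, σ E.a₄ = E.a₄) →
    ∀ (x y : K) (h : E.Nonsingular x y) (j : ℕ), v x = v d ^ j → v E.a₄ < v x → v x < 1 →
      ∃ (x₀ y₀ : K) (h₀ : E.Nonsingular x₀ y₀), (∀ σ ∈ 𝒮, σ x₀ = x₀ ∧ σ y₀ = y₀) ∧
        InE1 v (Point.some x y h - Point.some x₀ y₀ h₀)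

/-- (PEU-ABS) Kummer generator for a `p`-division point in `E₁`. -/
def Stmt_PEUabs : Prop :=
  ∀ (K Γ₀ : Type) [Field K] [DecidableEq K] [IsAlgClosed K] [LinearOrderedCommGroupWithZero Γ₀]
    (v : Valuation K Γ₀) (E : WeierstrassCurve.Affine K) (α : K) (p : ℕ), MSet v E α → p.Prime →
    p ≠ 2 → (p : K) ≠ 0 → v (p : K) < 1 → v E.a₄ ≤ v (p : K) ^ 2 →
    ∀ R : E.Point, InE1 v R → ∃ β : K, β ^ p = tt α (p • R) ∧
      ∀ (σ : K →+* K) (τ : E.Point →+ E.Point), GAct v E α σ τ → σ β = β →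
        p • (τ R - R) = 0 → τ R = R

/-! ## Part A5 : `ℚ̄`, the model curve, the Frey curve -/

/-- (RES) the inertia field has the full residue field. -/
def Stmt_Res : Prop :=
  ∀ (p : ℕ), p.Prime → ∀ A : ValuationSubring Qb, A.LiesOverPrime p → ∀ a : Qb, a ∈ A →
    ∃ a₀ : Qb, (∀ σ ∈ A.inertiaSubgroupIn ℚ, σ a₀ = a₀) ∧ A.valuation (a - a₀) < 1

/-- the local statement for a curve `E` over `ℚ` (model curve or Frey curve). -/
def LocalAt (E : WeierstrassCurve ℚ) (p : ℕ) (A : ValuationSubring Qb) : Prop :=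
  ∃ T₀ : (E⁄Qb).Point, T₀ ≠ 0 ∧ p • T₀ = 0 ∧
    (∀ σ ∈ A.inertiaSubgroupIn ℚ, ∀ R : (E⁄Qb).Point, p • R = 0 → ∃ k : ℕ, σ • R - R = k • T₀) ∧
    (∀ σ ∈ A.inertiaSubgroupIn ℚ, ∀ j : ℕ, IsCyc p σ j → σ • T₀ = j • T₀) ∧
    ∃ β d₀ : Qb, β ^ p = d₀ ∧ d₀ ∈ A ∧ d₀⁻¹ ∈ A ∧ A.valuation (d₀ - 1) < 1 ∧
      (∀ σ ∈ A.inertiaSubgroupIn ℚ, σ d₀ = d₀) ∧
      ∀ σ ∈ A.inertiaSubgroupIn ℚ, IsCyc p σ 1 → σ β = β →
        ∀ R : (E⁄Qb).Point, p • R = 0 → σ • R = R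

/-- (MODEL) -/
def Stmt_ModelLocal : Prop :=
  ∀ (p : ℕ), p.Prime → p ≠ 2 → ∀ A : ValuationSubring Qb, A.LiesOverPrime p →
    ∀ u d : ℤ, d ≠ 0 → (p : ℤ) ∣ d → ¬ (p : ℤ) ∣ u ^ 2 - 4 * d ^ p →
      LocalAt (S05.mcQ (u : ℚ) ((d ^ p : ℤ) : ℚ)) p A

/-- (FREY-LOCAL) **output 1**. -/
def Stmt_FreyLocal : Prop :=
  ∀ P : FreyPackage, (P.p : ℤ) ∣ P.a * P.b * P.c → ∀ A : ValuationSubring Qb,
    A.LiesOverPrime P.p → LocalAt P.freyCurve P.p A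

/-! ## Part B : global Galois theory -/

/-- (FROB) the Frobenius relation on torsion prime to `ℓ`, for EVERY Frobenius lift. -/
def Stmt_FrobRel : Prop :=
  ∀ (ℓ : ℕ), ℓ.Prime → ∀ (A : ValuationSubring Qb) (σ : GQ), A.LiesOverPrime ℓ →
    A.IsFrobeniusAt σ ℓ → ∀ W : WeierstrassCurve ℤ, W.IsGoodPrimeFor ℓ → ∀ n : ℕ, ¬ ℓ ∣ n →
    ∀ R : (S52.EQb W).Point, n • R = 0 →
      σ • σ • R - W.apOfModel ℓ • σ • R + (ℓ : ℤ) • R = 0

/-- (VC) an integral model has the same Galois module of points. -/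
def Stmt_VC : Prop :=
  ∀ (W : WeierstrassCurve ℤ) (E : WeierstrassCurve ℚ), W.IsIntegralModelOf E →
    ∃ e : (S52.EQb W).Point ≃+ (E⁄Qb).Point, ∀ (σ : GQ) (R : (S52.EQb W).Point), e (σ • R) = σ • e R

/-- (LEVEL) `E[p]` has finite level. -/
def Stmt_Level : Prop :=
  ∀ P : FreyPackage, ∃ L : IntermediateField ℚ Qb, FiniteDimensional ℚ L ∧
    ∀ σ : GQ, (∀ x ∈ L, σ x = x) → rhoE P σ = 1

/-- (OMEGA) the cyclotomic character mod `p` is ramified at `p`. -/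
def Stmt_Omega : Prop :=
  ∀ (p : ℕ), p.Prime → p ≠ 2 → ∀ A : ValuationSubring Qb, A.LiesOverPrime p →
    ∃ σ ∈ A.inertiaSubgroupIn ℚ, ∃ ζ : Qb, ζ ^ p = 1 ∧ σ ζ ≠ ζ

/-- (BLR) two modules with the same quadratic relations, the first one a full matrix algebra. -/
def Stmt_BLR : Prop :=
  ∀ (k G Y₁ Y₂ : Type) [Field k] [Group G] [AddCommGroup Y₁] [Module k Y₁] [AddCommGroup Y₂]
    [Module k Y₂] [Nontrivial Y₂] (ρ₁ : G →* Module.End k Y₁) (ρ₂ : G →* Module.End k Y₂)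
    (ε : G →* k) (t : G → k), (2 : k) ≠ 0 → QuadRel ρ₁ ε t → QuadRel ρ₂ ε t →
    Module.finrank k Y₁ = 2 → Submodule.span k (Set.range ρ₁) = ⊤ →
    ∀ (s : Finset G) (c : G → k), ∑ g ∈ s, c g • ρ₁ g = 0 ↔ ∑ g ∈ s, c g • ρ₂ g = 0

/-- (SPAN) an irreducible 2-dimensional representation containing a split non-scalar element
spans the matrix algebra. -/
def Stmt_Span : Prop :=
  ∀ (k G Y : Type) [Field k] [Group G] [AddCommGroup Y] [Module k Y] (ρ : G →* Module.End k Y),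
    Module.finrank k Y = 2 →
    (∀ V : Submodule k Y, (∀ g, ∀ x ∈ V, ρ g x ∈ V) → V = ⊥ ∨ V = ⊤) →
    (∃ (s : G) (a b : k), a ≠ b ∧ (ρ s - a • 1) * (ρ s - b • 1) = 0 ∧ ρ s ≠ a • 1 ∧ ρ s ≠ b • 1) →
    Submodule.span k (Set.range ρ) = ⊤

/-- the hypotheses on the modular side. -/
structure VHyp (P : FreyPackage) [Fact P.p.Prime] (W : WeierstrassCurve ℤ) (V : Type)
    [AddCommGroup V] [Module (ZMod P.p) V] (ρV : GQ →* Module.End (ZMod P.p) V) : Prop where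
  level : ∃ L : IntermediateField ℚ Qb, FiniteDimensional ℚ L ∧
    ∀ σ : GQ, (∀ x ∈ L, σ x = x) → ρV σ = 1
  frob : ∃ S : Finset ℕ, ∀ ℓ : ℕ, ℓ.Prime → ℓ ∉ S → ∀ A : ValuationSubring Qb,
    A.LiesOverPrime ℓ → ∀ σ : GQ, A.IsFrobeniusAt σ ℓ →
      ρV σ * ρV σ - ((W.apOfModel ℓ : ℤ) : ZMod P.p) • ρV σ + (ℓ : ZMod P.p) • 1 = 0

/-- (FROB-E) `E[p]` itself satisfies `VHyp`. -/
def Stmt_EHyp : Prop :=
  ∀ (P : FreyPackage) [Fact P.p.Prime] (W : WeierstrassCurve ℤ), W.IsIntegralModelOf P.freyCurve →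
    VHyp P W (S13.Tors P) (rhoE P)

/-- (QUAD) two modules with `VHyp` satisfy a common quadratic relation. -/
def Stmt_Quad : Prop :=
  ∀ (P : FreyPackage) [Fact P.p.Prime] (W : WeierstrassCurve ℤ) (V₁ V₂ : Type)
    [AddCommGroup V₁] [Module (ZMod P.p) V₁] [AddCommGroup V₂] [Module (ZMod P.p) V₂]
    (ρ₁ : GQ →* Module.End (ZMod P.p) V₁) (ρ₂ : GQ →* Module.End (ZMod P.p) V₂),
    VHyp P W V₁ ρ₁ → VHyp P W V₂ ρ₂ →
    ∃ t : GQ → ZMod P.p, QuadRel ρ₁ (epsBar P.p (ZMod P.p)) t ∧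
      QuadRel ρ₂ (epsBar P.p (ZMod P.p)) t

/-- (SPAN-E) the Galois image spans `End(E[p])`. -/
def Stmt_SpanE : Prop :=
  ∀ P : FreyPackage, (P.p : ℤ) ∣ P.a * P.b * P.c →
    GaloisRepIsIrreducible (K := Qb) ℚ P.freyCurve P.p →
    Module.finrank (ZMod P.p) (S13.Tors P) = 2 ∧
      Submodule.span (ZMod P.p) (Set.range (rhoE P)) = ⊤

/-- (TRANSFER) **output 2**. -/
def Stmt_Transfer : Prop :=
  ∀ (P : FreyPackage) [Fact P.p.Prime] (W : WeierstrassCurve ℤ), W.IsIntegralModelOf P.freyCurve →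
    (P.p : ℤ) ∣ P.a * P.b * P.c → GaloisRepIsIrreducible (K := Qb) ℚ P.freyCurve P.p →
    ∀ (V : Type) [AddCommGroup V] [Module (ZMod P.p) V] [Nontrivial V]
      (ρV : GQ →* Module.End (ZMod P.p) V), VHyp P W V ρV →
    ∀ (σ : GQ) (c : ZMod P.p), rhoE P σ = c • 1 ↔ ρV σ = c • 1

/-- (NOT-EIS) **output 3**. -/
def Stmt_NotEis : Prop :=
  ∀ (P : FreyPackage) (W : WeierstrassCurve ℤ), W.IsIntegralModelOf P.freyCurve →
    (P.p : ℤ) ∣ P.a * P.b * P.c → GaloisRepIsIrreducible (K := Qb) ℚ P.freyCurve P.p →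
    ∀ S : Finset ℕ, ∃ ℓ : ℕ, ℓ.Prime ∧ ℓ ∉ S ∧
      ((W.apOfModel ℓ : ℤ) : ZMod P.p) ≠ (ℓ : ZMod P.p) + 1

end Fermat.Agent.MR.EC
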