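/-
TEAM MR -> S44, block EC, task EC-TORS (helper31): `p`-torsion in `E₀ / E₁`.
-/
import Fermat.Agent.MR.EC.Interface

set_option autoImplicit false

namespace Fermat.Agent.MR.EC

open WeierstrassCurve WeierstrassCurve.Affine WeierstrassCurve.Affine.Point
open Fermat.Agent.S05 (InE0 InE1 zc)

section Aux

variable {K Γ₀ : Type} [Field K] [LinearOrderedCommGroupWithZero Γ₀] (v : Valuation K Γ₀)

/-- `(1 + b)^p = 1 + b^p + p b r` with `r` integral. -/
theorem Tors_add_pow {p : ℕ} (hp : p.Prime) (b : K) (hb : v b ≤ 1) :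
    ∃ r : K, v r ≤ 1 ∧ (1 + b) ^ p = 1 + b ^ p + (p : K) * b * r := by
  obtain ⟨r, hr⟩ := exists_add_pow_prime_eq hp (1 : v.integer) (⟨b, hb⟩ : v.integer)
  refine ⟨(r : K), r.2, ?_⟩
  have := congrArg (fun z : v.integer => (z : K)) hr
  simpa using this

/-- if `a ^ p` is a principal unit (residue characteristic `p`), so is `a`. -/
theorem Tors_root_unit {p : ℕ} (hp : p.Prime) (hvp : v (p : K) < 1) (a : K) (ha : v a = 1)
    (hap : v (a ^ p - 1) < 1) : v (a - 1) < 1 := by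
  have hb : v (a - 1) ≤ 1 := by
    refine le_trans (Valuation.map_sub v a 1) ?_
    simp [ha]
  obtain ⟨r, hr, he⟩ := Tors_add_pow v hp (a - 1) hb
  rw [add_sub_cancel] at he
  have h1 : (a - 1) ^ p = (a ^ p - 1) - (p : K) * (a - 1) * r := by rw [he]; ring
  have h2 : v ((p : K) * (a - 1) * r) < 1 := by
    rw [map_mul, map_mul]
    calc v (p : K) * v (a - 1) * v r ≤ v (p : K) * 1 * 1 := by gcongr
      _ = v (p : K) := by simp
      _ < 1 := hvp
  have h3 : v ((a - 1) ^ p) < 1 := by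
    rw [h1]
    exact Valuation.map_sub_lt v hap h2
  rw [map_pow] at h3
  by_contra hcon
  exact absurd h3 (not_lt.mpr (one_le_pow₀ (not_lt.mp hcon)))

theorem Tors_E0_of_E1 {E : WeierstrassCurve.Affine K} (P : E.Point) (h : InE1 v P) :
    InE0 v P := by
  rcases P with _ | ⟨x, y, hxy⟩
  · exact trivial
  · exact le_of_lt (show 1 < v x from h)

theorem Tors_deep_lt_one {p : ℕ} (a : K) (h : Deep v p a) : v a < 1 := by
  by_contra hcon
  have h1 : 1 ≤ v a ^ (p - 1) := one_le_pow₀ (not_lt.mp hcon)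
  have h2 : v (p : K) ≤ 1 := S05.v_natCast_le_one v p
  exact absurd (lt_of_lt_of_le h h2) (not_lt.mpr h1)

end Aux

theorem stmt_E0Tors (hB : Stmt_TTBasic) (hP : Stmt_TTPow) : Stmt_E0Tors := by
  intro K Γ₀ _ _ _ v E α p hM hp hvp P hP0 hpP
  obtain ⟨-, hB2⟩ := hB K Γ₀ v E α hM
  obtain ⟨hva, -, hnot⟩ := hB2 P hP0
  obtain ⟨ε, hε, htt, -⟩ := hP K Γ₀ v E α hM P hP0 p
  rw [hpP, tt_zero] at htt
  by_contra hcon
  have h1 := hnot hcon
  have hap : v (tt α P ^ p - 1) < 1 := by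
    have : tt α P ^ p - 1 = -(tt α P ^ p * ε) := by
      linear_combination -htt
    rw [this, Valuation.map_neg, map_mul, map_pow, hva, one_pow, one_mul]
    exact lt_of_le_of_lt hε hM.w1
  have := Tors_root_unit v hp hvp (tt α P) hva hap
  rw [h1] at this
  exact lt_irrefl _ this

theorem stmt_E1Tors (hB : Stmt_TTBasic) (hP : Stmt_TTPow) (hD : Stmt_DeepPow) : Stmt_E1Tors := by
  intro K Γ₀ _ _ _ v E α p hM hp hp0 ha4 T hT1 hpT hdeep
  have hT0 : InE0 v T := Tors_E0_of_E1 v T hT1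
  obtain ⟨-, hB2⟩ := hB K Γ₀ v E α hM
  obtain ⟨hva, hin, -⟩ := hB2 T hT0
  have hr := hin hT1
  obtain ⟨ε, -, htt, hε4⟩ := hP K Γ₀ v E α hM T hT0 p
  have hε := hε4 hT1
  rw [hpT, tt_zero] at htt
  have hdp := hD K Γ₀ v p hp (tt α T - 1) hdeep
  rw [add_sub_cancel] at hdp
  have h1 : tt α T ^ p - 1 = -(tt α T ^ p * ε) := by linear_combination -htt
  rw [h1, Valuation.map_neg, map_mul, map_pow, hva, one_pow, one_mul] at hdp
  -- `v p * r ≤ v p * r ^ 4`
  set r := v (tt α T - 1) with hrdef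
  have hrlt : r < 1 := Tors_deep_lt_one v _ hdeep
  have hvp0 : v (p : K) ≠ 0 := (Valuation.ne_zero_iff v).mpr hp0
  have h2 : v (p : K) * r ≤ v (p : K) * r ^ 4 := by
    rw [← hdp]
    refine le_trans hε ?_
    rw [← hr]
    gcongr
  have h3 : r ≤ r ^ 4 := (mul_le_mul_iff_right₀ (zero_lt_iff.mpr hvp0)).mp h2
  have hr0 : r = 0 := by
    by_contra hne
    have hpos : 0 < r := zero_lt_iff.mpr hne
    have : r ^ 4 < r := by
      calc r ^ 4 = r * r ^ 3 := pow_succ' r 3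
        _ < r * 1 := by
          have : r ^ 3 < 1 := pow_lt_one₀ zero_le hrlt (by norm_num)
          gcongr
        _ = r := mul_one r
    exact absurd h3 (not_le.mpr this)
  have htt1 : tt α T = 1 := by
    have : tt α T - 1 = 0 := (Valuation.zero_iff v).mp hr0
    linear_combination this
  rcases T with _ | ⟨x, y, hxy⟩
  · rfl
  exfalso
  have hx : 1 < v x := hT1
  have hx0 : x ≠ 0 := S05.ne_zero_of_one_lt hx
  rw [tt_some] at htt1
  have hden : y + α * x ≠ 0 := by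
    intro h0
    rw [h0, div_zero] at htt1
    exact zero_ne_one htt1
  rw [div_eq_one_iff_eq hden] at htt1
  have h20 : (2 : K) ≠ 0 := by
    intro h; have := hM.v2; rw [h, _root_.map_zero] at this; exact zero_ne_one this
  have hα0 : α ≠ 0 := by
    intro h; have := hM.vα; rw [h, _root_.map_zero] at this; exact zero_ne_one this
  have : 2 * α * x = 0 := by linear_combination -htt1
  exact (mul_ne_zero (mul_ne_zero h20 hα0) hx0) this

theorem stmt_E1Inj (hB : Stmt_TTBasic) (hM' : Stmt_TTMul) (hG : Stmt_DeepGrp)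
    (hT : Stmt_E1Tors) : Stmt_E1Inj := by
  intro K Γ₀ _ _ _ v E α p hM hp hp2 hp0 hvp ha4 T T' hT1 hT1' hpT hpT' hdeep
  obtain ⟨hneg, -⟩ := hB K Γ₀ v E α hM
  obtain ⟨hG1, -, hG3, -⟩ := hG K Γ₀ v p hp hp2 hp0 hvp
  have hU : v E.a₂ ≤ 1 := by rw [← hM.sq, map_pow, hM.vα, one_pow]
  have hW : v E.a₄ ≤ 1 := hM.w1.le
  have hnT' : InE1 v (-T') := S05.InE1_neg T' hT1'
  have hS1 : InE1 v (T + -T') := (hM.mc.E1_add hU hW T (-T') hT1 hnT').1
  obtain ⟨ε, hε, htt, -⟩ := hM' K Γ₀ v E α hM T (-T') (Tors_E0_of_E1 v T hT1)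
    (Tors_E0_of_E1 v _ hnT')
  rw [hneg T'] at htt
  have hεd : Deep v p ((1 + ε) - 1) := by
    rw [add_sub_cancel_left]
    exact (hG3 ε (le_trans hε ha4)).1
  have hSd : Deep v p (tt α (T + -T') - 1) := by
    rw [htt, ← div_eq_mul_inv]
    exact hG1 _ _ hdeep hεd
  have hpS : p • (T + -T') = 0 := by
    rw [smul_add, smul_neg, hpT, hpT', _root_.neg_zero, add_zero]
  have ha4' : v E.a₄ ≤ v (p : K) := by
    refine le_trans ha4 ?_
    calc v (p : K) ^ 2 = v (p : K) * v (p : K) := sq _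
      _ ≤ v (p : K) * 1 := by gcongr
      _ = v (p : K) := mul_one _
  have := hT K Γ₀ v E α p hM hp hp0 ha4' (T + -T') hS1 hpS hSd
  rw [← sub_eq_add_neg] at this
  exact sub_eq_zero.mp this

theorem stmt_E1Unity (hP : Stmt_TTPow) (hR : Stmt_DeepRoot) (hG : Stmt_DeepGrp) :
    Stmt_E1Unity := by
  intro K Γ₀ _ _ _ _ v E α p hM hp hp2 hp0 hvp ha4 T hT1 hpT
  obtain ⟨-, hG2, hG3, -⟩ := hG K Γ₀ v p hp hp2 hp0 hvp
  obtain ⟨ε, hε, htt, -⟩ := hP K Γ₀ v E α hM T (Tors_E0_of_E1 v T hT1) p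
  rw [hpT, tt_zero] at htt
  obtain ⟨η, hη, hηd⟩ := hR K Γ₀ v p hp ε (hG3 ε (le_trans hε ha4)).2
  have ht0 : tt α T ≠ 0 := by
    intro h0
    rw [h0, zero_pow hp.ne_zero, zero_mul] at htt
    exact one_ne_zero htt
  refine ⟨tt α T * η, by rw [mul_pow, hη, ← htt], ?_⟩
  have : tt α T / (tt α T * η) = η⁻¹ := by
    rw [div_mul_eq_div_div, div_self ht0, one_div]
  rw [this]
  exact hG2 η hηd

end Fermat.Agent.MR.EC

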