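import Fermat.Agent.MR.EC.Interface

/-!
# MR / EC : EC-TRANSFER : `Stmt_Transfer` (output 2) and `Stmt_NotEis` (output 3).
-/

set_option autoImplicit false

namespace Fermat.Agent.MR.EC

open Fermat.Agent.ES.Rep23 (QuadRel)
open Fermat.Agent.ES.RepGalois (IsCyc)
open Fermat.Agent.ES.Res29 (epsBar)

section Abs

variable {k G Y₁ Y₂ : Type} [Field k] [Group G] [AddCommGroup Y₁] [Module k Y₁] [AddCommGroup Y₂]
  [Module k Y₂] {ρ₁ : G →* Module.End k Y₁} {ρ₂ : G →* Module.End k Y₂}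

/-- relations with two terms. -/
theorem TR_two
    (H : ∀ (s : Finset G) (c : G → k), ∑ g ∈ s, c g • ρ₁ g = 0 ↔ ∑ g ∈ s, c g • ρ₂ g = 0)
    (x y : G) (a b : k) : a • ρ₁ x + b • ρ₁ y = 0 ↔ a • ρ₂ x + b • ρ₂ y = 0 := by
  classical
  by_cases hxy : x = y
  · subst hxy
    have := H {x} (fun _ => a + b)
    simpa [add_smul] using this
  · have := H {x, y} (fun g => if g = x then a else b)
    rw [Finset.sum_pair hxy, Finset.sum_pair hxy] at this
    simpa [Ne.symm hxy] using this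

theorem TR_scalar
    (H : ∀ (s : Finset G) (c : G → k), ∑ g ∈ s, c g • ρ₁ g = 0 ↔ ∑ g ∈ s, c g • ρ₂ g = 0)
    (σ : G) (c : k) : ρ₁ σ = c • 1 ↔ ρ₂ σ = c • 1 := by
  have h := TR_two H σ 1 1 (-c)
  rw [map_one, map_one, one_smul, one_smul, neg_smul, neg_smul, ← sub_eq_add_neg,
    ← sub_eq_add_neg, sub_eq_zero, sub_eq_zero] at h
  exact h

theorem TR_eq
    (H : ∀ (s : Finset G) (c : G → k), ∑ g ∈ s, c g • ρ₁ g = 0 ↔ ∑ g ∈ s, c g • ρ₂ g = 0)
    (x y : G) : ρ₁ x = ρ₁ y ↔ ρ₂ x = ρ₂ y := by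
  have h := TR_two H x y 1 (-1)
  rw [one_smul, one_smul, neg_smul, neg_smul, one_smul, one_smul, ← sub_eq_add_neg,
    ← sub_eq_add_neg, sub_eq_zero, sub_eq_zero] at h
  exact h

/-- the endomorphism algebra of a plane is not commutative. -/
theorem TR_not_comm (hfr : Module.finrank k Y₁ = 2)
    (hc : ∀ f g : Module.End k Y₁, f * g = g * f) : False := by
  have : Module.Finite k Y₁ := Module.finite_of_finrank_pos (by rw [hfr]; norm_num)
  let b : Module.Basis (Fin 2) k Y₁ := Module.finBasisOfFinrankEq k Y₁ hfr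
  let f : Module.End k Y₁ := b.constr k ![b 1, 0]
  let g : Module.End k Y₁ := b.constr k ![0, b 0]
  have h1 := LinearMap.congr_fun (hc f g) (b 1)
  have hf0 : f (b 0) = b 1 := by simp [f]
  have hf1 : f (b 1) = 0 := by simp [f]
  have hg1 : g (b 1) = b 0 := by simp [g]
  rw [Module.End.mul_apply, Module.End.mul_apply, hg1, hf0, hf1, map_zero] at h1
  exact b.ne_zero 1 h1

/-- a spanning commuting family makes the whole algebra commutative. -/
theorem TR_comm_of_span (hspan : Submodule.span k (Set.range ρ₁) = ⊤)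
    (hc : ∀ x y : G, ρ₁ x * ρ₁ y = ρ₁ y * ρ₁ x) (f g : Module.End k Y₁) : f * g = g * f := by
  have h1 : ∀ (y : G) (f : Module.End k Y₁), f * ρ₁ y = ρ₁ y * f := by
    intro y f
    have hf : f ∈ Submodule.span k (Set.range ρ₁) := hspan ▸ Submodule.mem_top
    induction hf using Submodule.span_induction with
    | mem z hz => obtain ⟨x, rfl⟩ := hz; exact hc x y
    | zero => simp
    | add u v _ _ hu hv => rw [add_mul, mul_add, hu, hv]
    | smul a u _ hu => rw [smul_mul_assoc, mul_smul_comm, hu]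
  have hg : g ∈ Submodule.span k (Set.range ρ₁) := hspan ▸ Submodule.mem_top
  induction hg using Submodule.span_induction with
  | mem z hz => obtain ⟨y, rfl⟩ := hz; exact h1 y f
  | zero => simp
  | add u v _ _ hu hv => rw [add_mul, mul_add, hu, hv]
  | smul a u _ hu => rw [smul_mul_assoc, mul_smul_comm, hu]

end Abs

theorem TR_two_ne_zero (P : FreyPackage) : (2 : ZMod P.p) ≠ 0 := by
  intro h
  have h2 : ((2 : ℕ) : ZMod P.p) = 0 := by exact_mod_cast h
  rw [ZMod.natCast_eq_zero_iff] at h2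
  have := Nat.le_of_dvd (by norm_num) h2
  have := P.hp5
  omega

theorem stmt_Transfer (hE : Stmt_EHyp) (hQ : Stmt_Quad) (hS : Stmt_SpanE) (hB : Stmt_BLR) :
    Stmt_Transfer := by
  intro P _ W hW hpabc hirr V _ _ _ ρV hV σ c
  obtain ⟨t, hq1, hq2⟩ := hQ P W (S13.Tors P) V (rhoE P) ρV (hE P W hW) hV
  obtain ⟨hfr, hspan⟩ := hS P hpabc hirr
  exact TR_scalar (hB (ZMod P.p) GQ (S13.Tors P) V (rhoE P) ρV _ t (TR_two_ne_zero P) hq1 hq2 hfr
    hspan) σ c

/-- the reducible representation `1 ⊕ ω`. -/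
noncomputable def TR_rho2 (p : ℕ) [Fact p.Prime] : GQ →* Module.End (ZMod p) (ZMod p × ZMod p) where
  toFun g := LinearMap.prodMap LinearMap.id (epsBar p (ZMod p) g • LinearMap.id)
  map_one' := by
    ext <;> simp
  map_mul' g h := by
    ext <;> simp [mul_comm]

theorem TR_rho2_apply (p : ℕ) [Fact p.Prime] (g : GQ) (x : ZMod p × ZMod p) :
    TR_rho2 p g x = (x.1, epsBar p (ZMod p) g * x.2) := rfl

theorem stmt_NotEis (hE : Stmt_EHyp) (hQ : Stmt_Quad) (hS : Stmt_SpanE) (hB : Stmt_BLR) :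
    Stmt_NotEis := by
  intro P W hW hpabc hirr S
  have : Fact P.p.Prime := ⟨P.pp⟩
  by_contra hcon
  push Not at hcon
  have hV2 : VHyp P W (ZMod P.p × ZMod P.p) (TR_rho2 P.p) := by
    constructor
    · obtain ⟨L, hL, hlev⟩ := ES.RepGalois.exists_level P.p P.pp.pos
      refine ⟨L, hL, fun σ hσ => ?_⟩
      have h1 : IsCyc P.p σ 1 :=
        hlev 1 σ (fun x hx => by simpa using (hσ x hx).symm) 1 (ES.RepGalois.isCyc_one P.p)
      have h2 : epsBar P.p (ZMod P.p) σ = 1 := by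
        rw [ES.Res29.epsBar_eq P.p (ZMod P.p) h1, Nat.cast_one]
      ext <;> simp [TR_rho2_apply, h2]
    · refine ⟨insert P.p S, fun ℓ hℓ hℓS A hA σ hσ => ?_⟩
      rw [Finset.mem_insert, not_or] at hℓS
      have hndvd : ¬ ℓ ∣ P.p := fun h => hℓS.1 ((Nat.prime_dvd_prime_iff_eq hℓ P.pp).1 h)
      have h1 : IsCyc P.p σ ℓ := ES.RepGalois.isCyc_frob hℓ hA hσ hndvd
      have h2 : epsBar P.p (ZMod P.p) σ = (ℓ : ZMod P.p) := ES.Res29.epsBar_eq P.p (ZMod P.p) h1
      rw [hcon ℓ hℓ hℓS.2]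
      apply LinearMap.ext
      intro x
      apply Prod.ext
      · simp [TR_rho2_apply, h2]
        ring
      · simp [TR_rho2_apply, h2]
        ring
  obtain ⟨t, hq1, hq2⟩ := hQ P W (S13.Tors P) (ZMod P.p × ZMod P.p) (rhoE P) (TR_rho2 P.p)
    (hE P W hW) hV2
  obtain ⟨hfr, hspan⟩ := hS P hpabc hirr
  have H := hB (ZMod P.p) GQ (S13.Tors P) (ZMod P.p × ZMod P.p) (rhoE P) (TR_rho2 P.p) _ t
    (TR_two_ne_zero P) hq1 hq2 hfr hspan
  have hcomm : ∀ x y : GQ, rhoE P x * rhoE P y = rhoE P y * rhoE P x := by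
    intro x y
    rw [← map_mul, ← map_mul, TR_eq H]
    apply LinearMap.ext
    intro z
    rw [TR_rho2_apply, TR_rho2_apply, map_mul, map_mul, mul_comm (epsBar P.p (ZMod P.p) x)]
  exact TR_not_comm hfr (TR_comm_of_span hspan hcomm)

end Fermat.Agent.MR.EC
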