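import Fermat.Agent.MR.EC.Interface
import Fermat.Agent.S52.ShortIso

/-!
# MR / EC, task EC-VC (helper77): an integral model has the same Galois module of points
-/

set_option autoImplicit false

namespace Fermat.Agent.MR.EC

theorem stmt_VC : Stmt_VC := by
  rintro W E ⟨C, hC⟩
  exact Fermat.Agent.S52.ShortIso.exists_equivariant _ _ C hC

end Fermat.Agent.MR.EC
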