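import Fermat.Agent.MR.EC.Adapter
import Fermat.Agent.MR.EC.BLR
import Fermat.Agent.MR.EC.Deep
import Fermat.Agent.MR.EC.E1Gal
import Fermat.Agent.MR.EC.EHyp
import Fermat.Agent.MR.EC.Frey
import Fermat.Agent.MR.EC.FrobRel
import Fermat.Agent.MR.EC.LevelOmega
import Fermat.Agent.MR.EC.Mid
import Fermat.Agent.MR.EC.Model
import Fermat.Agent.MR.EC.Nonzero
import Fermat.Agent.MR.EC.PEUabs
import Fermat.Agent.MR.EC.Q0
import Fermat.Agent.MR.EC.Quad
import Fermat.Agent.MR.EC.Res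
import Fermat.Agent.MR.EC.Span
import Fermat.Agent.MR.EC.SpanE
import Fermat.Agent.MR.EC.TTMul
import Fermat.Agent.MR.EC.TTPow
import Fermat.Agent.MR.EC.Tors
import Fermat.Agent.MR.EC.Transfer
import Fermat.Agent.MR.EC.VC
import Fermat.Agent.FD.Main

/-!
# MR / EC : collector.  All outputs of the elliptic curve side of S44, unconditionally.
-/

set_option autoImplicit false

namespace Fermat.Agent.MR.EC.All

theorem ttPow : Stmt_TTPow := stmt_TTPow stmt_TTMul_all

theorem e0Tors : Stmt_E0Tors := stmt_E0Tors stmt_TTBasic ttPow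

theorem e1Tors : Stmt_E1Tors := stmt_E1Tors stmt_TTBasic ttPow stmt_DeepPow

theorem e1Inj : Stmt_E1Inj := stmt_E1Inj stmt_TTBasic stmt_TTMul_all stmt_DeepGrp e1Tors

theorem e1Unity : Stmt_E1Unity := stmt_E1Unity ttPow stmt_DeepRoot stmt_DeepGrp

theorem e1Cyc : Stmt_E1Cyc := stmt_E1Cyc stmt_TTBasic ttPow stmt_DeepGrp e1Tors e1Inj e1Unity

theorem e1Gal : Stmt_E1Gal := stmt_E1Gal stmt_TTBasic ttPow stmt_DeepGrp e1Tors e1Inj e1Unity

theorem mid : Stmt_Mid := stmt_Mid e0Tors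

theorem e1Nonzero : Stmt_E1Nonzero := stmt_E1Nonzero e0Tors mid

theorem peuAbs : Stmt_PEUabs :=
  stmt_PEUabs stmt_TTBasic stmt_TTMul_all ttPow stmt_DeepRoot stmt_DeepGrp e1Tors e1Gal

theorem modelLocal : Stmt_ModelLocal :=
  stmt_ModelLocal stmt_TTBasic e1Cyc e1Gal mid e1Nonzero stmt_Q0 peuAbs stmt_Res

/-- **output 1**. -/
theorem freyLocal : Stmt_FreyLocal := stmt_FreyLocal modelLocal

theorem e1Om : Stmt_E1Om := stmt_E1Om freyLocal

theorem e1 : Stmt_E1 := stmt_E1 freyLocal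

theorem peu : Stmt_PEU := stmt_PEU freyLocal

theorem peu' : Stmt_PEU' := stmt_PEU' freyLocal

theorem eHyp : Stmt_EHyp := stmt_EHyp stmt_FrobRel stmt_VC stmt_Level

theorem quad : Stmt_Quad := stmt_Quad FD.stmt_FD

theorem spanE : Stmt_SpanE := stmt_SpanE freyLocal stmt_Omega stmt_Span

/-- **output 2**. -/
theorem transfer : Stmt_Transfer := stmt_Transfer eHyp quad spanE stmt_BLR

/-- **output 3**. -/
theorem notEis : Stmt_NotEis := stmt_NotEis eHyp quad spanE stmt_BLR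

end Fermat.Agent.MR.EC.All
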