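import Fermat.Agent.S13.Interface
import Fermat.Agent.S05.Inertia
import Fermat.Agent.ES.Rep23.Basic
import Fermat.Agent.ES.RepGalois

/-!
# MR / EC : the elliptic curve side of S44 (architect helper90).  Definitions.

Model curve `E : y² = x³ + a₂ x² + a₄ x` over a valued field `(K, v)`, `a₂ = α²` a unit,
`v a₄ < 1` (multiplicative reduction, node at `(0,0)`).  `tt α P = (y - α x) / (y + α x)` is an
approximate Tate parameter: on `E₀` it is multiplicative up to a factor `1 + O(a₄)`.
-/

set_option autoImplicit false

namespace Fermat.Agent.MR.EC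

open WeierstrassCurve WeierstrassCurve.Affine

/-- the algebraic closure of the rationals. -/
abbrev Qb := AlgebraicClosure ℚ

/-- the absolute Galois group. -/
noncomputable abbrev GQ := Qb ≃ₐ[ℚ] Qb

section Abs

variable {K : Type*} [Field K] {Γ₀ : Type*} [LinearOrderedCommGroupWithZero Γ₀]

/-- the approximate Tate parameter. -/
def tt (α : K) {E : WeierstrassCurve.Affine K} : E.Point → K
  | .zero => 1
  | .some x y _ => (y - α * x) / (y + α * x)

@[simp] theorem tt_zero (α : K) {E : WeierstrassCurve.Affine K} : tt α (0 : E.Point) = 1 := rfl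

@[simp] theorem tt_some (α : K) {E : WeierstrassCurve.Affine K} {x y : K}
    (h : E.Nonsingular x y) : tt α (Point.some x y h) = (y - α * x) / (y + α * x) := rfl

/-- `a` is closer to `0` than `1 - ζ_p`:  `v a ^ (p - 1) < v p`. -/
def Deep (v : Valuation K Γ₀) (p : ℕ) (a : K) : Prop := v a ^ (p - 1) < v (p : K)

/-- the local setting: multiplicative reduction, tangent directions `± α` at the node. -/
structure MSet (v : Valuation K Γ₀) (E : WeierstrassCurve.Affine K) (α : K) : Prop where
  mc : S05.IsMC E
  sq : α ^ 2 = E.a₂
  vα : v α = 1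
  v2 : v (2 : K) = 1
  w0 : E.a₄ ≠ 0
  w1 : v E.a₄ < 1

/-- an inertia-like automorphism: trivial on the residue field, preserves `v`, fixes `α`. -/
structure GAct [DecidableEq K] (v : Valuation K Γ₀) (E : WeierstrassCurve.Affine K) (α : K)
    (σ : K →+* K) (τ : E.Point →+ E.Point) : Prop where
  ia : S05.InertiaAct v E σ τ
  val : ∀ a, v (σ a) = v a
  fixα : σ α = α

end Abs

/-- the Galois action on the `p`-torsion of the Frey curve as a linear representation. -/
noncomputable def rhoE (P : FreyPackage) : GQ →* Module.End (ZMod P.p) (S13.Tors P) where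
  toFun σ := (DistribSMul.toAddMonoidHom (S13.Tors P) σ).toZModLinearMap P.p
  map_one' := by
    ext x
    simp
  map_mul' σ τ := by
    ext x
    simp [mul_smul]

theorem rhoE_apply (P : FreyPackage) (σ : GQ) (x : S13.Tors P) : rhoE P σ x = σ • x := rfl

end Fermat.Agent.MR.EC
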