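import Fermat.Agent.MR.EC.Interface
import Fermat.Agent.S36.Base.Mu
import Fermat.Agent.S36.Base.Res

/-!
# MR / EC : EC-RES, the inertia field has the full residue field

Direct consequence of `S36.Base.stmt_Res` (`A_E → A / 𝔪_A` is onto) and `S36.Base.stmt_Mu`.
-/

set_option autoImplicit false

namespace Fermat.Agent.MR.EC

open Fermat.Agent.S36.Base (AE IE)

theorem stmt_Res : Stmt_Res := by
  intro p hp A hA a ha
  obtain ⟨b, hb⟩ := S36.Base.stmt_Res S36.Base.stmt_Mu p A hp hA ⟨a, ha⟩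
  refine ⟨(AE.toA A b : A), fun σ hσ => ?_, ?_⟩
  · rw [AE.coe_toA]
    exact IE.fixed A _ hσ
  · have h1 : a - ((AE.toA A b : A) : S24.Qbar) ∈ A.nonunits :=
      ValuationSubring.coe_mem_nonunits_iff.2 hb
    exact (ValuationSubring.mem_nonunits_iff A).1 h1

end Fermat.Agent.MR.EC
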